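import Mathlib
import Fermat.Prelude.Def_ModularForm_HeckeOperator

set_option autoImplicit false

namespace Fermat.Agent.S23

open UpperHalfPlane
open scoped MatrixGroups Manifold ModularForm

/-- A complex power series all of whose coefficients are rational with a common denominator. -/
def IsBddRat (φ : PowerSeries ℂ) : Prop :=
  ∃ M : ℕ, M ≠ 0 ∧ ∀ n : ℕ, ∃ z : ℤ, (M : ℂ) * PowerSeries.coeff n φ = (z : ℂ)

/-- The primitive element `N ^ 11 * Δ (N τ)`, written as a slash. -/
noncomputable def uN (N : ℕ) : ℍ → ℂ :=
  ModularForm.discriminant ∣[(12 : ℤ)] ModularForm.heckeDiagMatrix N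

/-- Holomorphic, `1`-periodic and bounded at `i∞`: the functions having a `q`-expansion. -/
structure IsNice (F : ℍ → ℂ) : Prop where
  holo : MDiff F
  periodic : Function.Periodic (F ∘ UpperHalfPlane.ofComplex) 1
  bdd : UpperHalfPlane.IsBoundedAtImInfty F

end Fermat.Agent.S23
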