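import Mathlib
import Fermat.Agent.S23.Defs

set_option autoImplicit false

namespace Fermat.Agent.S23

open UpperHalfPlane
open scoped MatrixGroups Manifold ModularForm

namespace IsNice

variable {F G : ℍ → ℂ}

lemma periodic' (hF : IsNice F) : Function.Periodic (F ∘ ofComplex) ((1 : ℝ) : ℂ) := by
  simpa using hF.periodic

lemma analyticAt (hF : IsNice F) : AnalyticAt ℂ (cuspFunction 1 F) 0 :=
  analyticAt_cuspFunction_zero one_pos hF.periodic' hF.holo hF.bdd

lemma const (c : ℂ) : IsNice (fun _ : ℍ => c) where
  holo := mdifferentiable_const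
  periodic := fun _ => rfl
  bdd := Filter.const_boundedAtFilter _ c

lemma zero : IsNice (0 : ℍ → ℂ) := const 0

lemma one : IsNice (1 : ℍ → ℂ) := const 1

lemma add (hF : IsNice F) (hG : IsNice G) : IsNice (F + G) where
  holo := hF.holo.add hG.holo
  periodic := hF.periodic.add hG.periodic
  bdd := hF.bdd.add hG.bdd

lemma mul (hF : IsNice F) (hG : IsNice G) : IsNice (F * G) where
  holo := hF.holo.mul hG.holo
  periodic := hF.periodic.mul hG.periodic
  bdd := hF.bdd.mul hG.bdd

lemma neg (hF : IsNice F) : IsNice (-F) where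
  holo := hF.holo.neg
  periodic := fun z => by
    have := hF.periodic z
    simp only [Function.comp_apply, Pi.neg_apply] at this ⊢
    rw [this]
  bdd := hF.bdd.neg

lemma sub (hF : IsNice F) (hG : IsNice G) : IsNice (F - G) := by
  simpa [sub_eq_add_neg] using hF.add hG.neg

lemma smul (c : ℂ) (hF : IsNice F) : IsNice (c • F) := by
  have : c • F = (fun _ : ℍ => c) * F := by ext; simp
  rw [this]
  exact (const c).mul hF

lemma pow (hF : IsNice F) (n : ℕ) : IsNice (F ^ n) := by
  induction n with
  | zero => simpa using one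
  | succ n ih => rw [pow_succ]; exact ih.mul hF

lemma sum {ι : Type*} (s : Finset ι) {H : ι → ℍ → ℂ} (hH : ∀ i ∈ s, IsNice (H i)) :
    IsNice (∑ i ∈ s, H i) := by
  classical
  induction s using Finset.induction_on with
  | empty => simpa using zero
  | insert a s ha ih =>
    rw [Finset.sum_insert ha]
    exact (hH a (Finset.mem_insert_self a s)).add
      (ih fun i hi => hH i (Finset.mem_insert_of_mem hi))

lemma qExpansion_add (hF : IsNice F) (hG : IsNice G) :
    qExpansion 1 (F + G) = qExpansion 1 F + qExpansion 1 G :=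
  UpperHalfPlane.qExpansion_add hF.analyticAt hG.analyticAt

lemma qExpansion_mul (hF : IsNice F) (hG : IsNice G) :
    qExpansion 1 (F * G) = qExpansion 1 F * qExpansion 1 G :=
  UpperHalfPlane.qExpansion_mul hF.analyticAt hG.analyticAt

lemma qExpansion_smul (c : ℂ) (hF : IsNice F) :
    qExpansion 1 (c • F) = c • qExpansion 1 F :=
  UpperHalfPlane.qExpansion_smul hF.analyticAt c

lemma qExpansion_pow (hF : IsNice F) (n : ℕ) :
    qExpansion 1 (F ^ n) = qExpansion 1 F ^ n := by
  induction n with
  | zero => simpa using UpperHalfPlane.qExpansion_one 1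
  | succ n ih => rw [pow_succ, pow_succ, (hF.pow n).qExpansion_mul hF, ih]

lemma qExpansion_sum {ι : Type*} (s : Finset ι) {H : ι → ℍ → ℂ} (hH : ∀ i ∈ s, IsNice (H i)) :
    qExpansion 1 (∑ i ∈ s, H i) = ∑ i ∈ s, qExpansion 1 (H i) := by
  classical
  induction s using Finset.induction_on with
  | empty => simpa using UpperHalfPlane.qExpansion_zero 1
  | insert a s ha ih =>
    rw [Finset.sum_insert ha, Finset.sum_insert ha,
      (hH a (Finset.mem_insert_self a s)).qExpansion_add
        (sum s fun i hi => hH i (Finset.mem_insert_of_mem hi)),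
      ih fun i hi => hH i (Finset.mem_insert_of_mem hi)]

lemma eq_zero_of_qExpansion_eq_zero (hF : IsNice F) (h0 : qExpansion 1 F = 0) : F = 0 :=
  (UpperHalfPlane.qExpansion_eq_zero_iff one_pos hF.periodic' hF.holo hF.bdd).mp h0

lemma eq_of_qExpansion_eq (hF : IsNice F) (hG : IsNice G)
    (h : qExpansion 1 F = qExpansion 1 G) : F = G := by
  have := (hF.sub hG).eq_zero_of_qExpansion_eq_zero
    (by rw [UpperHalfPlane.qExpansion_sub hF.analyticAt hG.analyticAt, h, sub_self])
  exact sub_eq_zero.mp this

end IsNice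

/-- A modular form on a group having `1` as a strict period is nice. -/
lemma isNice_of_modularForm {Γ : Subgroup (GL (Fin 2) ℝ)} {k : ℤ} {F : Type*} [FunLike F ℍ ℂ]
    [ModularFormClass F Γ k] [Γ.IsArithmetic] (h1 : (1 : ℝ) ∈ Γ.strictPeriods) (f : F) :
    IsNice (f : ℍ → ℂ) where
  holo := ModularFormClass.holo f
  periodic := by
    simpa using SlashInvariantFormClass.periodic_comp_ofComplex f h1
  bdd := ModularFormClass.bdd_at_infty f

end Fermat.Agent.S23
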