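import Mathlib

set_option autoImplicit false

namespace Fermat.Agent.S23

open PowerSeries

/-- A rational number `r` with `c * r ^ m` an integer for all `m` (`c ≠ 0`) is an integer. -/
theorem rat_isInt_of_forall_mul_pow_isInt (c : ℤ) (hc : c ≠ 0) (r : ℚ)
    (h : ∀ m : ℕ, ∃ z : ℤ, (z : ℚ) = c * r ^ m) : ∃ z : ℤ, (z : ℚ) = r := by
  refine ⟨r.num, ?_⟩
  suffices hden : r.den = 1 by
    conv_rhs => rw [← Rat.num_div_den r, hden]
    simp
  by_contra hne
  have hden2 : 2 ≤ r.den := by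
    have := r.den_pos
    omega
  -- `den ^ m ∣ c` for all `m`
  have hdvd : ∀ m : ℕ, ((r.den : ℤ) ^ m) ∣ c := by
    intro m
    obtain ⟨z, hz⟩ := h m
    have h1 : (z : ℚ) * (r.den : ℚ) ^ m = c * (r.num : ℚ) ^ m := by
      have hd0 : (r.den : ℚ) ≠ 0 := by exact_mod_cast r.den_ne_zero
      have hrm : r ^ m = (r.num : ℚ) ^ m / (r.den : ℚ) ^ m := by
        rw [← div_pow, Rat.num_div_den]
      rw [hz, hrm]
      field_simp
    have h2 : z * (r.den : ℤ) ^ m = c * r.num ^ m := by exact_mod_cast h1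
    have hcop : IsCoprime ((r.den : ℤ) ^ m) (r.num ^ m) := by
      apply IsCoprime.pow
      rw [Int.isCoprime_iff_gcd_eq_one]
      have := r.reduced
      rw [Nat.Coprime] at this
      rw [Int.gcd_comm]
      simpa [Int.gcd, Int.natAbs_natCast] using this
    have h3 : ((r.den : ℤ) ^ m) ∣ c * r.num ^ m := ⟨z, by rw [← h2]; ring⟩
    exact hcop.dvd_of_dvd_mul_right h3
  have h4 := hdvd c.natAbs
  have h5 : ((r.den : ℤ) ^ c.natAbs).natAbs ≤ c.natAbs :=
    Nat.le_of_dvd (Int.natAbs_pos.mpr hc) (Int.natAbs_dvd_natAbs.mpr h4)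
  rw [Int.natAbs_pow, Int.natAbs_natCast] at h5
  have h6 : c.natAbs < 2 ^ c.natAbs := Nat.lt_two_pow_self
  have h7 : 2 ^ c.natAbs ≤ r.den ^ c.natAbs := Nat.pow_le_pow_left hden2 _
  omega

/-- The coefficient of a product at the sum of the "orders". -/
theorem coeff_add_mul_of_forall_lt {R : Type*} [CommSemiring R] (f g : R⟦X⟧) (a b : ℕ)
    (hf : ∀ j < a, coeff j f = 0) (hg : ∀ j < b, coeff j g = 0) :
    coeff (a + b) (f * g) = coeff a f * coeff b g := by
  rw [coeff_mul]
  rw [Finset.sum_eq_single (a, b)]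
  · rintro ⟨i, j⟩ hij hne
    rw [Finset.HasAntidiagonal.mem_antidiagonal] at hij
    simp only at hij
    by_cases hi : i < a
    · rw [hf i hi, zero_mul]
    · have hj : j < b := by
        by_contra hj
        apply hne
        have : i = a := by omega
        have : j = b := by omega
        subst_vars
        rfl
      rw [hg j hj, mul_zero]
  · intro h
    exact absurd ((Finset.HasAntidiagonal.mem_antidiagonal (n := a + b) (a := (a, b))).mpr rfl) h

theorem coeff_lt_mul_of_forall_lt {R : Type*} [CommSemiring R] (f g : R⟦X⟧) (a b : ℕ)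
    (hf : ∀ j < a, coeff j f = 0) (hg : ∀ j < b, coeff j g = 0) :
    ∀ j < a + b, coeff j (f * g) = 0 := by
  intro n hn
  rw [coeff_mul]
  apply Finset.sum_eq_zero
  rintro ⟨i, j⟩ hij
  rw [Finset.HasAntidiagonal.mem_antidiagonal] at hij
  simp only at hij
  by_cases hi : i < a
  · rw [hf i hi, zero_mul]
  · rw [hg j (by omega), mul_zero]

theorem coeff_pow_of_forall_lt {R : Type*} [CommSemiring R] (g : R⟦X⟧) (k : ℕ)
    (hg : ∀ j < k, coeff j g = 0) (m : ℕ) :
    (∀ j < k * m, coeff j (g ^ m) = 0) ∧ coeff (k * m) (g ^ m) = (coeff k g) ^ m := by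
  induction m with
  | zero => simp
  | succ m ih =>
    obtain ⟨ih1, ih2⟩ := ih
    constructor
    · intro j hj
      rw [pow_succ]
      exact coeff_lt_mul_of_forall_lt _ _ (k * m) k ih1 hg j (by rw [Nat.mul_succ] at hj; exact hj)
    · rw [pow_succ, Nat.mul_succ, coeff_add_mul_of_forall_lt _ _ (k * m) k ih1 hg, ih2, pow_succ]

/-- The subring of `ℚ⟦X⟧` of power series with integer coefficients. -/
noncomputable abbrev intSeries : Subring ℚ⟦X⟧ := (PowerSeries.map (Int.castRingHom ℚ)).range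

theorem mem_intSeries_iff (x : ℚ⟦X⟧) :
    x ∈ intSeries ↔ ∀ n, ∃ z : ℤ, (z : ℚ) = coeff n x := by
  constructor
  · rintro ⟨y, rfl⟩ n
    exact ⟨coeff n y, by simp⟩
  · intro h
    choose z hz using h
    refine ⟨PowerSeries.mk z, ?_⟩
    ext n
    simp [hz n]

/-- `ℤ⟦X⟧` is completely integrally closed in `ℚ⟦X⟧`: if `d ≠ 0` has integer coefficients and
`d * x ^ m` has integer coefficients for every `m`, then `x` has integer coefficients. -/
theorem mem_intSeries_of_forall_mul_pow_mem (d : ℤ⟦X⟧) (hd : d ≠ 0) (x : ℚ⟦X⟧)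
    (h : ∀ m : ℕ, PowerSeries.map (Int.castRingHom ℚ) d * x ^ m ∈ intSeries) :
    x ∈ intSeries := by
  classical
  by_contra hx
  rw [mem_intSeries_iff] at hx
  push Not at hx
  -- least index with a non-integral coefficient
  let k := Nat.find hx
  have hk : ∀ z : ℤ, (z : ℚ) ≠ coeff k x := Nat.find_spec hx
  have hlt : ∀ j < k, ∃ z : ℤ, (z : ℚ) = coeff j x := by
    intro j hj
    have := Nat.find_min hx hj
    push Not at this
    exact this
  -- the integral truncation
  let a' : ℤ⟦X⟧ := PowerSeries.mk fun j => if j < k then (coeff j x).num else 0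
  let a : ℚ⟦X⟧ := PowerSeries.map (Int.castRingHom ℚ) a'
  have ha : a ∈ intSeries := ⟨a', rfl⟩
  have hxa_lt : ∀ j < k, coeff j (x - a) = 0 := by
    intro j hj
    obtain ⟨z, hz⟩ := hlt j hj
    simp only [a, a', map_sub, coeff_map, coeff_mk, if_pos hj, eq_intCast]
    rw [← hz]
    simp
  have hxa_k : coeff k (x - a) = coeff k x := by
    simp [a, a']
  -- order of `d`
  have hd' : ∃ n, coeff n d ≠ 0 := by
    by_contra hcon
    push Not at hcon
    exact hd (PowerSeries.ext (by simpa using hcon))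
  let n0 := Nat.find hd'
  have hc : coeff n0 d ≠ 0 := Nat.find_spec hd'
  have hd_lt : ∀ j < n0, coeff j (PowerSeries.map (Int.castRingHom ℚ) d) = 0 := by
    intro j hj
    have := Nat.find_min hd' hj
    push Not at this
    simp [this]
  -- `d * (x - a) ^ m` has integer coefficients
  have hmem : ∀ m : ℕ, PowerSeries.map (Int.castRingHom ℚ) d * (x - a) ^ m ∈ intSeries := by
    intro m
    rw [sub_eq_add_neg, add_pow, Finset.mul_sum]
    refine Subring.sum_mem _ fun i _ => ?_
    have : PowerSeries.map (Int.castRingHom ℚ) d * (x ^ i * (-a) ^ (m - i) * (m.choose i : ℚ⟦X⟧)) =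
        (PowerSeries.map (Int.castRingHom ℚ) d * x ^ i) * ((-a) ^ (m - i) * (m.choose i : ℚ⟦X⟧)) := by
      ring
    rw [this]
    refine Subring.mul_mem _ (h i) (Subring.mul_mem _ (Subring.pow_mem _ (Subring.neg_mem _ ha) _) ?_)
    exact natCast_mem _ _
  -- extract the lowest coefficient
  have hcoef : ∀ m : ℕ, ∃ z : ℤ, (z : ℚ) = (coeff n0 d : ℤ) * (coeff k x) ^ m := by
    intro m
    obtain ⟨z, hz⟩ := (mem_intSeries_iff _).mp (hmem m) (n0 + k * m)
    refine ⟨z, ?_⟩
    obtain ⟨h1, h2⟩ := coeff_pow_of_forall_lt (x - a) k hxa_lt m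
    rw [coeff_add_mul_of_forall_lt _ _ n0 (k * m) hd_lt h1, h2, hxa_k] at hz
    rw [hz]
    simp
  obtain ⟨z, hz⟩ := rat_isInt_of_forall_mul_pow_isInt _ hc _ hcoef
  exact hk z hz

/-- Variant with explicit witnesses. -/
theorem exists_int_powerSeries_of_forall_mul_pow (d : ℤ⟦X⟧) (hd : d ≠ 0) (x : ℚ⟦X⟧)
    (h : ∀ m : ℕ, ∃ y : ℤ⟦X⟧,
      PowerSeries.map (Int.castRingHom ℚ) y = PowerSeries.map (Int.castRingHom ℚ) d * x ^ m) :
    ∃ y : ℤ⟦X⟧, PowerSeries.map (Int.castRingHom ℚ) y = x :=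
  mem_intSeries_of_forall_mul_pow_mem d hd x fun m => by
    obtain ⟨y, hy⟩ := h m
    exact ⟨y, hy⟩

/-- If `b * x` has integer coefficients for some nonzero `b ∈ ℤ⟦X⟧` and `x` is integral over the
ring of power series with integer coefficients, then `x` has integer coefficients. -/
theorem mem_intSeries_of_isIntegral (b : ℤ⟦X⟧) (hb : b ≠ 0) (x : ℚ⟦X⟧)
    (hbx : PowerSeries.map (Int.castRingHom ℚ) b * x ∈ intSeries)
    (hx : IsIntegral intSeries x) : x ∈ intSeries := by
  obtain ⟨p, hp_monic, hp_root⟩ := hx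
  set β : ℚ⟦X⟧ := PowerSeries.map (Int.castRingHom ℚ) b with hβ
  have hβmem : β ∈ intSeries := ⟨b, rfl⟩
  have key : ∀ (N : ℕ) (q : Polynomial intSeries), q.natDegree ≤ N →
      β ^ N * Polynomial.aeval x q ∈ intSeries := by
    intro N q hq
    rw [Polynomial.aeval_eq_sum_range' (Nat.lt_succ_of_le hq), Finset.mul_sum]
    refine Subring.sum_mem _ fun i hi => ?_
    have hi' : i ≤ N := Nat.lt_succ_iff.mp (Finset.mem_range.mp hi)
    have : β ^ N * (q.coeff i • x ^ i) = (q.coeff i : ℚ⟦X⟧) * β ^ (N - i) * (β * x) ^ i := by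
      rw [Algebra.smul_def, mul_pow, ← Nat.sub_add_cancel hi', pow_add]
      simp only [Nat.add_sub_cancel]
      rw [show algebraMap intSeries ℚ⟦X⟧ (q.coeff i) = (q.coeff i : ℚ⟦X⟧) from rfl]
      ring
    rw [this]
    exact Subring.mul_mem _ (Subring.mul_mem _ (q.coeff i).2 (Subring.pow_mem _ hβmem _))
      (Subring.pow_mem _ hbx _)
  have hpow : ∀ m : ℕ, PowerSeries.map (Int.castRingHom ℚ) (b ^ p.natDegree) * x ^ m ∈ intSeries := by
    intro m
    have h1 : x ^ m = Polynomial.aeval x ((Polynomial.X ^ m : Polynomial intSeries) %ₘ p) := by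
      have h2 : Polynomial.aeval x p = 0 := hp_root
      have h3 := Polynomial.modByMonic_add_div (Polynomial.X ^ m : Polynomial intSeries) p
      have h4 := congrArg (Polynomial.aeval x) h3
      rw [map_add, map_mul, h2, zero_mul, add_zero] at h4
      rw [h4]
      simp
    rw [map_pow, h1]
    exact key _ _ (Polynomial.natDegree_modByMonic_le _ hp_monic)
  exact mem_intSeries_of_forall_mul_pow_mem (b ^ p.natDegree) (pow_ne_zero _ hb) x hpow

/-- `ℤ⟦X⟧` is completely integrally closed in `ℚ⟦X⟧` (statement shape of subtask T5a). -/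
theorem exists_int_of_almost_integral (φ : PowerSeries ℚ) (D : PowerSeries ℤ) (hD : D ≠ 0)
    (h : ∀ n : ℕ, ∃ E : PowerSeries ℤ,
      D.map (Int.castRingHom ℚ) * φ ^ n = E.map (Int.castRingHom ℚ)) :
    ∃ E : PowerSeries ℤ, φ = E.map (Int.castRingHom ℚ) := by
  obtain ⟨E, hE⟩ := mem_intSeries_of_forall_mul_pow_mem D hD φ fun m => by
    obtain ⟨E, hE⟩ := h m
    exact ⟨E, hE.symm⟩
  exact ⟨E, hE.symm⟩

end Fermat.Agent.S23
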