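import Mathlib
import Fermat.Agent.S23.Defs

set_option autoImplicit false

namespace Fermat.Agent.S23

section
open MvPolynomial

/-- Any ring automorphism of a domain `R` over which `ℂ` is an algebraic closure extends to `ℂ`. -/
theorem exists_ringEquiv_extending {R : Type*} [CommRing R] [IsDomain R] [Algebra R ℂ]
    [Module.IsTorsionFree R ℂ] [IsAlgClosure R ℂ] (e : R ≃+* R) :
    ∃ σ : ℂ ≃+* ℂ, ∀ r : R, σ (algebraMap R ℂ r) = algebraMap R ℂ (e r) :=
  ⟨IsAlgClosure.equivOfEquiv ℂ ℂ e, fun r => IsAlgClosure.equivOfEquiv_algebraMap ℂ ℂ e r⟩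

/-- The translation automorphism `X i ↦ X i + C (d i)` of a polynomial ring. -/
noncomputable def translateEquiv {ι : Type*} (K : Type*) [CommRing K] (d : ι → K) :
    MvPolynomial ι K ≃ₐ[K] MvPolynomial ι K :=
  AlgEquiv.ofAlgHom (aeval fun i => X i + C (d i)) (aeval fun i => X i - C (d i))
    (by ext i; simp) (by ext i; simp)

@[simp] theorem translateEquiv_X {ι : Type*} (K : Type*) [CommRing K] (d : ι → K) (i : ι) :
    translateEquiv K d (X i) = X i + C (d i) := by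
  simp [translateEquiv]

theorem exists_ringAut_ne_of_transcendental {x : ℂ} (hx : Transcendental ℚ x) :
    ∃ σ : ℂ ≃+* ℂ, σ x ≠ x := by
  classical
  have hind : AlgebraicIndepOn ℚ id ({x} : Set ℂ) :=
    (algebraicIndependent_singleton_iff (⟨x, rfl⟩ : ({x} : Set ℂ))).mpr hx
  obtain ⟨t, hxt, ht⟩ := exists_isTranscendenceBasis_superset hind
  have hxt' : x ∈ t := hxt rfl
  let v : t → ℂ := (↑)
  let x₀ : t := ⟨x, hxt'⟩
  have : IsAlgClosure (Algebra.adjoin ℚ (Set.range v)) ℂ :=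
    IsAlgClosed.isAlgClosure_of_transcendence_basis v ht
  let φ := translateEquiv ℚ (fun i : t => if i = x₀ then (1 : ℚ) else 0)
  let e : Algebra.adjoin ℚ (Set.range v) ≃+* Algebra.adjoin ℚ (Set.range v) :=
    (ht.1.aevalEquiv.symm.toRingEquiv.trans φ.toRingEquiv).trans ht.1.aevalEquiv.toRingEquiv
  obtain ⟨σ, hσ⟩ := exists_ringEquiv_extending e
  refine ⟨σ, ?_⟩
  have h1 : algebraMap (Algebra.adjoin ℚ (Set.range v)) ℂ (ht.1.aevalEquiv (X x₀)) = x := by
    rw [ht.1.algebraMap_aevalEquiv, aeval_X]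
  have h2 : e (ht.1.aevalEquiv (X x₀)) = ht.1.aevalEquiv (X x₀ + C 1) := by
    simp [e, φ]
  have h3 : σ x = x + 1 := by
    rw [← h1, hσ, h2, ht.1.algebraMap_aevalEquiv]
    simp [v, x₀]
  rw [h3]
  simp



end

section
open Polynomial

/-- An algebraic non-rational complex number has a conjugate root different from itself. -/
theorem exists_conj_root_ne {x : ℂ} (hx : IsAlgebraic ℚ x)
    (hxQ : x ∉ Set.range ((↑) : ℚ → ℂ)) :
    ∃ y : ℂ, y ≠ x ∧ Polynomial.aeval y (minpoly ℚ x) = 0 := by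
  have hint : IsIntegral ℚ x := hx.isIntegral
  set p : ℂ[X] := (minpoly ℚ x).map (algebraMap ℚ ℂ) with hp
  have hpx : p.IsRoot x := by
    rw [Polynomial.IsRoot, hp, Polynomial.eval_map_algebraMap, minpoly.aeval]
  obtain ⟨q, hq⟩ := Polynomial.dvd_iff_isRoot.mpr hpx
  have hsep : p.Separable := (minpoly.irreducible hint).separable.map
  have hdeg : 2 ≤ (minpoly ℚ x).natDegree := by
    rw [Nat.succ_le_iff, Nat.lt_iff_le_and_ne]
    refine ⟨minpoly.natDegree_pos hint, fun h => hxQ ?_⟩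
    have := minpoly.natDegree_eq_one_iff.mp h.symm
    obtain ⟨r, hr⟩ := this
    exact ⟨r, by simpa using hr⟩
  have hpdeg : p.natDegree = (minpoly ℚ x).natDegree := by
    rw [hp, Polynomial.natDegree_map]
  have hq0 : q ≠ 0 := by
    rintro rfl
    rw [mul_zero] at hq
    have : (minpoly ℚ x).natDegree = 0 := by rw [← hpdeg, hq]; simp
    omega
  have hqdeg : q.natDegree ≠ 0 := by
    intro h0
    have : p.natDegree = 1 := by
      rw [hq, Polynomial.natDegree_mul (Polynomial.X_sub_C_ne_zero x) hq0, h0]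
      simp
    omega
  obtain ⟨y, hy⟩ := IsAlgClosed.exists_root q (by
    rw [Polynomial.degree_eq_natDegree hq0]; exact_mod_cast hqdeg)
  refine ⟨y, ?_, ?_⟩
  · rintro rfl
    have hsq : (X - C y) * (X - C y) ∣ p := by
      rw [hq]
      exact mul_dvd_mul_left _ (Polynomial.dvd_iff_isRoot.mpr hy)
    have := hsep.squarefree (X - C y) hsq
    exact Polynomial.not_isUnit_X_sub_C y this
  · have : p.IsRoot y := by
      rw [hq]; simp [hy.eq_zero]
    rwa [Polynomial.IsRoot, hp, Polynomial.eval_map_algebraMap] at this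

end



section
open MvPolynomial

local notation "Qb" => algebraicClosure ℚ ℂ

attribute [local instance 10000] IntermediateField.algebra'

theorem exists_ringAut_of_conj {x y : ℂ} (hx : IsAlgebraic ℚ x)
    (hy : Polynomial.aeval y (minpoly ℚ x) = 0) :
    ∃ σ : ℂ ≃+* ℂ, σ x = y := by
  classical
  have hxQ : x ∈ Qb := (mem_algebraicClosure_iff).mpr hx
  have hyA : IsAlgebraic ℚ y := ⟨minpoly ℚ x, minpoly.ne_zero hx.isIntegral, hy⟩
  have hyQ : y ∈ Qb := (mem_algebraicClosure_iff).mpr hyA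
  let x' : Qb := ⟨x, hxQ⟩
  let y' : Qb := ⟨y, hyQ⟩
  have hx' : IsAlgebraic ℚ x' := Algebra.IsAlgebraic.isAlgebraic x'
  have hmin : minpoly ℚ x' = minpoly ℚ x :=
    (minpoly.algebraMap_eq (A := ℚ) (algebraMap Qb ℂ).injective x').symm
  have hy' : Polynomial.aeval y' (minpoly ℚ x') = 0 := by
    rw [hmin]
    apply (algebraMap Qb ℂ).injective
    rw [← Polynomial.aeval_algebraMap_apply, map_zero]
    exact hy
  obtain ⟨τ, hτ⟩ := minpoly.exists_algEquiv_of_root' hx' hy'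
  obtain ⟨t, ht⟩ := exists_isTranscendenceBasis Qb ℂ
  let v : t → ℂ := (↑)
  have : IsAlgClosure (Algebra.adjoin Qb (Set.range v)) ℂ :=
    IsAlgClosed.isAlgClosure_of_transcendence_basis v ht
  let φ : MvPolynomial t Qb ≃+* MvPolynomial t Qb := MvPolynomial.mapEquiv t τ.toRingEquiv
  let e : Algebra.adjoin Qb (Set.range v) ≃+* Algebra.adjoin Qb (Set.range v) :=
    (ht.1.aevalEquiv.symm.toRingEquiv.trans φ).trans ht.1.aevalEquiv.toRingEquiv
  obtain ⟨σ, hσ⟩ := exists_ringEquiv_extending e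
  refine ⟨σ, ?_⟩
  have h1 : ∀ a : Qb, algebraMap (Algebra.adjoin Qb (Set.range v)) ℂ (ht.1.aevalEquiv (C a))
      = (a : ℂ) := by
    intro a
    rw [ht.1.algebraMap_aevalEquiv]
    simp
  have h2 : e (ht.1.aevalEquiv (C x')) = ht.1.aevalEquiv (C (τ x')) := by
    simp [e, φ]
  calc σ x = σ (algebraMap (Algebra.adjoin Qb (Set.range v)) ℂ (ht.1.aevalEquiv (C x'))) := by
        rw [h1]
    _ = y := by rw [hσ, h2, h1, hτ]

end


/-- The fixed field of `Aut(ℂ)` is `ℚ`. -/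
theorem exists_ringAut_ne {x : ℂ} (hx : x ∉ Set.range ((↑) : ℚ → ℂ)) :
    ∃ σ : ℂ ≃+* ℂ, σ x ≠ x := by
  by_cases halg : IsAlgebraic ℚ x
  · obtain ⟨y, hyx, hy⟩ := exists_conj_root_ne halg hx
    obtain ⟨σ, hσ⟩ := exists_ringAut_of_conj halg hy
    exact ⟨σ, hσ ▸ hyx⟩
  · exact exists_ringAut_ne_of_transcendental halg

theorem exists_ratCast_eq_of_forall_ringAut_fixed {x : ℂ} (h : ∀ σ : ℂ ≃+* ℂ, σ x = x) :
    ∃ r : ℚ, (r : ℂ) = x := by
  by_contra hne
  obtain ⟨σ, hσ⟩ := exists_ringAut_ne (x := x) (fun ⟨r, hr⟩ => hne ⟨r, hr⟩)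
  exact hσ (h σ)

/-- Every non-rational complex number is moved by some ring endomorphism of `ℂ`. -/
theorem exists_ringHom_ne {x : ℂ} (hx : x ∉ Set.range (algebraMap ℚ ℂ)) :
    ∃ σ : ℂ →+* ℂ, σ x ≠ x := by
  obtain ⟨σ, hσ⟩ := exists_ringAut_ne (x := x) (fun ⟨r, hr⟩ => hx ⟨r, by simpa using hr⟩)
  exact ⟨σ.toRingHom, hσ⟩

end Fermat.Agent.S23
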