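import Mathlib
import Fermat.Agent.S23.Defs

set_option autoImplicit false

namespace Fermat.Agent.S23

open PowerSeries

/-! ### integer and rational series inside `ℂ⟦X⟧` -/

/-- complex power series with integer coefficients -/
noncomputable def bdIntSeries : Subring (PowerSeries ℂ) := (PowerSeries.map (Int.castRingHom ℂ)).range

/-- complex power series with rational coefficients -/
noncomputable def bdRatSeries : Subring (PowerSeries ℂ) := (PowerSeries.map (algebraMap ℚ ℂ)).range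

lemma bd_mem_intSeries_iff {ψ : PowerSeries ℂ} :
    ψ ∈ bdIntSeries ↔ ∀ n, ∃ z : ℤ, coeff n ψ = (z : ℂ) := by
  constructor
  · rintro ⟨E, rfl⟩ n
    exact ⟨coeff n E, by rw [coeff_map]; rfl⟩
  · intro h
    choose z hz using h
    refine ⟨PowerSeries.mk z, ?_⟩
    ext n
    rw [coeff_map, coeff_mk, hz n]; rfl

lemma bd_mem_ratSeries_iff {ψ : PowerSeries ℂ} :
    ψ ∈ bdRatSeries ↔ ∀ n, coeff n ψ ∈ Set.range (algebraMap ℚ ℂ) := by
  constructor
  · rintro ⟨E, rfl⟩ n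
    exact ⟨coeff n E, by rw [coeff_map]⟩
  · intro h
    choose z hz using h
    refine ⟨PowerSeries.mk z, ?_⟩
    ext n
    rw [coeff_map, coeff_mk, hz n]

lemma bd_intSeries_le_ratSeries : bdIntSeries ≤ bdRatSeries := by
  intro ψ hψ
  rw [bd_mem_intSeries_iff] at hψ
  rw [bd_mem_ratSeries_iff]
  intro n
  obtain ⟨z, hz⟩ := hψ n
  exact ⟨(z : ℚ), by rw [hz]; simp⟩

lemma bd_isBddRat_iff {ψ : PowerSeries ℂ} :
    IsBddRat ψ ↔ ∃ M : ℕ, M ≠ 0 ∧ (M : ℂ) • ψ ∈ bdIntSeries := by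
  unfold IsBddRat
  simp only [bd_mem_intSeries_iff, coeff_smul, smul_eq_mul]

lemma bd_natCast_smul_mem_intSeries {ψ : PowerSeries ℂ} (h : ψ ∈ bdIntSeries) (M : ℕ) :
    (M : ℂ) • ψ ∈ bdIntSeries := by
  rw [bd_mem_intSeries_iff] at h ⊢
  intro n
  obtain ⟨z, hz⟩ := h n
  exact ⟨M * z, by rw [coeff_smul, smul_eq_mul, hz]; push_cast; ring⟩

lemma bd_isBddRat_of_mem_intSeries {ψ : PowerSeries ℂ} (h : ψ ∈ bdIntSeries) : IsBddRat ψ :=
  bd_isBddRat_iff.2 ⟨1, one_ne_zero, by simpa using h⟩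

lemma IsBddRat.bd_mem_ratSeries {ψ : PowerSeries ℂ} (h : IsBddRat ψ) : ψ ∈ bdRatSeries := by
  obtain ⟨M, hM, hz⟩ := h
  rw [bd_mem_ratSeries_iff]
  intro n
  obtain ⟨z, hz⟩ := hz n
  refine ⟨(z : ℚ) / (M : ℚ), ?_⟩
  have hM' : (M : ℂ) ≠ 0 := by exact_mod_cast hM
  rw [eq_ratCast]
  push_cast
  rw [← hz]
  field_simp

lemma IsBddRat.bd_add {ψ ψ' : PowerSeries ℂ} (h : IsBddRat ψ) (h' : IsBddRat ψ') :
    IsBddRat (ψ + ψ') := by
  rw [bd_isBddRat_iff] at h h' ⊢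
  obtain ⟨M, hM, hz⟩ := h
  obtain ⟨M', hM', hz'⟩ := h'
  refine ⟨M * M', mul_ne_zero hM hM', ?_⟩
  have h1 : ((M * M' : ℕ) : ℂ) • (ψ + ψ') =
      (M' : ℂ) • ((M : ℂ) • ψ) + (M : ℂ) • ((M' : ℂ) • ψ') := by
    push_cast
    rw [smul_add, smul_smul, smul_smul, mul_comm (M' : ℂ)]
  rw [h1]
  exact bdIntSeries.add_mem (bd_natCast_smul_mem_intSeries hz _)
    (bd_natCast_smul_mem_intSeries hz' _)

lemma bd_isBddRat_zero : IsBddRat (0 : PowerSeries ℂ) :=
  bd_isBddRat_of_mem_intSeries bdIntSeries.zero_mem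

lemma IsBddRat.bd_rat_smul {ψ : PowerSeries ℂ} (h : IsBddRat ψ) (r : ℚ) :
    IsBddRat ((r : ℂ) • ψ) := by
  rw [bd_isBddRat_iff] at h ⊢
  obtain ⟨M, hM, hz⟩ := h
  refine ⟨r.den * M, mul_ne_zero r.den_ne_zero hM, ?_⟩
  have h1 : ((r.den * M : ℕ) : ℂ) • ((r : ℂ) • ψ) = ((r.num : ℤ) : ℂ) • ((M : ℂ) • ψ) := by
    rw [smul_smul, smul_smul]
    congr 1
    have hden : (r.den : ℂ) ≠ 0 := by exact_mod_cast r.den_ne_zero
    have hr : (r : ℂ) = (r.num : ℂ) / (r.den : ℂ) := by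
      conv_lhs => rw [← Rat.num_div_den r]
      push_cast; rfl
    push_cast
    rw [hr]
    field_simp
  rw [h1]
  rw [bd_mem_intSeries_iff] at hz ⊢
  intro n
  obtain ⟨z, hz⟩ := hz n
  exact ⟨r.num * z, by rw [coeff_smul, smul_eq_mul, hz]; push_cast; ring⟩

lemma bd_isBddRat_sum {ι : Type*} (s : Finset ι) (f : ι → PowerSeries ℂ)
    (h : ∀ i ∈ s, IsBddRat (f i)) : IsBddRat (∑ i ∈ s, f i) := by
  classical
  induction s using Finset.induction_on with
  | empty => simpa using bd_isBddRat_zero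
  | insert a s ha ih =>
    rw [Finset.sum_insert ha]
    exact (h a (Finset.mem_insert_self a s)).bd_add
      (ih fun i hi => h i (Finset.mem_insert_of_mem hi))

/-! ### the coefficientwise operator attached to a `ℚ`-linear functional -/

/-- apply a `ℚ`-linear functional `π : ℂ → ℚ` to every coefficient -/
noncomputable def bdCoeffMap (π : ℂ →ₗ[ℚ] ℚ) (ψ : PowerSeries ℂ) : PowerSeries ℂ :=
  PowerSeries.mk fun n => ((π (coeff n ψ) : ℚ) : ℂ)

@[simp] lemma bd_coeff_coeffMap (π : ℂ →ₗ[ℚ] ℚ) (ψ : PowerSeries ℂ) (n : ℕ) :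
    coeff n (bdCoeffMap π ψ) = ((π (coeff n ψ) : ℚ) : ℂ) := by
  rw [bdCoeffMap, coeff_mk]

lemma bd_coeffMap_add (π : ℂ →ₗ[ℚ] ℚ) (ψ ψ' : PowerSeries ℂ) :
    bdCoeffMap π (ψ + ψ') = bdCoeffMap π ψ + bdCoeffMap π ψ' := by
  ext n
  simp

lemma bd_coeffMap_zero (π : ℂ →ₗ[ℚ] ℚ) : bdCoeffMap π 0 = 0 := by
  ext n
  simp

lemma bd_coeffMap_sum (π : ℂ →ₗ[ℚ] ℚ) {ι : Type*} (s : Finset ι) (f : ι → PowerSeries ℂ) :
    bdCoeffMap π (∑ i ∈ s, f i) = ∑ i ∈ s, bdCoeffMap π (f i) := by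
  classical
  induction s using Finset.induction_on with
  | empty => simp [bd_coeffMap_zero]
  | insert a s ha ih => rw [Finset.sum_insert ha, Finset.sum_insert ha, bd_coeffMap_add, ih]

lemma bd_map_mul_ratCast (π : ℂ →ₗ[ℚ] ℚ) (x : ℂ) (r : ℚ) :
    π (x * (r : ℂ)) = π x * r := by
  have : x * (r : ℂ) = r • x := by
    rw [Rat.smul_def, mul_comm]
  rw [this, map_smul, smul_eq_mul, mul_comm]

lemma bd_coeffMap_mul_of_mem_ratSeries (π : ℂ →ₗ[ℚ] ℚ) (ψ : PowerSeries ℂ) {φ : PowerSeries ℂ}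
    (hφ : φ ∈ bdRatSeries) : bdCoeffMap π (ψ * φ) = bdCoeffMap π ψ * φ := by
  rw [bd_mem_ratSeries_iff] at hφ
  ext n
  rw [bd_coeff_coeffMap, coeff_mul, coeff_mul, map_sum]
  push_cast
  refine Finset.sum_congr rfl fun p _ => ?_
  obtain ⟨r, hr⟩ := hφ p.2
  rw [bd_coeff_coeffMap, ← hr, eq_ratCast, bd_map_mul_ratCast]
  push_cast
  rfl

lemma bd_coeffMap_one (π : ℂ →ₗ[ℚ] ℚ) (hπ : π 1 = 1) : bdCoeffMap π 1 = 1 := by
  ext n
  rw [bd_coeff_coeffMap, coeff_one]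
  split_ifs <;> simp [hπ]

lemma bd_coeffMap_smul_of_mem_ratSeries (π : ℂ →ₗ[ℚ] ℚ) (t : ℂ) {β : PowerSeries ℂ}
    (hβ : β ∈ bdRatSeries) : bdCoeffMap π (t • β) = ((π t : ℚ) : ℂ) • β := by
  rw [bd_mem_ratSeries_iff] at hβ
  ext n
  obtain ⟨r, hr⟩ := hβ n
  rw [bd_coeff_coeffMap, coeff_smul, coeff_smul, smul_eq_mul, smul_eq_mul, ← hr, eq_ratCast,
    bd_map_mul_ratCast]
  push_cast
  rfl

/-- `bdCoeffMap π` sends the complex span of the bounded-denominator series into the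
bounded-denominator series. -/
lemma bd_isBddRat_coeffMap_of_mem_span (π : ℂ →ₗ[ℚ] ℚ) {ψ : PowerSeries ℂ}
    (hψ : ψ ∈ Submodule.span ℂ {ψ : PowerSeries ℂ | IsBddRat ψ}) :
    IsBddRat (bdCoeffMap π ψ) := by
  have key : ∀ t : ℂ, IsBddRat (bdCoeffMap π (t • ψ)) := by
    refine Submodule.span_induction (p := fun ψ _ => ∀ t : ℂ, IsBddRat (bdCoeffMap π (t • ψ)))
      ?_ ?_ ?_ ?_ hψ
    · intro β hβ t
      rw [bd_coeffMap_smul_of_mem_ratSeries π t (IsBddRat.bd_mem_ratSeries hβ)]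
      exact IsBddRat.bd_rat_smul hβ _
    · intro t
      rw [smul_zero, bd_coeffMap_zero]
      exact bd_isBddRat_zero
    · intro x y _ _ hx hy t
      rw [smul_add, bd_coeffMap_add]
      exact (hx t).bd_add (hy t)
    · intro a x _ hx t
      rw [smul_smul]
      exact hx _
  simpa using key 1

/-! ### the all-rational core -/

lemma bd_exists_common_denominator {ι : Type*} (s : Finset ι) (f : ι → PowerSeries ℂ)
    (h : ∀ i ∈ s, IsBddRat (f i)) :
    ∃ M : ℕ, M ≠ 0 ∧ ∀ i ∈ s, (M : ℂ) • f i ∈ bdIntSeries := by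
  classical
  induction s using Finset.induction_on with
  | empty => exact ⟨1, one_ne_zero, by simp⟩
  | insert a s ha ih =>
    obtain ⟨M, hM, hMs⟩ := ih fun i hi => h i (Finset.mem_insert_of_mem hi)
    obtain ⟨M', hM', hz⟩ := bd_isBddRat_iff.1 (h a (Finset.mem_insert_self a s))
    refine ⟨M * M', mul_ne_zero hM hM', ?_⟩
    intro i hi
    rcases Finset.mem_insert.1 hi with rfl | hi
    · have : ((M * M' : ℕ) : ℂ) • f i = (M : ℂ) • ((M' : ℂ) • f i) := by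
        push_cast; rw [smul_smul]
      rw [this]
      exact bd_natCast_smul_mem_intSeries hz _
    · have : ((M * M' : ℕ) : ℂ) • f i = (M' : ℂ) • ((M : ℂ) • f i) := by
        push_cast; rw [smul_smul, mul_comm]
      rw [this]
      exact bd_natCast_smul_mem_intSeries (hMs i hi) _

lemma bd_map_map_int (x : PowerSeries ℤ) :
    PowerSeries.map (algebraMap ℚ ℂ) (PowerSeries.map (Int.castRingHom ℚ) x) =
      PowerSeries.map (Int.castRingHom ℂ) x := by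
  ext n
  simp [coeff_map]

/-- the statement of the almost-integrality lemma, used as a hypothesis -/
def BdAlmostIntegral : Prop :=
  ∀ (φ : PowerSeries ℚ) (D : PowerSeries ℤ), D ≠ 0 →
    (∀ n : ℕ, ∃ E : PowerSeries ℤ,
      D.map (Int.castRingHom ℚ) * φ ^ n = E.map (Int.castRingHom ℚ)) →
    ∃ E : PowerSeries ℤ, φ = E.map (Int.castRingHom ℚ)

/-- an element of `ℂ⟦X⟧` with rational coefficients that is almost integral over the integer
series is an integer series -/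
lemma bd_mem_intSeries_of_almost_integral (hAI : BdAlmostIntegral) {ψ D : PowerSeries ℂ}
    (hψ : ψ ∈ bdRatSeries) (hD : D ∈ bdIntSeries) (hD0 : D ≠ 0)
    (h : ∀ n : ℕ, D * ψ ^ n ∈ bdIntSeries) : ψ ∈ bdIntSeries := by
  obtain ⟨ψq, rfl⟩ := hψ
  obtain ⟨Dz, rfl⟩ := hD
  have hDz : Dz ≠ 0 := by
    rintro rfl
    exact hD0 (map_zero _)
  have hinj := PowerSeries.map_injective (algebraMap ℚ ℂ) (algebraMap ℚ ℂ).injective
  obtain ⟨E, hE⟩ := hAI ψq Dz hDz (fun n => by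
    obtain ⟨E, hE⟩ := h n
    refine ⟨E, hinj ?_⟩
    rw [map_mul, map_pow, bd_map_map_int, bd_map_map_int]
    exact hE.symm)
  refine ⟨E, ?_⟩
  rw [hE, bd_map_map_int]

lemma bd_core (hAI : BdAlmostIntegral) (φ : PowerSeries ℂ) (hφ : φ ∈ bdRatSeries) {m : ℕ}
    (c : Fin m → PowerSeries ℂ) (hc : ∀ i, IsBddRat (c i))
    (hmonic : φ ^ m + ∑ i : Fin m, c i * φ ^ (m - 1 - (i : ℕ)) = 0)
    (d A : PowerSeries ℂ) (hd0 : d ≠ 0) (hd : IsBddRat d) (hA : IsBddRat A)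
    (hlin : d * φ = A) : IsBddRat φ := by
  -- `m ≥ 1`
  have hm : 1 ≤ m := by
    rcases Nat.eq_zero_or_pos m with rfl | h
    · simp at hmonic
    · exact h
  obtain ⟨M₁, hM₁, hcM⟩ := bd_exists_common_denominator Finset.univ c (fun i _ => hc i)
  obtain ⟨M₂, hM₂, hdM⟩ := bd_isBddRat_iff.1 hd
  obtain ⟨M₃, hM₃, hAM⟩ := bd_isBddRat_iff.1 hA
  have hM₁' : (M₁ : ℂ) ≠ 0 := by exact_mod_cast hM₁
  have hM₂' : (M₂ : ℂ) ≠ 0 := by exact_mod_cast hM₂
  have hM₃' : (M₃ : ℂ) ≠ 0 := by exact_mod_cast hM₃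
  -- the rescaled series
  set ψ : PowerSeries ℂ := (M₁ : ℂ) • φ with hψdef
  have hψpow : ∀ k : ℕ, ψ ^ k = ((M₁ : ℂ) ^ k) • φ ^ k := fun k => by
    rw [hψdef, smul_pow]
  let Cs : Fin m → PowerSeries ℂ := fun i => ((M₁ : ℂ) ^ ((i : ℕ) + 1)) • c i
  have hCs : ∀ i, Cs i ∈ bdIntSeries := by
    intro i
    have : Cs i = (((M₁ ^ (i : ℕ) : ℕ) : ℂ)) • ((M₁ : ℂ) • c i) := by
      simp only [Cs]
      push_cast
      rw [smul_smul, pow_succ]
    rw [this]
    exact bd_natCast_smul_mem_intSeries (hcM i (Finset.mem_univ i)) _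
  have hrel : ψ ^ m + ∑ i : Fin m, Cs i * ψ ^ (m - 1 - (i : ℕ)) = 0 := by
    have h1 : ∀ i : Fin m, Cs i * ψ ^ (m - 1 - (i : ℕ)) =
        ((M₁ : ℂ) ^ m) • (c i * φ ^ (m - 1 - (i : ℕ))) := by
      intro i
      simp only [Cs]
      rw [hψpow, smul_mul_smul_comm, ← pow_add]
      congr 2
      have := i.2
      omega
    rw [hψpow, Finset.sum_congr rfl (fun i _ => h1 i), ← Finset.smul_sum, ← smul_add, hmonic,
      smul_zero]
  -- the denominator
  set d'' : PowerSeries ℂ := ((M₂ * M₃ : ℕ) : ℂ) • d with hd''def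
  have hd''int : d'' ∈ bdIntSeries := by
    have : d'' = (M₃ : ℂ) • ((M₂ : ℂ) • d) := by
      rw [hd''def]; push_cast; rw [smul_smul, mul_comm]
    rw [this]
    exact bd_natCast_smul_mem_intSeries hdM _
  have hd''0 : d'' ≠ 0 := by
    rw [hd''def]
    refine smul_ne_zero ?_ hd0
    push_cast
    exact mul_ne_zero hM₂' hM₃'
  have hd''ψ : d'' * ψ ∈ bdIntSeries := by
    have : d'' * ψ = ((M₁ * M₂ : ℕ) : ℂ) • ((M₃ : ℂ) • A) := by
      rw [hd''def, hψdef, smul_mul_smul_comm, hlin, smul_smul]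
      congr 1
      push_cast
      ring
    rw [this]
    exact bd_natCast_smul_mem_intSeries hAM _
  -- `d''^(m-1) ψ^n` is an integer series for all `n`
  have hclaim : ∀ n : ℕ, d'' ^ (m - 1) * ψ ^ n ∈ bdIntSeries := by
    intro n
    induction n using Nat.strong_induction_on with
    | _ n ih =>
      rcases Nat.lt_or_ge n m with hn | hn
      · have h1 : d'' ^ (m - 1) * ψ ^ n = d'' ^ (m - 1 - n) * (d'' * ψ) ^ n := by
          rw [mul_pow, ← mul_assoc, ← pow_add]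
          congr 2
          omega
        rw [h1]
        exact bdIntSeries.mul_mem (bdIntSeries.pow_mem hd''int _) (bdIntSeries.pow_mem hd''ψ _)
      · have h2 : ψ ^ m = -∑ i : Fin m, Cs i * ψ ^ (m - 1 - (i : ℕ)) :=
          eq_neg_of_add_eq_zero_left hrel
        have h1 : d'' ^ (m - 1) * ψ ^ n =
            -∑ i : Fin m, Cs i * (d'' ^ (m - 1) * ψ ^ (n - 1 - (i : ℕ))) := by
          have hn' : ψ ^ n = ψ ^ (n - m) * ψ ^ m := by
            rw [← pow_add]; congr 1; omega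
          rw [hn', h2, mul_neg, mul_neg, neg_inj, Finset.mul_sum, Finset.mul_sum]
          refine Finset.sum_congr rfl fun i _ => ?_
          have hi : n - 1 - (i : ℕ) = (n - m) + (m - 1 - (i : ℕ)) := by
            have := i.2
            omega
          rw [hi, pow_add]
          ring
        rw [h1]
        refine bdIntSeries.neg_mem (bdIntSeries.sum_mem fun i _ => bdIntSeries.mul_mem (hCs i) ?_)
        apply ih
        have := i.2
        omega
  -- conclude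
  have hψrat : ψ ∈ bdRatSeries := by
    rw [bd_mem_ratSeries_iff] at hφ ⊢
    intro n
    obtain ⟨r, hr⟩ := hφ n
    refine ⟨(M₁ : ℚ) * r, ?_⟩
    rw [hψdef, coeff_smul, smul_eq_mul, ← hr]
    simp
  have hψint : ψ ∈ bdIntSeries :=
    bd_mem_intSeries_of_almost_integral hAI hψrat (bdIntSeries.pow_mem hd''int _)
      (pow_ne_zero _ hd''0) hclaim
  exact bd_isBddRat_iff.2 ⟨M₁, hM₁, hψint⟩

/-! ### the main lemma -/

lemma bd_exists_retraction : ∃ π : ℂ →ₗ[ℚ] ℚ, π 1 = 1 := by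
  obtain ⟨g, hg⟩ := LinearMap.exists_leftInverse_of_injective (Algebra.linearMap ℚ ℂ)
    (LinearMap.ker_eq_bot.2 (algebraMap ℚ ℂ).injective)
  refine ⟨g, ?_⟩
  have := congrArg (fun f => f 1) hg
  simpa using this

lemma bd_exists_functional_ne_zero {x : ℂ} (hx : x ≠ 0) : ∃ π : ℂ →ₗ[ℚ] ℚ, π x ≠ 0 := by
  by_contra h
  push Not at h
  exact hx ((Module.forall_dual_apply_eq_zero_iff ℚ x).1 h)

/-- `T5b`, with the almost-integrality lemma `T5a` as a hypothesis. -/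
theorem isBddRat_of_relations_aux (hAI : BdAlmostIntegral) (φ : PowerSeries ℂ)
    (hφ : ∀ n, PowerSeries.coeff n φ ∈ Set.range (algebraMap ℚ ℂ))
    {m : ℕ} (c : Fin m → PowerSeries ℂ)
    (hc : ∀ i, c i ∈ Submodule.span ℂ {ψ : PowerSeries ℂ | IsBddRat ψ})
    (hmonic : φ ^ m + ∑ i : Fin m, c i * φ ^ (m - 1 - (i : ℕ)) = 0)
    (d A : PowerSeries ℂ) (hd0 : d ≠ 0)
    (hd : d ∈ Submodule.span ℂ {ψ : PowerSeries ℂ | IsBddRat ψ})
    (hA : A ∈ Submodule.span ℂ {ψ : PowerSeries ℂ | IsBddRat ψ})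
    (hlin : d * φ = A) : IsBddRat φ := by
  have hφ' : φ ∈ bdRatSeries := bd_mem_ratSeries_iff.2 hφ
  obtain ⟨π₁, hπ₁⟩ := bd_exists_retraction
  -- the monic relation with bounded-denominator coefficients
  have hmonic' : φ ^ m + ∑ i : Fin m, bdCoeffMap π₁ (c i) * φ ^ (m - 1 - (i : ℕ)) = 0 := by
    have h := congrArg (bdCoeffMap π₁) hmonic
    rw [bd_coeffMap_zero, bd_coeffMap_add, bd_coeffMap_sum] at h
    have h1 : bdCoeffMap π₁ (φ ^ m) = φ ^ m := by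
      conv_lhs => rw [← one_mul (φ ^ m)]
      rw [bd_coeffMap_mul_of_mem_ratSeries π₁ 1 (bdRatSeries.pow_mem hφ' m),
        bd_coeffMap_one π₁ hπ₁, one_mul]
    rw [h1] at h
    rw [← h]
    congr 1
    refine Finset.sum_congr rfl fun i _ => ?_
    rw [bd_coeffMap_mul_of_mem_ratSeries π₁ (c i) (bdRatSeries.pow_mem hφ' _)]
  -- the linear relation
  obtain ⟨n₀, hn₀⟩ : ∃ n₀, coeff n₀ d ≠ 0 := by
    by_contra h
    push Not at h
    exact hd0 (PowerSeries.ext fun n => by rw [h n, map_zero])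
  obtain ⟨π₂, hπ₂⟩ := bd_exists_functional_ne_zero hn₀
  have hd' : bdCoeffMap π₂ d ≠ 0 := by
    intro h
    have := congrArg (coeff n₀) h
    rw [bd_coeff_coeffMap, map_zero] at this
    exact hπ₂ (by exact_mod_cast this)
  have hlin' : bdCoeffMap π₂ d * φ = bdCoeffMap π₂ A := by
    rw [← bd_coeffMap_mul_of_mem_ratSeries π₂ d hφ', hlin]
  exact bd_core hAI φ hφ' (fun i => bdCoeffMap π₁ (c i))
    (fun i => bd_isBddRat_coeffMap_of_mem_span π₁ (hc i)) hmonic'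
    (bdCoeffMap π₂ d) (bdCoeffMap π₂ A) hd' (bd_isBddRat_coeffMap_of_mem_span π₂ hd)
    (bd_isBddRat_coeffMap_of_mem_span π₂ hA) hlin'

end Fermat.Agent.S23
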