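import Mathlib
import Fermat.Agent.S23.Defs

set_option autoImplicit false

open UpperHalfPlane ModularForm Filter Topology
open scoped MatrixGroups Manifold

namespace Fermat.Agent.S23

/-- Cauchy-type bound for roots of a monic polynomial. -/
lemma division_norm_le_of_monic_root {n : ℕ} (a : Fin n → ℂ) (y : ℂ)
    (h : y ^ n + ∑ j : Fin n, a j * y ^ (j : ℕ) = 0) : ‖y‖ ≤ 1 + ∑ j, ‖a j‖ := by
  have hS : 0 ≤ ∑ j, ‖a j‖ := Finset.sum_nonneg (fun _ _ => norm_nonneg _)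
  by_cases hy : ‖y‖ ≤ 1
  · linarith
  · replace hy : 1 < ‖y‖ := not_le.mp hy
    rcases Nat.eq_zero_or_pos n with rfl | hn
    · simp at h
    have h1 : y ^ n = -∑ j : Fin n, a j * y ^ (j : ℕ) := eq_neg_of_add_eq_zero_left h
    have h2 : ‖y‖ ^ n ≤ (∑ j, ‖a j‖) * ‖y‖ ^ (n - 1) := by
      calc ‖y‖ ^ n = ‖y ^ n‖ := (norm_pow y n).symm
        _ = ‖∑ j : Fin n, a j * y ^ (j : ℕ)‖ := by rw [h1, norm_neg]
        _ ≤ ∑ j : Fin n, ‖a j * y ^ (j : ℕ)‖ := norm_sum_le _ _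
        _ ≤ ∑ j : Fin n, ‖a j‖ * ‖y‖ ^ (n - 1) := by
            apply Finset.sum_le_sum
            intro j _
            rw [norm_mul, norm_pow]
            apply mul_le_mul_of_nonneg_left _ (norm_nonneg _)
            exact pow_le_pow_right₀ hy.le (by have := j.2; omega)
        _ = (∑ j, ‖a j‖) * ‖y‖ ^ (n - 1) := by rw [Finset.sum_mul]
    have h3 : ‖y‖ ^ n = ‖y‖ * ‖y‖ ^ (n - 1) := by
      rw [← pow_succ']; congr 1; omega
    have hpos : 0 < ‖y‖ ^ (n - 1) := pow_pos (by linarith) _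
    rw [h3] at h2
    have := le_of_mul_le_mul_right h2 hpos
    linarith

lemma division_norm_pow_le_of_monic_root {n : ℕ} (a : Fin n → ℂ) (y : ℂ) (B : ℝ) (hB : 1 ≤ B)
    (hy : ‖y‖ ≤ B) (h : y ^ n + ∑ j : Fin n, a j * y ^ (j : ℕ) = 0) :
    ‖y‖ ^ n ≤ (∑ j, ‖a j‖) * B ^ (n - 1) := by
  have h1 : y ^ n = -∑ j : Fin n, a j * y ^ (j : ℕ) := eq_neg_of_add_eq_zero_left h
  calc ‖y‖ ^ n = ‖y ^ n‖ := (norm_pow y n).symm
    _ = ‖∑ j : Fin n, a j * y ^ (j : ℕ)‖ := by rw [h1, norm_neg]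
    _ ≤ ∑ j : Fin n, ‖a j * y ^ (j : ℕ)‖ := norm_sum_le _ _
    _ ≤ ∑ j : Fin n, ‖a j‖ * B ^ (n - 1) := by
        apply Finset.sum_le_sum
        intro j _
        rw [norm_mul, norm_pow]
        apply mul_le_mul_of_nonneg_left _ (norm_nonneg _)
        calc ‖y‖ ^ (j : ℕ) ≤ B ^ (j : ℕ) := pow_le_pow_left₀ (norm_nonneg _) hy _
          _ ≤ B ^ (n - 1) := pow_le_pow_right₀ hB (by have := j.2; omega)
    _ = (∑ j, ‖a j‖) * B ^ (n - 1) := by rw [Finset.sum_mul]


/-- A nonzero holomorphic function on `ℍ` is nonvanishing on a punctured neighbourhood of every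
point (statement in `ℂ`). -/
lemma division_eventually_comp_ofComplex_ne_zero {D : ℍ → ℂ} (hD : MDiff D) (hD0 : D ≠ 0) {c : ℂ}
    (hc : 0 < c.im) : ∀ᶠ z in 𝓝[≠] c, (D ∘ ofComplex) z ≠ 0 := by
  have hdiff : DifferentiableOn ℂ (D ∘ ofComplex) {z | 0 < z.im} := mdifferentiable_iff.mp hD
  have han : AnalyticOnNhd ℂ (D ∘ ofComplex) {z | 0 < z.im} :=
    hdiff.analyticOnNhd isOpen_upperHalfPlaneSet
  rcases (han c hc).eventually_eq_zero_or_eventually_ne_zero with h | h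
  · exfalso
    apply hD0
    have hpre : IsPreconnected {z : ℂ | 0 < z.im} :=
      (Complex.isConnected_of_upperHalfPlane subset_rfl (by grind)).isPreconnected
    have := han.eqOn_zero_of_preconnected_of_eventuallyEq_zero hpre hc h
    funext τ
    have h2 := this τ.im_pos
    simpa using h2
  · exact h

/-- Two continuous functions on `ℍ` which agree wherever a nonzero holomorphic function `D` does
not vanish are equal. -/
lemma division_eq_of_eq_on_ne_zero {D : ℍ → ℂ} (hD : MDiff D) (hD0 : D ≠ 0) {F G : ℍ → ℂ}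
    (hF : Continuous F) (hG : Continuous G) (h : ∀ τ, D τ ≠ 0 → F τ = G τ) : F = G := by
  funext τ
  have hc : 0 < (τ : ℂ).im := τ.im_pos
  have hne := division_eventually_comp_ofComplex_ne_zero hD hD0 hc
  have hmem : ∀ᶠ z in 𝓝[≠] (τ : ℂ), 0 < z.im :=
    nhdsWithin_le_nhds (isOpen_upperHalfPlaneSet.mem_nhds hc)
  have hcont : ∀ {K : ℍ → ℂ}, Continuous K → Tendsto (K ∘ ofComplex) (𝓝[≠] (τ : ℂ)) (𝓝 (K τ)) := by
    intro K hK
    have h1 : ContinuousAt (K ∘ ofComplex) (τ : ℂ) := by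
      have : ContinuousAt ofComplex (τ : ℂ) := (mdifferentiableAt_ofComplex hc).continuousAt
      exact ContinuousAt.comp (by simpa using hK.continuousAt) this
    have h2 : Tendsto (K ∘ ofComplex) (𝓝 (τ : ℂ)) (𝓝 ((K ∘ ofComplex) (τ : ℂ))) := h1
    simp only [Function.comp_apply, ofComplex_apply] at h2
    exact h2.mono_left nhdsWithin_le_nhds
  have hev : (F ∘ ofComplex) =ᶠ[𝓝[≠] (τ : ℂ)] (G ∘ ofComplex) := by
    filter_upwards [hne, hmem] with z hz hz'
    exact h _ hz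
  exact tendsto_nhds_unique_of_eventuallyEq (hcont hF) (hcont hG) hev


/-- Core analytic statement: if `N / D` is (where defined) a root of a monic polynomial with
continuous coefficients, it extends to a holomorphic function on `ℍ`. -/
theorem division_exists_mdiff_quotient {n : ℕ} {N D : ℍ → ℂ} (hN : MDiff N) (hD : MDiff D) (hD0 : D ≠ 0)
    (e : Fin n → ℍ → ℂ) (he : ∀ j, Continuous (e j))
    (hrel : ∀ τ : ℍ, N τ ^ n + ∑ j : Fin n, e j τ * N τ ^ (j : ℕ) * D τ ^ (n - (j : ℕ)) = 0) :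
    ∃ h : ℍ → ℂ, MDiff h ∧ (∀ τ, h τ * D τ = N τ) ∧
      ∀ τ, h τ ^ n + ∑ j : Fin n, e j τ * h τ ^ (j : ℕ) = 0 := by
  set Nc : ℂ → ℂ := N ∘ ofComplex with hNc
  set Dc : ℂ → ℂ := D ∘ ofComplex with hDc
  set g : ℂ → ℂ := fun z => Nc z / Dc z with hg
  set H : ℂ → ℂ := fun z => limUnder (𝓝[≠] z) g with hH
  have hNdiff : DifferentiableOn ℂ Nc {z | 0 < z.im} := mdifferentiable_iff.mp hN
  have hDdiff : DifferentiableOn ℂ Dc {z | 0 < z.im} := mdifferentiable_iff.mp hD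
  have hgdiff : ∀ z, 0 < z.im → Dc z ≠ 0 → DifferentiableAt ℂ g z := by
    intro z hz hDz
    have h1 := (hNdiff z hz).differentiableAt (isOpen_upperHalfPlaneSet.mem_nhds hz)
    have h2 := (hDdiff z hz).differentiableAt (isOpen_upperHalfPlaneSet.mem_nhds hz)
    exact h1.div h2 hDz
  have hHg : ∀ z, 0 < z.im → Dc z ≠ 0 → H z = g z := by
    intro z hz hDz
    have : Tendsto g (𝓝[≠] z) (𝓝 (g z)) :=
      (hgdiff z hz hDz).continuousAt.tendsto.mono_left nhdsWithin_le_nhds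
    exact this.limUnder_eq
  have hgroot : ∀ z (hz : 0 < z.im), Dc z ≠ 0 →
      g z ^ n + ∑ j : Fin n, e j ⟨z, hz⟩ * g z ^ (j : ℕ) = 0 := by
    intro z hz hDz
    have hr := hrel ⟨z, hz⟩
    have hNz : N ⟨z, hz⟩ = Nc z := by simp [hNc, ofComplex_apply_of_im_pos hz]
    have hDz' : D ⟨z, hz⟩ = Dc z := by simp [hDc, ofComplex_apply_of_im_pos hz]
    rw [hNz, hDz'] at hr
    have hDn : Dc z ^ n ≠ 0 := pow_ne_zero _ hDz
    have : (g z ^ n + ∑ j : Fin n, e j ⟨z, hz⟩ * g z ^ (j : ℕ)) * Dc z ^ n = 0 := by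
      rw [add_mul, Finset.sum_mul, ← hr]
      congr 1
      · simp only [hg]; rw [div_pow, div_mul_cancel₀ _ hDn]
      · apply Finset.sum_congr rfl
        intro j _
        have hj : (j : ℕ) ≤ n := j.2.le
        have : Dc z ^ n = Dc z ^ (j : ℕ) * Dc z ^ (n - (j : ℕ)) := by
          rw [← pow_add]; congr 1; omega
        simp only [hg]
        rw [this, div_pow]
        have hDj : Dc z ^ (j : ℕ) ≠ 0 := pow_ne_zero _ hDz
        field_simp
    exact (mul_eq_zero.mp this).resolve_right hDn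
  have hHdiff : ∀ c, 0 < c.im → DifferentiableAt ℂ H c := by
    intro c hc
    have h1 : ∀ᶠ z in 𝓝 c, 0 < z.im := isOpen_upperHalfPlaneSet.mem_nhds hc
    have h2 : ∀ᶠ z in 𝓝 c, z ≠ c → Dc z ≠ 0 :=
      eventually_nhdsWithin_iff.mp (division_eventually_comp_ofComplex_ne_zero hD hD0 hc)
    have h3 : ∀ j, ∀ᶠ z in 𝓝 c, ‖(e j ∘ ofComplex) z‖ < ‖e j ⟨c, hc⟩‖ + 1 := by
      intro j
      have hcont : ContinuousAt (e j ∘ ofComplex) c :=
        ContinuousAt.comp (he j).continuousAt (mdifferentiableAt_ofComplex hc).continuousAt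
      have hval : (e j ∘ ofComplex) c = e j ⟨c, hc⟩ := by
        simp [ofComplex_apply_of_im_pos hc]
      have := hcont.norm.eventually (gt_mem_nhds (show ‖(e j ∘ ofComplex) c‖ < ‖e j ⟨c, hc⟩‖ + 1 by
        rw [hval]; linarith))
      exact this
    have h3' : ∀ᶠ z in 𝓝 c, ∀ j, ‖(e j ∘ ofComplex) z‖ < ‖e j ⟨c, hc⟩‖ + 1 :=
      eventually_all.mpr h3
    obtain ⟨s, hs_sub, hs_open, hcs⟩ := eventually_nhds_iff.mp (h1.and (h2.and h3'))
    have hd : DifferentiableOn ℂ g (s \ {c}) := fun z hz =>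
      (hgdiff z (hs_sub z hz.1).1 ((hs_sub z hz.1).2.1 hz.2)).differentiableWithinAt
    have hb : BddAbove (norm ∘ g '' (s \ {c})) := by
      refine ⟨1 + ∑ j : Fin n, (‖e j ⟨c, hc⟩‖ + 1), ?_⟩
      rintro _ ⟨z, hz, rfl⟩
      have hzim := (hs_sub z hz.1).1
      have hDz := (hs_sub z hz.1).2.1 hz.2
      have hbd := (hs_sub z hz.1).2.2
      have := division_norm_le_of_monic_root (fun j => e j ⟨z, hzim⟩) (g z) (hgroot z hzim hDz)
      refine this.trans ?_
      gcongr with j _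
      have := hbd j
      simp only [Function.comp_apply, ofComplex_apply_of_im_pos hzim] at this
      exact this.le
    have key := Complex.differentiableOn_update_limUnder_of_bddAbove (hs_open.mem_nhds hcs) hd hb
    have heq : H =ᶠ[𝓝 c] Function.update g c (limUnder (𝓝[≠] c) g) := by
      filter_upwards [hs_open.mem_nhds hcs] with z hz
      by_cases hzc : z = c
      · subst hzc; simp [hH]
      · rw [Function.update_of_ne hzc]
        exact hHg z (hs_sub z hz).1 ((hs_sub z hz).2.1 hzc)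
    exact (key.differentiableAt (hs_open.mem_nhds hcs)).congr_of_eventuallyEq heq
  have hmd : MDiff (fun τ : ℍ => H τ) := by
    rw [mdifferentiable_iff]
    intro z hz
    have : (fun τ : ℍ => H τ) ∘ ofComplex =ᶠ[𝓝 z] H := by
      filter_upwards [isOpen_upperHalfPlaneSet.mem_nhds hz] with w hw
      simp [ofComplex_apply_of_im_pos hw]
    exact ((hHdiff z hz).congr_of_eventuallyEq this).differentiableWithinAt
  have hval : ∀ τ : ℍ, D τ ≠ 0 → H τ = N τ / D τ := by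
    intro τ hDτ
    have h1 : Dc τ = D τ := by simp [hDc]
    have h2 : Nc τ = N τ := by simp [hNc]
    rw [hHg τ τ.im_pos (by rwa [h1])]
    simp only [hg, h1, h2]
  refine ⟨fun τ => H τ, hmd, ?_, ?_⟩
  · intro τ
    by_cases hDτ : D τ = 0
    · have hr := hrel τ
      have hsum : ∑ j : Fin n, e j τ * N τ ^ (j : ℕ) * D τ ^ (n - (j : ℕ)) = 0 := by
        apply Finset.sum_eq_zero
        intro j _
        have : n - (j : ℕ) ≠ 0 := by have := j.2; omega
        rw [hDτ, zero_pow this, mul_zero]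
      rw [hsum, add_zero] at hr
      have hN0 : N τ = 0 := by
        rcases Nat.eq_zero_or_pos n with rfl | hn
        · simp at hr
        · exact (pow_eq_zero_iff hn.ne').mp hr
      simp [hDτ, hN0]
    · show H τ * D τ = N τ
      rw [hval τ hDτ, div_mul_cancel₀ _ hDτ]
  · have hcontH : Continuous (fun τ : ℍ => H τ) := hmd.continuous
    have hF : Continuous (fun τ : ℍ => H τ ^ n + ∑ j : Fin n, e j τ * H τ ^ (j : ℕ)) := by
      refine (hcontH.pow n).add (continuous_finsetSum _ fun j _ => ?_)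
      exact (he j).mul (hcontH.pow _)
    have := division_eq_of_eq_on_ne_zero hD hD0 hF (continuous_const (y := (0 : ℂ))) (by
      intro τ hDτ
      have h1 : Dc τ = D τ := by simp [hDc]
      have := hgroot τ τ.im_pos (by rwa [h1])
      rw [← hHg τ τ.im_pos (by rwa [h1])] at this
      simpa using this)
    intro τ
    exact congrFun this τ


/-- The root relation is preserved by slashing with elements of `SL(2, ℤ)` when the coefficients
are level one invariant of the complementary weights. -/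
lemma division_root_relation_slash {n : ℕ} {k : ℤ} {h : ℍ → ℂ} (e : Fin n → ℍ → ℂ)
    (hinv : ∀ j : Fin n, ∀ γ : SL(2, ℤ), (e j) ∣[((n : ℤ) - (j : ℕ)) * k] γ = e j)
    (hroot : ∀ τ, h τ ^ n + ∑ j : Fin n, e j τ * h τ ^ (j : ℕ) = 0) (γ : SL(2, ℤ)) (τ : ℍ) :
    (h ∣[k] γ) τ ^ n + ∑ j : Fin n, e j τ * (h ∣[k] γ) τ ^ (j : ℕ) = 0 := by
  have hd : denom γ τ ≠ 0 := denom_ne_zero γ τ
  set d := denom γ τ with hd_def
  have h1 : (h ∣[k] γ) τ = h (γ • τ) * d ^ (-k) := SL_slash_apply h γ τ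
  have h2 : ∀ j : Fin n, e j τ = e j (γ • τ) * d ^ (-(((n : ℤ) - (j : ℕ)) * k)) := by
    intro j
    have := congrFun (hinv j γ) τ
    rw [SL_slash_apply] at this
    exact this.symm
  have key : (h ∣[k] γ) τ ^ n + ∑ j : Fin n, e j τ * (h ∣[k] γ) τ ^ (j : ℕ) =
      d ^ (-(k * n)) * (h (γ • τ) ^ n + ∑ j : Fin n, e j (γ • τ) * h (γ • τ) ^ (j : ℕ)) := by
    rw [mul_add, Finset.mul_sum, h1]
    congr 1
    · rw [mul_pow, ← zpow_natCast (d ^ (-k)) n, ← zpow_mul, neg_mul]; ring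
    · apply Finset.sum_congr rfl
      intro j _
      rw [h2 j, mul_pow, ← zpow_natCast (d ^ (-k)) (j : ℕ), ← zpow_mul]
      have : d ^ (-(k * n)) = d ^ (-(((n : ℤ) - (j : ℕ)) * k)) * d ^ (-k * ((j : ℕ) : ℤ)) := by
        rw [← zpow_add₀ hd]; congr 1; ring
      rw [this]; ring
  rw [key, hroot, mul_zero]


lemma division_isBoundedAtImInfty_iff_eventually {f : ℍ → ℂ} :
    IsBoundedAtImInfty f ↔ ∃ M : ℝ, ∀ᶠ z in atImInfty, ‖f z‖ ≤ M := by
  rw [isBoundedAtImInfty_iff]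
  constructor
  · rintro ⟨M, A, h⟩
    exact ⟨M, (atImInfty_mem _).mpr ⟨A, h⟩⟩
  · rintro ⟨M, h⟩
    obtain ⟨A, hA⟩ := (atImInfty_mem _).mp h
    exact ⟨M, A, hA⟩

/-- The division lemma in the exact shape requested by the S23 architecture (T3a). -/
theorem exists_div_of_monic_relation {A D : ℍ → ℂ} (hA : MDiff A) (hD : MDiff D) (hD0 : D ≠ 0)
    {m : ℕ} (c : Fin m → ℍ → ℂ) (hc : ∀ i, MDiff (c i))
    (hrel : ∀ τ : ℍ, A τ ^ m +
      ∑ i : Fin m, c i τ * D τ ^ ((i : ℕ) + 1) * A τ ^ (m - 1 - (i : ℕ)) = 0) :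
    ∃ g : ℍ → ℂ, MDiff g ∧ (∀ τ, A τ = D τ * g τ) ∧
      ∀ τ : ℍ, g τ ^ m + ∑ i : Fin m, c i τ * g τ ^ (m - 1 - (i : ℕ)) = 0 := by
  have hrev : ∀ j : Fin m, ((Fin.rev j : Fin m) : ℕ) = m - ((j : ℕ) + 1) := fun j => Fin.val_rev j
  have hrel' : ∀ τ : ℍ, A τ ^ m +
      ∑ j : Fin m, c (Fin.rev j) τ * A τ ^ (j : ℕ) * D τ ^ (m - (j : ℕ)) = 0 := by
    intro τ
    rw [← hrel τ]
    congr 1
    rw [← Equiv.sum_comp Fin.revPerm
      (fun i : Fin m => c i τ * D τ ^ ((i : ℕ) + 1) * A τ ^ (m - 1 - (i : ℕ)))]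
    apply Finset.sum_congr rfl
    intro j _
    have hj := j.2
    simp only [Fin.revPerm_apply, hrev]
    have h1 : m - ((j : ℕ) + 1) + 1 = m - (j : ℕ) := by omega
    have h2 : m - 1 - (m - ((j : ℕ) + 1)) = (j : ℕ) := by omega
    rw [h1, h2]
    ring
  obtain ⟨h, hmd, hmul, hroot⟩ := division_exists_mdiff_quotient hA hD hD0
    (fun j => c (Fin.rev j)) (fun j => (hc _).continuous) hrel'
  refine ⟨h, hmd, fun τ => ?_, fun τ => ?_⟩
  · rw [← hmul τ, mul_comm]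
  · rw [← hroot τ]
    congr 1
    rw [← Equiv.sum_comp Fin.revPerm
      (fun i : Fin m => c i τ * h τ ^ (m - 1 - (i : ℕ)))]
    apply Finset.sum_congr rfl
    intro j _
    have hj := j.2
    simp only [Fin.revPerm_apply, hrev]
    have h2 : m - 1 - (m - ((j : ℕ) + 1)) = (j : ℕ) := by omega
    rw [h2]

section Main

variable {Γ : Subgroup (GL (Fin 2) ℝ)} [Γ.IsArithmetic] {k w : ℤ} {n : ℕ}

/-- The quotient as a holomorphic, `Γ`-invariant function satisfying the root relation. -/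
theorem division_exists_slashInvariant_quotient
    (Nf : ModularForm Γ (k + w)) (D : ModularForm Γ w) (hD : D ≠ 0)
    (e : Fin n → ℍ → ℂ) (he : ∀ j, Continuous (e j))
    (hrel : ∀ τ : ℍ, Nf τ ^ n + ∑ j : Fin n, e j τ * Nf τ ^ (j : ℕ) * D τ ^ (n - (j : ℕ)) = 0) :
    ∃ h : ℍ → ℂ, MDiff h ∧ (∀ τ, h τ * D τ = Nf τ) ∧
      (∀ τ, h τ ^ n + ∑ j : Fin n, e j τ * h τ ^ (j : ℕ) = 0) ∧
      ∀ γ ∈ Γ, h ∣[k] γ = h := by
  have hD0 : (D : ℍ → ℂ) ≠ 0 := by
    intro h0
    apply hD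
    ext τ
    simpa using congrFun h0 τ
  obtain ⟨h, hmd, hmul, hroot⟩ :=
    division_exists_mdiff_quotient (N := Nf) (D := D) Nf.holo' D.holo' hD0 e he hrel
  refine ⟨h, hmd, hmul, hroot, ?_⟩
  intro γ hγ
  have hN : (Nf : ℍ → ℂ) ∣[k + w] γ = Nf := SlashInvariantFormClass.slash_action_eq Nf γ hγ
  have hDγ : (D : ℍ → ℂ) ∣[w] γ = D := SlashInvariantFormClass.slash_action_eq D γ hγ
  have hprod : (h * (D : ℍ → ℂ)) = Nf := by
    funext τ
    exact hmul τ
  have hdet : |(γ.det : ℝ)| = 1 := Subgroup.HasDetPlusMinusOne.abs_det hγ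
  have h1 : (h ∣[k] γ) * (D : ℍ → ℂ) = h * (D : ℍ → ℂ) := by
    have := mul_slash k w γ h (D : ℍ → ℂ)
    rw [hprod, hN, hDγ, hdet, one_smul] at this
    rw [hprod, this]
  apply division_eq_of_eq_on_ne_zero D.holo' hD0 (hmd.slash k γ).continuous hmd.continuous
  intro τ hτ
  have := congrFun h1 τ
  simp only [Pi.mul_apply] at this
  exact mul_right_cancel₀ hτ this

theorem division_exists_modularForm_mul_eq
    (Nf : ModularForm Γ (k + w)) (D : ModularForm Γ w) (hD : D ≠ 0)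
    (e : Fin n → ℍ → ℂ)
    (he : ∀ j : Fin n, ∃ g : ModularForm 𝒮ℒ (((n : ℤ) - (j : ℕ)) * k), (g : ℍ → ℂ) = e j)
    (hrel : ∀ τ : ℍ, Nf τ ^ n + ∑ j : Fin n, e j τ * Nf τ ^ (j : ℕ) * D τ ^ (n - (j : ℕ)) = 0) :
    ∃ h : ModularForm Γ k, ∀ τ, h τ * D τ = Nf τ := by
  have hcont : ∀ j, Continuous (e j) := by
    intro j
    obtain ⟨g, hg⟩ := he j
    rw [← hg]
    exact g.holo'.continuous
  have hinv : ∀ j : Fin n, ∀ γ : SL(2, ℤ), (e j) ∣[((n : ℤ) - (j : ℕ)) * k] γ = e j := by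
    intro j γ
    obtain ⟨g, hg⟩ := he j
    rw [← hg]
    exact SlashInvariantFormClass.slash_action_eq g _ ⟨γ, rfl⟩
  have hbdd : ∀ j : Fin n, IsBoundedAtImInfty (e j) := by
    intro j
    obtain ⟨g, hg⟩ := he j
    rw [← hg]
    exact ModularFormClass.bdd_at_infty g
  obtain ⟨h, hmd, hmul, hroot, hΓ⟩ := division_exists_slashInvariant_quotient Nf D hD e hcont hrel
  refine ⟨{ toFun := h, slash_action_eq' := hΓ, holo' := hmd, bdd_at_cusps' := ?_ }, hmul⟩
  intro c hc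
  rw [Subgroup.IsArithmetic.isCusp_iff_isCusp_SL2Z] at hc
  rw [OnePoint.isBoundedAt_iff_forall_SL2Z hc]
  intro γ _
  have hb : ∀ j : Fin n, ∃ M : ℝ, ∀ᶠ z in atImInfty, ‖e j z‖ ≤ M := fun j =>
    division_isBoundedAtImInfty_iff_eventually.mp (hbdd j)
  choose M hM using hb
  rw [division_isBoundedAtImInfty_iff_eventually]
  refine ⟨1 + ∑ j, M j, ?_⟩
  filter_upwards [eventually_all.mpr hM] with z hz
  have hr := division_root_relation_slash e hinv hroot γ z
  refine (division_norm_le_of_monic_root (fun j => e j z) _ hr).trans ?_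
  gcongr with j _
  exact hz j

theorem division_exists_cuspForm_mul_eq
    (Nf : ModularForm Γ (k + w)) (D : ModularForm Γ w) (hD : D ≠ 0)
    (e : Fin n → ℍ → ℂ)
    (he : ∀ j : Fin n, ∃ g : CuspForm 𝒮ℒ (((n : ℤ) - (j : ℕ)) * k), (g : ℍ → ℂ) = e j)
    (hrel : ∀ τ : ℍ, Nf τ ^ n + ∑ j : Fin n, e j τ * Nf τ ^ (j : ℕ) * D τ ^ (n - (j : ℕ)) = 0) :
    ∃ h : CuspForm Γ k, ∀ τ, h τ * D τ = Nf τ := by
  have hcont : ∀ j, Continuous (e j) := by
    intro j
    obtain ⟨g, hg⟩ := he j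
    rw [← hg]
    exact g.holo'.continuous
  have hinv : ∀ j : Fin n, ∀ γ : SL(2, ℤ), (e j) ∣[((n : ℤ) - (j : ℕ)) * k] γ = e j := by
    intro j γ
    obtain ⟨g, hg⟩ := he j
    rw [← hg]
    exact SlashInvariantFormClass.slash_action_eq g _ ⟨γ, rfl⟩
  have hzero : ∀ j : Fin n, IsZeroAtImInfty (e j) := by
    intro j
    obtain ⟨g, hg⟩ := he j
    rw [← hg]
    exact CuspFormClass.zero_at_infty g
  obtain ⟨h, hmd, hmul, hroot, hΓ⟩ := division_exists_slashInvariant_quotient Nf D hD e hcont hrel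
  have hn : 0 < n := by
    rcases Nat.eq_zero_or_pos n with rfl | hn
    · have := hroot UpperHalfPlane.I
      simp at this
    · exact hn
  refine ⟨{ toFun := h, slash_action_eq' := hΓ, holo' := hmd, zero_at_cusps' := ?_ }, hmul⟩
  intro c hc
  rw [Subgroup.IsArithmetic.isCusp_iff_isCusp_SL2Z] at hc
  rw [OnePoint.isZeroAt_iff_forall_SL2Z hc]
  intro γ _
  have hb : ∀ j : Fin n, ∃ M : ℝ, ∀ᶠ z in atImInfty, ‖e j z‖ ≤ M := fun j =>
    division_isBoundedAtImInfty_iff_eventually.mp (hzero j).isBoundedAtImInfty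
  choose M hM using hb
  set B : ℝ := 1 + ∑ j, |M j| with hB
  have hB1 : 1 ≤ B := by
    have : 0 ≤ ∑ j, |M j| := Finset.sum_nonneg fun _ _ => abs_nonneg _
    linarith
  have hbound : ∀ᶠ z in atImInfty, ‖(h ∣[k] γ) z‖ ≤ B := by
    filter_upwards [eventually_all.mpr hM] with z hz
    have hr := division_root_relation_slash e hinv hroot γ z
    refine (division_norm_le_of_monic_root (fun j => e j z) _ hr).trans ?_
    rw [hB]
    gcongr with j _
    exact (hz j).trans (le_abs_self _)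
  have hsum : Tendsto (fun z => (∑ j : Fin n, ‖e j z‖) * B ^ (n - 1)) atImInfty (𝓝 0) := by
    have : Tendsto (fun z => ∑ j : Fin n, ‖e j z‖) atImInfty (𝓝 (∑ _j : Fin n, (0 : ℝ))) :=
      tendsto_finsetSum _ fun j _ => tendsto_zero_iff_norm_tendsto_zero.mp (hzero j)
    simpa using this.mul_const (B ^ (n - 1))
  rw [IsZeroAtImInfty, ZeroAtFilter, tendsto_zero_iff_norm_tendsto_zero]
  rw [Metric.tendsto_nhds]
  intro ε hε
  have hεn : 0 < ε ^ n := pow_pos hε n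
  have hev := (Metric.tendsto_nhds.mp hsum) (ε ^ n) hεn
  filter_upwards [hev, hbound] with z hz hzB
  have hr := division_root_relation_slash e hinv hroot γ z
  have hle := division_norm_pow_le_of_monic_root (fun j => e j z) _ B hB1 hzB hr
  have hnonneg : 0 ≤ (∑ j : Fin n, ‖e j z‖) * B ^ (n - 1) :=
    mul_nonneg (Finset.sum_nonneg fun _ _ => norm_nonneg _) (pow_nonneg (by linarith) _)
  rw [Real.dist_eq, sub_zero, abs_of_nonneg hnonneg] at hz
  have hlt : ‖(h ∣[k] γ) z‖ ^ n < ε ^ n := lt_of_le_of_lt hle hz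
  rw [Real.dist_eq, sub_zero, abs_of_nonneg (norm_nonneg _)]
  exact lt_of_pow_lt_pow_left₀ n hε.le hlt

end Main

end Fermat.Agent.S23
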