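import Mathlib
import Fermat.Agent.S23.Defs

set_option autoImplicit false

namespace Fermat.Agent.S23

open UpperHalfPlane
open scoped MatrixGroups Manifold ModularForm

local notation "Γ₀(" N ")" => CongruenceSubgroup.Gamma0 N

section IsBddRatLemmas


theorem levelOne_isBddRat_zero : IsBddRat (0 : PowerSeries ℂ) :=
  ⟨1, one_ne_zero, fun n => ⟨0, by simp⟩⟩

theorem levelOne_isBddRat_C_rat (r : ℚ) : IsBddRat (PowerSeries.C (r : ℂ)) := by
  refine ⟨r.den, r.den_ne_zero, fun n => ?_⟩
  by_cases hn : n = 0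
  · subst hn
    refine ⟨r.num, ?_⟩
    have h : (r.den : ℚ) * r = r.num := by
      rw [mul_comm]; exact Rat.mul_den_eq_num r
    rw [PowerSeries.coeff_zero_C]
    exact_mod_cast h
  · refine ⟨0, ?_⟩
    simp [PowerSeries.coeff_C, hn]

theorem levelOne_isBddRat_one : IsBddRat (1 : PowerSeries ℂ) := by
  have := levelOne_isBddRat_C_rat 1
  simpa using this

theorem IsBddRat.add {φ ψ : PowerSeries ℂ} (hφ : IsBddRat φ) (hψ : IsBddRat ψ) :
    IsBddRat (φ + ψ) := by
  obtain ⟨M, hM, h1⟩ := hφ
  obtain ⟨M', hM', h2⟩ := hψ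
  refine ⟨M * M', mul_ne_zero hM hM', fun n => ?_⟩
  obtain ⟨a, ha⟩ := h1 n
  obtain ⟨b, hb⟩ := h2 n
  refine ⟨M' * a + M * b, ?_⟩
  simp only [map_add, Nat.cast_mul, Int.cast_add, Int.cast_mul, Int.cast_natCast, ← ha, ← hb]
  ring

theorem IsBddRat.mul {φ ψ : PowerSeries ℂ} (hφ : IsBddRat φ) (hψ : IsBddRat ψ) :
    IsBddRat (φ * ψ) := by
  classical
  obtain ⟨M, hM, h1⟩ := hφ
  obtain ⟨M', hM', h2⟩ := hψ
  refine ⟨M * M', mul_ne_zero hM hM', fun n => ?_⟩
  choose a ha using h1
  choose b hb using h2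
  refine ⟨∑ p ∈ Finset.HasAntidiagonal.antidiagonal n, a p.1 * b p.2, ?_⟩
  rw [PowerSeries.coeff_mul, Finset.mul_sum]
  push_cast
  refine Finset.sum_congr rfl fun p _ => ?_
  rw [← ha, ← hb]
  ring

theorem IsBddRat.smul_rat {φ : PowerSeries ℂ} (hφ : IsBddRat φ) (r : ℚ) :
    IsBddRat ((r : ℂ) • φ) := by
  have : (r : ℂ) • φ = PowerSeries.C (r : ℂ) * φ := by
    ext n; simp
  rw [this]
  exact (levelOne_isBddRat_C_rat r).mul hφ

theorem IsBddRat.neg {φ : PowerSeries ℂ} (hφ : IsBddRat φ) : IsBddRat (-φ) := by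
  have := hφ.smul_rat (-1)
  simpa using this

theorem IsBddRat.sub {φ ψ : PowerSeries ℂ} (hφ : IsBddRat φ) (hψ : IsBddRat ψ) :
    IsBddRat (φ - ψ) := by
  rw [sub_eq_add_neg]
  exact hφ.add hψ.neg

theorem IsBddRat.pow {φ : PowerSeries ℂ} (hφ : IsBddRat φ) (n : ℕ) : IsBddRat (φ ^ n) := by
  induction n with
  | zero => simpa using levelOne_isBddRat_one
  | succ n ih => rw [pow_succ]; exact ih.mul hφ

end IsBddRatLemmas


section Eisenstein

open EisensteinSeries ModularForm ModularFormClass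

theorem levelOne_isBddRat_E {k : ℕ} (hk : 3 ≤ k) (hk2 : Even k) :
    IsBddRat (qExpansion 1 (E hk)) := by
  set r : ℚ := -(2 * k / bernoulli k) with hr
  have hrc : (r : ℂ) = -(2 * k / bernoulli k : ℂ) := by
    rw [hr]; push_cast; ring
  refine ⟨r.den, r.den_ne_zero, fun m => ?_⟩
  rw [E_qExpansion_coeff hk hk2 m]
  have h : (r.den : ℚ) * r = r.num := by
    rw [mul_comm]; exact Rat.mul_den_eq_num r
  have hc : (r.den : ℂ) * (r : ℂ) = (r.num : ℂ) := by exact_mod_cast h
  by_cases hm : m = 0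
  · refine ⟨r.den, ?_⟩
    simp [hm]
  · refine ⟨r.num * (ArithmeticFunction.sigma (k - 1) m : ℕ), ?_⟩
    rw [if_neg hm, ← hrc, ← mul_assoc, hc]
    push_cast
    ring

/-- The weight 12 form `E₄ ^ 3 - E₆ ^ 2`. -/
noncomputable def levelOne_E4E6Form : ModularForm 𝒮ℒ 12 :=
  ModularForm.mcast (by decide) (E₄.pow 3) - ModularForm.mcast (by decide) (E₆.pow 2)

theorem levelOne_E4E6Form_apply (z : ℍ) : levelOne_E4E6Form z = E₄ z ^ 3 - E₆ z ^ 2 := by
  simp only [levelOne_E4E6Form, coe_mcast, coe_pow, sub_apply, Pi.pow_apply]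

theorem levelOne_qExpansion_E4E6Form :
    qExpansion 1 levelOne_E4E6Form = qExpansion 1 E₄ ^ 3 - qExpansion 1 E₆ ^ 2 := by
  simp only [levelOne_E4E6Form, FunLike.coe_sub, coe_mcast,
    ModularForm.qExpansion_sub one_pos one_mem_strictPeriods_SL,
    ModularForm.qExpansion_pow one_pos one_mem_strictPeriods_SL]

theorem isBddRat_qExpansion_discriminant : IsBddRat (qExpansion 1 ModularForm.discriminant) := by
  have hfun : (ModularForm.discriminant : ℍ → ℂ) =
      (1 / 1728 : ℂ) • (levelOne_E4E6Form : ℍ → ℂ) := by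
    funext z
    rw [discriminant_eq_E₄_cube_sub_E₆_sq z]
    simp only [Pi.smul_apply, levelOne_E4E6Form_apply, smul_eq_mul]
    ring
  rw [hfun, ModularForm.qExpansion_smul one_pos one_mem_strictPeriods_SL,
    levelOne_qExpansion_E4E6Form]
  have h4 : IsBddRat (qExpansion 1 E₄) := levelOne_isBddRat_E _ ⟨2, rfl⟩
  have h6 : IsBddRat (qExpansion 1 E₆) := levelOne_isBddRat_E _ ⟨3, rfl⟩
  have := ((h4.pow 3).sub (h6.pow 2)).smul_rat (1 / 1728)
  simpa using this

end Eisenstein


section Main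

open EisensteinSeries ModularForm ModularFormClass

/-- Multiplication by the discriminant, as a linear map raising the weight by 12. -/
noncomputable def levelOne_mulDisc (k : ℤ) : ModularForm 𝒮ℒ (k - 12) →ₗ[ℂ] ModularForm 𝒮ℒ k :=
  CuspForm.toModularFormₗ ∘ₗ (CuspForm.discriminantEquiv (k := k)).symm.toLinearMap

theorem levelOne_mulDisc_apply (k : ℤ) (x : ModularForm 𝒮ℒ (k - 12)) (z : ℍ) :
    levelOne_mulDisc k x z = ModularForm.discriminant z * x z := rfl

theorem levelOne_qExpansion_mulDisc (k : ℤ) (x : ModularForm 𝒮ℒ (k - 12)) :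
    qExpansion 1 (levelOne_mulDisc k x) = qExpansion 1 ModularForm.discriminant * qExpansion 1 x := by
  have hfun : (levelOne_mulDisc k x : ℍ → ℂ) = (⇑CuspForm.discriminant * ⇑x : ℍ → ℂ) := by
    funext z
    rfl
  rw [hfun, ModularForm.qExpansion_mul_coe one_pos one_mem_strictPeriods_SL CuspForm.discriminant x,
    CuspForm.coe_discriminant]

theorem levelOne_span_eq_top_of_forall_eq_zero {w : ℤ} (h0 : ∀ h : ModularForm 𝒮ℒ w, h = 0) :
    Submodule.span ℂ {h : ModularForm 𝒮ℒ w | IsBddRat (qExpansion 1 h)} = ⊤ := by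
  rw [eq_top_iff]
  intro h _
  rw [h0 h]
  exact Submodule.zero_mem _

theorem levelOne_span_isBddRat_aux (n : ℕ) : ∀ w : ℤ, w.toNat = n →
    Submodule.span ℂ {h : ModularForm 𝒮ℒ w | IsBddRat (qExpansion 1 h)} = ⊤ := by
  induction n using Nat.strong_induction_on with
  | _ n ih =>
    intro w hw
    rcases lt_or_ge w 0 with hneg | hnn
    · exact levelOne_span_eq_top_of_forall_eq_zero
        (rank_zero_iff_forall_zero.mp (levelOne_neg_weight_rank_zero hneg))
    obtain ⟨k, rfl⟩ := Int.eq_ofNat_of_zero_le hnn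
    rcases Nat.even_or_odd k with hk2 | hkodd
    swap
    · exact levelOne_span_eq_top_of_forall_eq_zero
        (levelOne_odd_weight_eq_zero (by exact_mod_cast hkodd))
    have hkn : k = n := by simpa using hw
    by_cases hk3 : 3 ≤ k
    · -- main case
      rw [eq_top_iff]
      intro h _
      set a0 : ℂ := (qExpansion 1 h).coeff 0 with ha0
      set g : ModularForm 𝒮ℒ k := h - a0 • E hk3 with hg
      have hg0 : (qExpansion 1 g).coeff 0 = 0 := by
        rw [hg, FunLike.coe_sub, ModularForm.qExpansion_sub one_pos one_mem_strictPeriods_SL,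
          FunLike.coe_smul, ModularForm.qExpansion_smul one_pos one_mem_strictPeriods_SL, map_sub,
          PowerSeries.coeff_smul, E_qExpansion_coeff_zero hk3 hk2, smul_eq_mul, mul_one, sub_self]
      set h1 : ModularForm 𝒮ℒ ((k : ℤ) - 12) := CuspForm.discriminantEquiv (toCuspForm g hg0)
        with hh1
      have hgeq : levelOne_mulDisc k h1 = g := by
        ext z
        rw [levelOne_mulDisc_apply, hh1, discriminant_mul_discriminantEquiv_apply]
        rfl
      have hdecomp : h = a0 • E hk3 + levelOne_mulDisc k h1 := by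
        rw [hgeq, hg]; abel
      rw [hdecomp]
      apply Submodule.add_mem
      · exact Submodule.smul_mem _ _ (Submodule.subset_span (levelOne_isBddRat_E hk3 hk2))
      · have hlt : ((k : ℤ) - 12).toNat < n := by
          rw [← hkn]; omega
        have hIH := ih _ hlt ((k : ℤ) - 12) rfl
        have hmem : h1 ∈ Submodule.span ℂ
            {x : ModularForm 𝒮ℒ ((k : ℤ) - 12) | IsBddRat (qExpansion 1 x)} := by
          rw [hIH]; trivial
        have hmap := Submodule.mem_map_of_mem (f := levelOne_mulDisc (k : ℤ)) hmem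
        rw [Submodule.map_span] at hmap
        refine Submodule.span_mono ?_ hmap
        rintro _ ⟨x, hx, rfl⟩
        change IsBddRat (qExpansion 1 (levelOne_mulDisc k x))
        rw [levelOne_qExpansion_mulDisc]
        exact isBddRat_qExpansion_discriminant.mul hx
    · -- k ∈ {0, 2}
      have hk02 : k = 0 ∨ k = 2 := by
        rcases hk2 with ⟨m, hm⟩
        omega
      rcases hk02 with rfl | rfl
      · rw [eq_top_iff]
        intro h _
        obtain ⟨c, hc⟩ := levelOne_weight_zero_const h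
        have hh : h = c • (ModularForm.const 1 : ModularForm 𝒮ℒ 0) := by
          ext z
          simp [hc]
        rw [hh]
        refine Submodule.smul_mem _ _ (Submodule.subset_span ?_)
        change IsBddRat (qExpansion 1 (ModularForm.const 1 : ModularForm 𝒮ℒ 0))
        have h1 : ((ModularForm.const 1 : ModularForm 𝒮ℒ 0) : ℍ → ℂ) = 1 := by
          funext z; simp
        rw [h1, qExpansion_one]
        exact levelOne_isBddRat_one
      · exact levelOne_span_eq_top_of_forall_eq_zero
          (rank_zero_iff_forall_zero.mp levelOne_weight_two_rank_zero)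

theorem levelOne_span_isBddRat (w : ℤ) :
    Submodule.span ℂ {h : ModularForm 𝒮ℒ w | IsBddRat (qExpansion 1 h)} = ⊤ :=
  levelOne_span_isBddRat_aux _ w rfl

end Main

end Fermat.Agent.S23
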