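import Mathlib
import Fermat.Agent.S23.Defs

set_option autoImplicit false

namespace Fermat.Agent.S23

open UpperHalfPlane SlashInvariantForm
open scoped MatrixGroups Manifold ModularForm

section PureAlgebra

variable {R : Type*} [CommRing R] {m : ℕ}

/-- Vandermonde determinant after permuting and rescaling the nodes. -/
theorem linear_det_vdm_perm_scale (U : Fin m → R) (π : Equiv.Perm (Fin m)) (a : R) :
    (Matrix.vandermonde (fun i => U (π i) * a)).det =
      (∏ l : Fin m, a ^ (l : ℕ)) * ((Equiv.Perm.sign π : ℤ) : R) * (Matrix.vandermonde U).det := by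
  have h : Matrix.vandermonde (fun i => U (π i) * a) =
      Matrix.of (fun i l => (fun l : Fin m => a ^ (l : ℕ)) l *
        ((Matrix.vandermonde U).submatrix π id) i l) := by
    ext i l
    simp [Matrix.vandermonde_apply, mul_pow, mul_comm]
  rw [h, Matrix.det_mul_row, Matrix.det_permute]
  ring

/-- Same for the Vandermonde matrix with one column replaced. -/
theorem linear_det_update_perm_scale (U F : Fin m → R) (π : Equiv.Perm (Fin m)) (a c : R)
    (l : Fin m) :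
    ((Matrix.vandermonde (fun i => U (π i) * a)).updateCol l (fun i => F (π i) * c)).det =
      (∏ l' : Fin m, Function.update (fun l' : Fin m => a ^ (l' : ℕ)) l c l') *
        ((Equiv.Perm.sign π : ℤ) : R) * ((Matrix.vandermonde U).updateCol l F).det := by
  have h : (Matrix.vandermonde (fun i => U (π i) * a)).updateCol l (fun i => F (π i) * c) =
      Matrix.of (fun i l' => Function.update (fun l' : Fin m => a ^ (l' : ℕ)) l c l' *
        (((Matrix.vandermonde U).updateCol l F).submatrix π id) i l') := by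
    ext i l'
    by_cases hl : l' = l
    · subst hl
      simp [mul_comm]
    · simp [Matrix.updateCol_ne hl, Function.update_of_ne hl, Matrix.vandermonde_apply, mul_pow,
        mul_comm]
  rw [h, Matrix.det_mul_row, Matrix.det_permute]
  ring

/-- Cramer's rule for the Vandermonde system, row `i`. -/
theorem linear_cramer_row (U F : Fin m → R) (i : Fin m) :
    ∑ l : Fin m, ((Matrix.vandermonde U).det * ((Matrix.vandermonde U).updateCol l F).det) *
        U i ^ (l : ℕ) = (Matrix.vandermonde U).det ^ 2 * F i := by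
  have h := congrFun (Matrix.mulVec_cramer (Matrix.vandermonde U) F) i
  simp only [Matrix.mulVec, dotProduct, Matrix.vandermonde_apply, Matrix.cramer_apply,
    Pi.smul_apply, smul_eq_mul] at h
  calc ∑ l : Fin m, ((Matrix.vandermonde U).det * ((Matrix.vandermonde U).updateCol l F).det) *
        U i ^ (l : ℕ)
      = (Matrix.vandermonde U).det *
          ∑ l : Fin m, U i ^ (l : ℕ) * ((Matrix.vandermonde U).updateCol l F).det := by
        rw [Finset.mul_sum]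
        exact Finset.sum_congr rfl fun l _ => by ring
    _ = (Matrix.vandermonde U).det ^ 2 * F i := by rw [h]; ring

end PureAlgebra

section NiceAlgebra

/-- Holomorphic functions on the upper half plane that are bounded at `i∞`. -/
def linearNiceAlg : Subalgebra ℂ (ℍ → ℂ) where
  carrier := {F | MDiff F ∧ IsBoundedAtImInfty F}
  mul_mem' := fun ha hb => ⟨ha.1.mul hb.1, (boundedAtImInftySubalgebra ℂ).mul_mem ha.2 hb.2⟩
  add_mem' := fun ha hb => ⟨ha.1.add hb.1, (boundedAtImInftySubalgebra ℂ).add_mem ha.2 hb.2⟩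
  algebraMap_mem' := fun c =>
    ⟨mdifferentiable_const, (boundedAtImInftySubalgebra ℂ).algebraMap_mem c⟩

theorem linear_mem_niceAlg {F : ℍ → ℂ} : F ∈ linearNiceAlg ↔ MDiff F ∧ IsBoundedAtImInfty F :=
  Iff.rfl

theorem linear_det_mem {A : Type*} [CommRing A] [Algebra ℂ A] (S : Subalgebra ℂ A) {m : ℕ}
    (M : Matrix (Fin m) (Fin m) A) (hM : ∀ i j, M i j ∈ S) : M.det ∈ S := by
  rw [Matrix.det_apply]
  refine S.sum_mem fun σ _ => ?_
  rw [Units.smul_def]
  exact S.toSubring.zsmul_mem (S.prod_mem fun i _ => hM _ _) _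

/-- A holomorphic `SL(2, ℤ)`-invariant function which is bounded at `i∞` is a level one form. -/
noncomputable def linearLevelOne (F : ℍ → ℂ) (k : ℤ) (hinv : ∀ γ : SL(2, ℤ), F ∣[k] γ = F)
    (hF : F ∈ linearNiceAlg) : ModularForm 𝒮ℒ k where
  toFun := F
  slash_action_eq' := by
    rintro _ ⟨γ, rfl⟩
    exact hinv γ
  holo' := hF.1
  bdd_at_cusps' := fun {c} hc => by
    rw [OnePoint.isBoundedAt_iff_forall_SL2Z hc]
    intro γ _
    rw [hinv γ]
    exact hF.2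

@[simp]
theorem linearLevelOne_apply (F : ℍ → ℂ) (k : ℤ) (hinv : ∀ γ : SL(2, ℤ), F ∣[k] γ = F)
    (hF : F ∈ linearNiceAlg) (τ : ℍ) : linearLevelOne F k hinv hF τ = F τ := rfl

end NiceAlgebra

section Quotient

variable {𝒢 : Subgroup (GL (Fin 2) ℝ)} [𝒢.IsArithmetic] {k w : ℤ}

local notation "𝒬" => 𝒮ℒ ⧸ (𝒢.subgroupOf 𝒮ℒ)

theorem linear_quotientFunc_mem (u : ModularForm 𝒢 w) (q : 𝒬) :
    quotientFunc u q ∈ linearNiceAlg := by
  induction q using Quotient.inductionOn with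
  | h r =>
    obtain ⟨r, hr⟩ := r
    refine ⟨(ModularForm.translate u r⁻¹).holo', ?_⟩
    have hc : IsCusp OnePoint.infty 𝒮ℒ := isCusp_SL2Z_iff'.mpr ⟨1, by simp⟩
    have h1 := (ModularForm.translate u r⁻¹).bdd_at_cusps' (c := OnePoint.infty)
      (by simpa using hc.of_isFiniteRelIndex_conj hr)
    have h2 := h1 1 (by simp)
    rw [SlashAction.slash_one] at h2
    exact h2

/-- The image of an element of `SL(2, ℤ)` in `𝒮ℒ`. -/
def linearSL (γ : SL(2, ℤ)) : 𝒮ℒ :=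
  ⟨Matrix.SpecialLinearGroup.mapGL ℝ γ, MonoidHom.mem_range.mpr ⟨γ, rfl⟩⟩

omit [𝒢.IsArithmetic] in
/-- transformation of the translates under `SL(2, ℤ)`, pointwise. -/
theorem linear_quotientFunc_smul_apply (u : ModularForm 𝒢 w) (γ : SL(2, ℤ)) (q : 𝒬) (τ : ℍ) :
    quotientFunc u q (γ • τ) = quotientFunc u ((linearSL γ)⁻¹ • q) τ * denom γ τ ^ w := by
  have h := congrFun (quotientFunc_smul u (ℋ := 𝒮ℒ)
    (h := Matrix.SpecialLinearGroup.mapGL ℝ γ) (MonoidHom.mem_range.mpr ⟨γ, rfl⟩) q) τ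
  have h' : (quotientFunc u q ∣[w] γ) τ = quotientFunc u ((linearSL γ)⁻¹ • q) τ := h
  rw [ModularForm.SL_slash_apply] at h'
  rw [← h', mul_assoc, ← zpow_add₀ (denom_ne_zero γ τ), neg_add_cancel, zpow_zero, mul_one]

omit [𝒢.IsArithmetic] in
theorem linear_quotientFunc_injective (u : ModularForm 𝒢 w)
    (hu : ∀ γ : SL(2, ℤ), (u : ℍ → ℂ) ∣[w] γ = u → (γ : GL (Fin 2) ℝ) ∈ 𝒢) :
    Function.Injective (fun q : 𝒬 => quotientFunc u q) := by
  intro q q' hqq
  induction q using Quotient.inductionOn with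
  | h r =>
    induction q' using Quotient.inductionOn with
    | h r' =>
      obtain ⟨r, γ, rfl⟩ := r
      obtain ⟨r', γ', rfl⟩ := r'
      simp only [quotientFunc_mk] at hqq
      have h1 : (u : ℍ → ℂ) ∣[w] (γ⁻¹ * γ') = u := by
        have h2 := congrArg (fun F : ℍ → ℂ => F ∣[w] (Matrix.SpecialLinearGroup.mapGL ℝ γ')) hqq
        simp only [← SlashAction.slash_mul, inv_mul_cancel, SlashAction.slash_one] at h2
        rw [ModularForm.SL_slash, map_mul, map_inv]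
        exact h2
      have h3 := hu _ h1
      refine QuotientGroup.eq.mpr ?_
      rw [Subgroup.mem_subgroupOf]
      have h4 : Matrix.SpecialLinearGroup.mapGL ℝ (γ⁻¹ * γ') ∈ 𝒢 := h3
      simpa [map_mul, map_inv] using h4

end Quotient

section Transform

variable {m : ℕ}

theorem linear_det_vdm_apply (𝕌 : Fin m → ℍ → ℂ) (τ : ℍ) :
    (Matrix.vandermonde 𝕌).det τ = (Matrix.vandermonde (fun i => 𝕌 i τ)).det := by
  have h := RingHom.map_det (Pi.evalRingHom (fun _ : ℍ => ℂ) τ) (Matrix.vandermonde 𝕌)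
  rw [Pi.evalRingHom_apply] at h
  rw [h]
  congr 1

theorem linear_det_update_apply (𝕌 𝔽 : Fin m → ℍ → ℂ) (l : Fin m) (τ : ℍ) :
    ((Matrix.vandermonde 𝕌).updateCol l 𝔽).det τ =
      ((Matrix.vandermonde (fun i => 𝕌 i τ)).updateCol l (fun i => 𝔽 i τ)).det := by
  have h := RingHom.map_det (Pi.evalRingHom (fun _ : ℍ => ℂ) τ)
    ((Matrix.vandermonde 𝕌).updateCol l 𝔽)
  rw [Pi.evalRingHom_apply] at h
  rw [h]
  congr 1
  ext i l'
  by_cases hl : l' = l
  · subst hl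
    simp
  · simp [Matrix.updateCol_ne hl, Matrix.vandermonde_apply]

theorem linear_zpow_aux {J : ℂ} (_hJ : J ≠ 0) (w : ℤ) (s : ℕ) :
    ((J ^ w) ^ s) ^ 2 = J ^ (w * ((2 * s : ℕ) : ℤ)) := by
  rw [← pow_mul, ← zpow_natCast, ← zpow_mul]
  congr 1
  push_cast
  ring

theorem linear_sign_sq (π : Equiv.Perm (Fin m)) :
    (((Equiv.Perm.sign π : ℤ) : ℂ)) * ((Equiv.Perm.sign π : ℤ) : ℂ) = 1 := by
  have h := Int.units_coe_mul_self (Equiv.Perm.sign π)
  exact_mod_cast h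

theorem linear_alg_one (a sg D0 X : ℂ) (hsg : sg * sg = 1) (ha : a ^ 2 = X) (hX : X ≠ 0) :
    (a * sg * D0) ^ 2 * X⁻¹ = D0 ^ 2 := by
  have h : (a * sg * D0) ^ 2 * X⁻¹ = (sg * sg) * D0 ^ 2 * (a ^ 2 * X⁻¹) := by ring
  rw [h, hsg, ha, mul_inv_cancel₀ hX]
  ring

theorem linear_alg_two (a sg D0 D1 c P' Y L : ℂ) (hsg : sg * sg = 1) (h3 : a = L * P')
    (hK : Y * L = c * a ^ 2) (hL : L ≠ 0) (hY : Y ≠ 0) :
    (a * sg * D0) * ((c * P') * sg * D1) * Y⁻¹ = D0 * D1 := by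
  have hmain : a * (c * P') = Y := by
    apply mul_right_cancel₀ hL
    rw [hK]
    calc a * (c * P') * L = c * a * (L * P') := by ring
      _ = c * a ^ 2 := by rw [← h3]; ring
  have h : (a * sg * D0) * ((c * P') * sg * D1) * Y⁻¹ =
      (sg * sg) * (D0 * D1) * ((a * (c * P')) * Y⁻¹) := by ring
  rw [h, hsg, hmain, mul_inv_cancel₀ hY]
  ring

/-- invariance of the squared Vandermonde determinant -/
theorem linear_sq_slash (𝕌 : Fin m → ℍ → ℂ) (w : ℤ) (γ : SL(2, ℤ)) (π : Equiv.Perm (Fin m))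
    (hU : ∀ i τ, 𝕌 i (γ • τ) = 𝕌 (π i) τ * denom γ τ ^ w) :
    ((Matrix.vandermonde 𝕌).det ^ 2) ∣[w * ((2 * ∑ l : Fin m, (l : ℕ) : ℕ) : ℤ)] γ =
      (Matrix.vandermonde 𝕌).det ^ 2 := by
  ext τ
  have hJ : denom γ τ ≠ 0 := denom_ne_zero γ τ
  rw [ModularForm.SL_slash_apply, Pi.pow_apply, Pi.pow_apply, linear_det_vdm_apply,
    linear_det_vdm_apply]
  have h1 : (fun i => 𝕌 i (γ • τ)) = fun i => (fun i => 𝕌 i τ) (π i) * denom γ τ ^ w := by
    funext i
    exact hU i τ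
  rw [h1, linear_det_vdm_perm_scale (fun i => 𝕌 i τ) π (denom γ τ ^ w),
    Finset.prod_pow_eq_pow_sum]
  rw [zpow_neg]
  exact linear_alg_one _ _ _ _ (linear_sign_sq π) (linear_zpow_aux hJ w _)
    (zpow_ne_zero _ hJ)

/-- invariance of the Cramer numerators -/
theorem linear_B_slash (𝕌 𝔽 : Fin m → ℍ → ℂ) (k w : ℤ) (γ : SL(2, ℤ)) (π : Equiv.Perm (Fin m))
    (hU : ∀ i τ, 𝕌 i (γ • τ) = 𝕌 (π i) τ * denom γ τ ^ w)
    (hF : ∀ i τ, 𝔽 i (γ • τ) = 𝔽 (π i) τ * denom γ τ ^ k) (l : Fin m) :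
    ((Matrix.vandermonde 𝕌).det * ((Matrix.vandermonde 𝕌).updateCol l 𝔽).det)
      ∣[k + w * ((2 * ∑ l : Fin m, (l : ℕ) : ℕ) : ℤ) - w * ((l : ℕ) : ℤ)] γ =
      (Matrix.vandermonde 𝕌).det * ((Matrix.vandermonde 𝕌).updateCol l 𝔽).det := by
  ext τ
  have hJ : denom γ τ ≠ 0 := denom_ne_zero γ τ
  rw [ModularForm.SL_slash_apply, Pi.mul_apply, Pi.mul_apply, linear_det_vdm_apply,
    linear_det_vdm_apply, linear_det_update_apply, linear_det_update_apply]
  have h1 : (fun i => 𝕌 i (γ • τ)) = fun i => (fun i => 𝕌 i τ) (π i) * denom γ τ ^ w := by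
    funext i
    exact hU i τ
  have h2 : (fun i => 𝔽 i (γ • τ)) = fun i => (fun i => 𝔽 i τ) (π i) * denom γ τ ^ k := by
    funext i
    exact hF i τ
  rw [h1, h2, linear_det_vdm_perm_scale (fun i => 𝕌 i τ) π (denom γ τ ^ w),
    linear_det_update_perm_scale (fun i => 𝕌 i τ) (fun i => 𝔽 i τ) π (denom γ τ ^ w)
      (denom γ τ ^ k) l,
    Finset.prod_update_of_mem (Finset.mem_univ l), Finset.prod_pow_eq_pow_sum]
  have h3 : (denom γ τ ^ w) ^ (∑ l : Fin m, (l : ℕ)) =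
      (denom γ τ ^ w) ^ (l : ℕ) * ∏ x ∈ Finset.univ \ {l}, (denom γ τ ^ w) ^ (x : ℕ) := by
    rw [← Finset.prod_pow_eq_pow_sum]
    exact Finset.prod_eq_mul_prod_sdiff_singleton l _ (fun h => absurd (Finset.mem_univ l) h)
  have hK : denom γ τ ^ (k + w * ((2 * ∑ l : Fin m, (l : ℕ) : ℕ) : ℤ) - w * ((l : ℕ) : ℤ)) *
      (denom γ τ ^ w) ^ (l : ℕ) =
      denom γ τ ^ k * ((denom γ τ ^ w) ^ (∑ l : Fin m, (l : ℕ))) ^ 2 := by
    rw [linear_zpow_aux hJ, ← zpow_natCast (denom γ τ ^ w), ← zpow_mul, ← zpow_add₀ hJ,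
      ← zpow_add₀ hJ]
    congr 1
    ring
  rw [zpow_neg]
  exact linear_alg_two _ _ _ _ _ _ _ _ (linear_sign_sq π) h3 hK
    (pow_ne_zero _ (zpow_ne_zero _ hJ)) (zpow_ne_zero _ hJ)

end Transform

section Main

variable {𝒢 : Subgroup (GL (Fin 2) ℝ)} [𝒢.IsArithmetic] {k w : ℤ}

local notation "𝒬" => 𝒮ℒ ⧸ (𝒢.subgroupOf 𝒮ℒ)

theorem exists_linear_relation (f : ModularForm 𝒢 k) (u : ModularForm 𝒢 w)
    (hu : ∀ γ : SL(2, ℤ), (u : ℍ → ℂ) ∣[w] γ = u → (γ : GL (Fin 2) ℝ) ∈ 𝒢) :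
    ∃ (m : ℕ) (w₀ : ℤ) (d : ModularForm 𝒮ℒ w₀)
      (b : ∀ l : Fin m, ModularForm 𝒮ℒ (k + w₀ - w * (l : ℕ))),
      d ≠ 0 ∧ ∀ τ : ℍ, d τ * f τ = ∑ l : Fin m, b l τ * u τ ^ (l : ℕ) := by
  classical
  obtain ⟨m, ⟨e'⟩⟩ := Finite.exists_equiv_fin 𝒬
  let e : Fin m ≃ 𝒬 := e'.symm
  let 𝕌 : Fin m → ℍ → ℂ := fun i => quotientFunc u (e i)
  let 𝔽 : Fin m → ℍ → ℂ := fun i => quotientFunc f (e i)
  -- the permutation induced by an element of `SL(2, ℤ)`
  let π : SL(2, ℤ) → Equiv.Perm (Fin m) := fun γ =>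
    e.trans ((MulAction.toPerm (linearSL γ)⁻¹).trans e.symm)
  have hπ : ∀ γ i, e (π γ i) = (linearSL γ)⁻¹ • e i := fun γ i => by simp [π]
  have hU : ∀ γ : SL(2, ℤ), ∀ i τ, 𝕌 i (γ • τ) = 𝕌 (π γ i) τ * denom γ τ ^ w := fun γ i τ => by
    simp only [𝕌]
    rw [hπ]
    exact linear_quotientFunc_smul_apply u γ (e i) τ
  have hF : ∀ γ : SL(2, ℤ), ∀ i τ, 𝔽 i (γ • τ) = 𝔽 (π γ i) τ * denom γ τ ^ k := fun γ i τ => by
    simp only [𝔽]
    rw [hπ]
    exact linear_quotientFunc_smul_apply f γ (e i) τ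
  have hUmem : ∀ i, 𝕌 i ∈ linearNiceAlg := fun i => linear_quotientFunc_mem u (e i)
  have hFmem : ∀ i, 𝔽 i ∈ linearNiceAlg := fun i => linear_quotientFunc_mem f (e i)
  have hΔmem : (Matrix.vandermonde 𝕌).det ∈ linearNiceAlg :=
    linear_det_mem _ _ fun i l => by
      rw [Matrix.vandermonde_apply]
      exact pow_mem (hUmem i) _
  have hBmem : ∀ l, ((Matrix.vandermonde 𝕌).updateCol l 𝔽).det ∈ linearNiceAlg := fun l =>
    linear_det_mem _ _ fun i l' => by
      by_cases hl : l' = l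
      · subst hl
        rw [Matrix.updateCol_self]
        exact hFmem i
      · rw [Matrix.updateCol_ne hl, Matrix.vandermonde_apply]
        exact pow_mem (hUmem i) _
  set s : ℕ := ∑ l : Fin m, (l : ℕ) with hs
  refine ⟨m, w * ((2 * s : ℕ) : ℤ),
    linearLevelOne ((Matrix.vandermonde 𝕌).det ^ 2) _
      (fun γ => linear_sq_slash 𝕌 w γ (π γ) (hU γ)) (pow_mem hΔmem 2),
    fun l => linearLevelOne
      ((Matrix.vandermonde 𝕌).det * ((Matrix.vandermonde 𝕌).updateCol l 𝔽).det) _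
      (fun γ => linear_B_slash 𝕌 𝔽 k w γ (π γ) (hU γ) (hF γ) l) (mul_mem hΔmem (hBmem l)),
    ?_, ?_⟩
  · -- nonvanishing of the discriminant
    intro h0
    have h1 : ∀ τ, ((Matrix.vandermonde 𝕌).det ^ 2) τ = 0 := fun τ => by
      have := DFunLike.congr_fun h0 τ
      simpa using this
    have h2 : (Matrix.vandermonde 𝕌).det = 0 := by
      funext τ
      have := h1 τ
      simpa using this
    rw [Matrix.det_vandermonde] at h2
    have hsubmem : ∀ i j, 𝕌 j - 𝕌 i ∈ linearNiceAlg := fun i j => sub_mem (hUmem j) (hUmem i)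
    obtain ⟨i, -, hi⟩ := (UpperHalfPlane.prod_eq_zero_iff (fun i _ =>
      (linearNiceAlg.prod_mem (t := Finset.Ioi i) fun j _ => hsubmem i j).1)).mp h2
    obtain ⟨j, hj, hij⟩ := (UpperHalfPlane.prod_eq_zero_iff (fun j _ => (hsubmem i j).1)).mp hi
    have h3 : 𝕌 j = 𝕌 i := sub_eq_zero.mp hij
    have h4 : e j = e i := linear_quotientFunc_injective u hu h3
    have h5 : j = i := e.injective h4
    rw [Finset.mem_Ioi] at hj
    exact absurd h5 (ne_of_gt hj)
  · intro τ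
    obtain ⟨i₀, hi₀⟩ := e.surjective (QuotientGroup.mk (1 : 𝒮ℒ))
    have hU0 : 𝕌 i₀ = u := by
      simp only [𝕌, hi₀]
      change quotientFunc u ⟦(1 : 𝒮ℒ)⟧ = u
      rw [quotientFunc_mk]
      simp
    have hF0 : 𝔽 i₀ = f := by
      simp only [𝔽, hi₀]
      change quotientFunc f ⟦(1 : 𝒮ℒ)⟧ = f
      rw [quotientFunc_mk]
      simp
    have h := congrFun (linear_cramer_row 𝕌 𝔽 i₀) τ
    rw [hU0, hF0] at h
    simp only [linearLevelOne_apply]
    rw [Finset.sum_apply] at h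
    simp only [Pi.mul_apply, Pi.pow_apply] at h ⊢
    exact h.symm

end Main

end Fermat.Agent.S23
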