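import Mathlib
import Fermat.Agent.S23.Defs

set_option autoImplicit false
set_option linter.unusedSectionVars false

namespace Fermat.Agent.S23

open UpperHalfPlane
open scoped MatrixGroups Manifold ModularForm Topology Filter

open SlashInvariantForm

section Monic

variable {𝒢 : Subgroup (GL (Fin 2) ℝ)} [𝒢.IsArithmetic] {k : ℤ}

local notation "𝒬" => 𝒮ℒ ⧸ (𝒢.subgroupOf 𝒮ℒ)

noncomputable instance monicFintypeQuot : Fintype (𝒮ℒ ⧸ (𝒢.subgroupOf 𝒮ℒ)) := Fintype.ofFinite _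

variable {F : Type*} [FunLike F ℍ ℂ]

/-- The product of the conjugates of `f` indexed by a finite set of cosets. -/
noncomputable def monicProd [SlashInvariantFormClass F 𝒢 k] (f : F) (S : Finset 𝒬) : ℍ → ℂ :=
  ∏ q ∈ S, quotientFunc f q

/-- The `j`-th elementary symmetric function of the conjugates of `f`. -/
noncomputable def monicEsymm [SlashInvariantFormClass F 𝒢 k] (f : F) (j : ℕ) : ℍ → ℂ :=
  ∑ S ∈ Finset.powersetCard j (Finset.univ : Finset 𝒬), monicProd f S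

theorem monicProd_slash [SlashInvariantFormClass F 𝒢 k] (f : F) (S : Finset 𝒬)
    {h : GL (Fin 2) ℝ} (hh : h ∈ 𝒮ℒ) :
    monicProd f S ∣[k * (S.card : ℤ)] h =
      monicProd f (S.map (MulAction.toPerm ((⟨h, hh⟩ : 𝒮ℒ)⁻¹)).toEmbedding) := by
  unfold monicProd
  rw [ModularForm.prod_slash, Subgroup.HasDetPlusMinusOne.abs_det hh, one_zpow, one_smul,
    Finset.prod_map]
  refine Finset.prod_congr rfl fun q _ => ?_
  rw [quotientFunc_smul f hh q]
  rfl

theorem monicEsymm_slash [SlashInvariantFormClass F 𝒢 k] (f : F) (j : ℕ) {w : ℤ}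
    (hw : w = k * (j : ℤ)) {h : GL (Fin 2) ℝ} (hh : h ∈ 𝒮ℒ) :
    monicEsymm f j ∣[w] h = monicEsymm f j := by
  subst hw
  unfold monicEsymm
  rw [SlashAction.sum_slash]
  have h1 : ∀ S ∈ Finset.powersetCard j (Finset.univ : Finset 𝒬),
      monicProd f S ∣[k * (j : ℤ)] h =
        monicProd f (S.map (MulAction.toPerm ((⟨h, hh⟩ : 𝒮ℒ)⁻¹)).toEmbedding) := by
    intro S hS
    rw [← (Finset.mem_powersetCard.mp hS).2]
    exact monicProd_slash f S hh
  rw [Finset.sum_congr rfl h1]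
  have h2 := Finset.sum_map (Finset.powersetCard j (Finset.univ : Finset 𝒬))
    (Finset.mapEmbedding (MulAction.toPerm ((⟨h, hh⟩ : 𝒮ℒ)⁻¹)).toEmbedding).toEmbedding
    (fun S => monicProd f S)
  simp only [RelEmbedding.coe_toEmbedding, Finset.mapEmbedding_apply] at h2
  rw [← h2, ← Finset.powersetCard_map, Finset.map_univ_equiv]

theorem monicQuot_holo [ModularFormClass F 𝒢 k] (f : F) (q : 𝒬) :
    MDiff (quotientFunc f q) := by
  induction q using Quotient.inductionOn with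
  | h r => exact (ModularForm.translate f (r : GL (Fin 2) ℝ)⁻¹).holo'

theorem monicQuot_bdd [ModularFormClass F 𝒢 k] (f : F) (q : 𝒬) {c : OnePoint ℝ}
    (hc : IsCusp c 𝒮ℒ) (γ : GL (Fin 2) ℝ) (hγ : γ • OnePoint.infty = c) :
    IsBoundedAtImInfty (quotientFunc f q ∣[k] γ) := by
  induction q using Quotient.inductionOn with
  | h r =>
    obtain ⟨r, hr⟩ := r
    refine (ModularForm.translate f r⁻¹).bdd_at_cusps' ?_ γ hγ
    simpa using hc.of_isFiniteRelIndex_conj hr

theorem monicQuot_zero [CuspFormClass F 𝒢 k] (f : F) (q : 𝒬) {c : OnePoint ℝ}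
    (hc : IsCusp c 𝒮ℒ) (γ : GL (Fin 2) ℝ) (hγ : γ • OnePoint.infty = c) :
    IsZeroAtImInfty (quotientFunc f q ∣[k] γ) := by
  induction q using Quotient.inductionOn with
  | h r =>
    obtain ⟨r, hr⟩ := r
    refine (CuspForm.translate f r⁻¹).zero_at_cusps' ?_ γ hγ
    simpa using hc.of_isFiniteRelIndex_conj hr

theorem monicEsymm_holo [ModularFormClass F 𝒢 k] (f : F) (j : ℕ) : MDiff (monicEsymm f j) := by
  unfold monicEsymm monicProd
  exact .sum fun S _ => .prod fun q _ => monicQuot_holo f q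

theorem monicProd_slash_gen [SlashInvariantFormClass F 𝒢 k] (f : F) (S : Finset 𝒬)
    (γ : GL (Fin 2) ℝ) :
    monicProd f S ∣[k * (S.card : ℤ)] γ =
      |γ.det.val| ^ ((S.card : ℤ) - 1) • ∏ q ∈ S, (quotientFunc f q ∣[k] γ) := by
  unfold monicProd
  rw [ModularForm.prod_slash]

theorem monicEsymm_bdd [ModularFormClass F 𝒢 k] (f : F) (j : ℕ) {w : ℤ}
    (hw : w = k * (j : ℤ)) {c : OnePoint ℝ} (hc : IsCusp c 𝒮ℒ) (γ : GL (Fin 2) ℝ)
    (hγ : γ • OnePoint.infty = c) : IsBoundedAtImInfty (monicEsymm f j ∣[w] γ) := by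
  subst hw
  unfold monicEsymm
  rw [SlashAction.sum_slash]
  refine Finset.sum_induction _ IsBoundedAtImInfty (fun a b ha hb => ha.add hb)
    zero_form_isBoundedAtImInfty fun S hS => ?_
  rw [← (Finset.mem_powersetCard.mp hS).2, monicProd_slash_gen]
  refine Asymptotics.IsBigO.const_smul_left ?_ _
  exact Filter.BoundedAtFilter.prod S fun q _ => monicQuot_bdd f q hc γ hγ

theorem monicEsymm_zero [CuspFormClass F 𝒢 k] (f : F) (j : ℕ) (hj : 0 < j) {w : ℤ}
    (hw : w = k * (j : ℤ)) {c : OnePoint ℝ} (hc : IsCusp c 𝒮ℒ) (γ : GL (Fin 2) ℝ)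
    (hγ : γ • OnePoint.infty = c) : IsZeroAtImInfty (monicEsymm f j ∣[w] γ) := by
  classical
  subst hw
  unfold monicEsymm
  rw [SlashAction.sum_slash]
  refine Finset.sum_induction _ IsZeroAtImInfty (fun a b ha hb => ha.add hb)
    (Filter.zero_zeroAtFilter _) fun S hS => ?_
  have hcard : S.card = j := (Finset.mem_powersetCard.mp hS).2
  rw [← hcard, monicProd_slash_gen]
  refine Filter.ZeroAtFilter.smul _ ?_
  obtain ⟨q0, hq0⟩ : S.Nonempty := Finset.card_pos.mp (hcard ▸ hj)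
  rw [← Finset.mul_prod_erase S _ hq0]
  refine Filter.ZeroAtFilter.mul_boundedAtFilter (monicQuot_zero f q0 hc γ hγ) ?_
  exact Filter.BoundedAtFilter.prod _ fun q _ => monicQuot_bdd f q hc γ hγ

/-- The elementary symmetric functions of the conjugates as level one modular forms. -/
noncomputable def monicEsymmForm [ModularFormClass F 𝒢 k] (f : F) (j : ℕ) (w : ℤ)
    (hw : w = k * (j : ℤ)) : ModularForm 𝒮ℒ w where
  toFun := monicEsymm f j
  slash_action_eq' _ hh := monicEsymm_slash f j hw hh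
  holo' := monicEsymm_holo f j
  bdd_at_cusps' hc γ hγ := monicEsymm_bdd f j hw hc γ hγ

/-- The elementary symmetric functions of the conjugates as level one cusp forms. -/
noncomputable def monicEsymmCuspForm [CuspFormClass F 𝒢 k] (f : F) (j : ℕ) (hj : 0 < j) (w : ℤ)
    (hw : w = k * (j : ℤ)) : CuspForm 𝒮ℒ w where
  toFun := monicEsymm f j
  slash_action_eq' _ hh := monicEsymm_slash f j hw hh
  holo' := monicEsymm_holo f j
  zero_at_cusps' hc γ hγ := monicEsymm_zero f j hj hw hc γ hγ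

theorem monicEsymm_zero_apply [SlashInvariantFormClass F 𝒢 k] (f : F) (τ : ℍ) :
    monicEsymm f 0 τ = 1 := by
  simp [monicEsymm, monicProd]

theorem monicQuot_one [SlashInvariantFormClass F 𝒢 k] (f : F) (τ : ℍ) :
    quotientFunc f (QuotientGroup.mk (1 : 𝒮ℒ) : 𝒬) τ = f τ := by
  show ((f : ℍ → ℂ) ∣[k] ((1 : 𝒮ℒ) : GL (Fin 2) ℝ)⁻¹) τ = f τ
  simp

theorem monicEsymm_relation [SlashInvariantFormClass F 𝒢 k] (f : F) (τ : ℍ) :
    ∑ j ∈ Finset.range (Fintype.card 𝒬 + 1),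
      (-1 : ℂ) ^ j * monicEsymm f j τ * (f τ) ^ (Fintype.card 𝒬 - j) = 0 := by
  classical
  have h0 : ∏ q : 𝒬, (-(quotientFunc f q τ) + f τ) = 0 :=
    Finset.prod_eq_zero (Finset.mem_univ (QuotientGroup.mk (1 : 𝒮ℒ) : 𝒬))
      (by rw [monicQuot_one]; ring)
  rw [Finset.prod_add, Finset.sum_powerset, Finset.card_univ] at h0
  rw [← h0]
  refine Finset.sum_congr rfl fun j _ => ?_
  unfold monicEsymm monicProd
  rw [Finset.sum_apply, Finset.mul_sum, Finset.sum_mul]
  refine Finset.sum_congr rfl fun t ht => ?_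
  have hcard : t.card = j := (Finset.mem_powersetCard.mp ht).2
  rw [Finset.prod_apply, Finset.prod_neg, Finset.prod_const, Finset.card_univ_sdiff, hcard]

/-- Every modular form on an arithmetic group is a root of a monic polynomial whose coefficients
are level one modular forms. -/
theorem exists_monic_relation {𝒢 : Subgroup (GL (Fin 2) ℝ)} [𝒢.IsArithmetic] {k : ℤ}
    (f : ModularForm 𝒢 k) :
    ∃ (m : ℕ) (c : ∀ i : Fin m, ModularForm 𝒮ℒ (k * ((i : ℕ) + 1))),
      ∀ τ : ℍ, f τ ^ m + ∑ i : Fin m, c i τ * f τ ^ (m - 1 - (i : ℕ)) = 0 := by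
  refine ⟨Fintype.card (𝒮ℒ ⧸ (𝒢.subgroupOf 𝒮ℒ)), fun i =>
    ((-1 : ℂ) ^ ((i : ℕ) + 1)) • monicEsymmForm f ((i : ℕ) + 1) (k * ((i : ℕ) + 1))
      (by push_cast; ring), fun τ => ?_⟩
  have h := monicEsymm_relation f τ
  rw [Finset.sum_range_succ', pow_zero, one_mul, monicEsymm_zero_apply, one_mul,
    Nat.sub_zero, add_comm, Finset.sum_range] at h
  rw [← h]
  congr 1
  refine Finset.sum_congr rfl fun i _ => ?_
  rw [smul_apply, Nat.sub_sub, add_comm 1 (i : ℕ)]
  rfl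

/-- Every cusp form on an arithmetic group is a root of a monic polynomial whose lower
coefficients are level one cusp forms. -/
theorem exists_monic_relation_cusp {𝒢 : Subgroup (GL (Fin 2) ℝ)} [𝒢.IsArithmetic] {k : ℤ}
    (f : CuspForm 𝒢 k) :
    ∃ (m : ℕ) (c : ∀ i : Fin m, CuspForm 𝒮ℒ (k * ((i : ℕ) + 1))),
      ∀ τ : ℍ, f τ ^ m + ∑ i : Fin m, c i τ * f τ ^ (m - 1 - (i : ℕ)) = 0 := by
  refine ⟨Fintype.card (𝒮ℒ ⧸ (𝒢.subgroupOf 𝒮ℒ)), fun i =>
    ((-1 : ℂ) ^ ((i : ℕ) + 1)) • monicEsymmCuspForm f ((i : ℕ) + 1) (Nat.succ_pos _)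
      (k * ((i : ℕ) + 1)) (by push_cast; ring), fun τ => ?_⟩
  have h := monicEsymm_relation f τ
  rw [Finset.sum_range_succ', pow_zero, one_mul, monicEsymm_zero_apply, one_mul,
    Nat.sub_zero, add_comm, Finset.sum_range] at h
  rw [← h]
  congr 1
  refine Finset.sum_congr rfl fun i _ => ?_
  rw [smul_apply, Nat.sub_sub, add_comm 1 (i : ℕ)]
  rfl

end Monic

end Fermat.Agent.S23
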