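import Mathlib
import Fermat.Agent.S23.Defs
set_option autoImplicit false
namespace Fermat.Agent.S23
open UpperHalfPlane
open scoped MatrixGroups Manifold ModularForm
local notation "Γ₀(" N ")" => CongruenceSubgroup.Gamma0 N

/-- Norm estimate for a root of a monic polynomial, power form. -/
theorem rootBound_norm_pow_le {m : ℕ} (x : ℂ) (c : Fin m → ℂ)
    (h : x ^ m + ∑ i : Fin m, c i * x ^ (m - 1 - (i : ℕ)) = 0) :
    ‖x‖ ^ m ≤ (∑ i, ‖c i‖) * max 1 (‖x‖ ^ (m - 1)) := by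
  have h1 : x ^ m = - ∑ i : Fin m, c i * x ^ (m - 1 - (i : ℕ)) := eq_neg_of_add_eq_zero_left h
  have h2 : ‖x‖ ^ m = ‖∑ i : Fin m, c i * x ^ (m - 1 - (i : ℕ))‖ := by
    rw [← norm_pow, h1, norm_neg]
  rw [h2]
  refine (norm_sum_le _ _).trans ?_
  rw [Finset.sum_mul]
  refine Finset.sum_le_sum fun i _ => ?_
  rw [norm_mul, norm_pow]
  refine mul_le_mul_of_nonneg_left ?_ (norm_nonneg _)
  rcases le_total ‖x‖ 1 with hx | hx
  · exact (pow_le_one₀ (norm_nonneg _) hx).trans (le_max_left _ _)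
  · exact (pow_le_pow_right₀ hx (by omega)).trans (le_max_right _ _)

/-- Norm estimate for a root of a monic polynomial. -/
theorem rootBound_norm_le {m : ℕ} (x : ℂ) (c : Fin m → ℂ)
    (h : x ^ m + ∑ i : Fin m, c i * x ^ (m - 1 - (i : ℕ)) = 0) :
    ‖x‖ ≤ max 1 (∑ i, ‖c i‖) := by
  rcases le_total ‖x‖ 1 with hx | hx
  · exact hx.trans (le_max_left _ _)
  · refine le_trans ?_ (le_max_right _ _)
    have hm : m ≠ 0 := by
      rintro rfl
      simp at h
    have hpow := rootBound_norm_pow_le x c h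
    have hx1 : 1 ≤ ‖x‖ ^ (m - 1) := one_le_pow₀ hx
    rw [max_eq_right hx1] at hpow
    have hpos : 0 < ‖x‖ ^ (m - 1) := lt_of_lt_of_le one_pos hx1
    have hsplit : ‖x‖ ^ m = ‖x‖ * ‖x‖ ^ (m - 1) := by
      rw [← pow_succ']
      congr 1
      omega
    rw [hsplit] at hpow
    exact le_of_mul_le_mul_right hpow hpos

theorem isBoundedAtImInfty_of_monic_relation {g : ℍ → ℂ} {m : ℕ} (c : Fin m → ℍ → ℂ)
    (hc : ∀ i, IsBoundedAtImInfty (c i))
    (hrel : ∀ τ : ℍ, g τ ^ m + ∑ i : Fin m, c i τ * g τ ^ (m - 1 - (i : ℕ)) = 0) :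
    IsBoundedAtImInfty g := by
  have hsum : IsBoundedAtImInfty (fun τ => ∑ i : Fin m, ‖c i τ‖) := by
    have : ∀ s : Finset (Fin m), IsBoundedAtImInfty (fun τ => ∑ i ∈ s, ‖c i τ‖) := by
      intro s
      induction s using Finset.induction_on with
      | empty =>
        simp only [Finset.sum_empty]
        exact Filter.const_boundedAtFilter _ (0 : ℝ)
      | insert a s ha ih =>
        simp only [Finset.sum_insert ha]
        exact Filter.BoundedAtFilter.add (hc a).norm_left ih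
    exact this Finset.univ
  rw [isBoundedAtImInfty_iff] at hsum ⊢
  obtain ⟨M, A, hMA⟩ := hsum
  refine ⟨max 1 M, A, fun z hz => ?_⟩
  refine (rootBound_norm_le (g z) (fun i => c i z) (hrel z)).trans ?_
  refine max_le_max le_rfl ?_
  have := hMA z hz
  rwa [Real.norm_of_nonneg (Finset.sum_nonneg fun i _ => norm_nonneg _)] at this

theorem isZeroAtImInfty_of_monic_relation {g : ℍ → ℂ} {m : ℕ} (c : Fin m → ℍ → ℂ)
    (hc : ∀ i, IsZeroAtImInfty (c i))
    (hrel : ∀ τ : ℍ, g τ ^ m + ∑ i : Fin m, c i τ * g τ ^ (m - 1 - (i : ℕ)) = 0) :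
    IsZeroAtImInfty g := by
  have hm : m ≠ 0 := by
    rintro rfl
    have := hrel UpperHalfPlane.I
    simp at this
  -- the sum of norms tends to zero
  have hsum : Filter.Tendsto (fun τ => ∑ i : Fin m, ‖c i τ‖) atImInfty (nhds 0) := by
    have h0 : (0 : ℝ) = ∑ _i : Fin m, (0 : ℝ) := by simp
    rw [h0]
    refine tendsto_finsetSum _ fun i _ => ?_
    have := (hc i).norm
    simpa using this
  -- eventually the sum is at most one, hence the root is bounded by one
  have hev : ∀ᶠ τ in atImInfty, ‖g τ‖ ^ m ≤ ∑ i : Fin m, ‖c i τ‖ := by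
    have h1 : ∀ᶠ τ in atImInfty, ∑ i : Fin m, ‖c i τ‖ < 1 :=
      hsum.eventually (gt_mem_nhds one_pos)
    filter_upwards [h1] with τ hτ
    have hb := rootBound_norm_le (g τ) (fun i => c i τ) (hrel τ)
    rw [max_eq_left hτ.le] at hb
    have hp := rootBound_norm_pow_le (g τ) (fun i => c i τ) (hrel τ)
    have : ‖g τ‖ ^ (m - 1) ≤ 1 := pow_le_one₀ (norm_nonneg _) hb
    rw [max_eq_left this, mul_one] at hp
    exact hp
  have hpow : Filter.Tendsto (fun τ => ‖g τ‖ ^ m) atImInfty (nhds 0) :=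
    squeeze_zero' (Filter.Eventually.of_forall fun τ => pow_nonneg (norm_nonneg _) _) hev hsum
  -- take m-th roots
  have hroot : Filter.Tendsto (fun τ => (‖g τ‖ ^ m) ^ ((m : ℝ)⁻¹)) atImInfty (nhds 0) := by
    have hcont : ContinuousAt (fun t : ℝ => t ^ ((m : ℝ)⁻¹)) 0 :=
      Real.continuousAt_rpow_const _ _ (Or.inr (by positivity))
    have h3 := hcont.tendsto.comp hpow
    rw [Real.zero_rpow (by positivity : ((m : ℝ)⁻¹) ≠ 0)] at h3
    exact h3
  have heq : ∀ τ, (‖g τ‖ ^ m) ^ ((m : ℝ)⁻¹) = ‖g τ‖ := fun τ =>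
    Real.pow_rpow_inv_natCast (norm_nonneg _) hm
  simp only [heq] at hroot
  exact tendsto_zero_iff_norm_tendsto_zero.mpr hroot

end Fermat.Agent.S23
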