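import Mathlib
import Fermat.Agent.S23.Nice
import Fermat.Agent.S23.LevelOne
import Fermat.Agent.S23.Monic
import Fermat.Agent.S23.Division
import Fermat.Agent.S23.RootBound
import Fermat.Agent.S23.Linear

set_option autoImplicit false

namespace Fermat.Agent.S23

open UpperHalfPlane
open scoped MatrixGroups Manifold ModularForm

/-- Bounded-denominator rational series are fixed by every ring endomorphism of `ℂ`. -/
lemma IsBddRat.map_eq {φ : PowerSeries ℂ} (h : IsBddRat φ) (σ : ℂ →+* ℂ) : φ.map σ = φ := by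
  obtain ⟨M, hM, hz⟩ := h
  ext n
  simp only [PowerSeries.coeff_map]
  obtain ⟨z, hz⟩ := hz n
  have hM' : (M : ℂ) ≠ 0 := by exact_mod_cast hM
  have : PowerSeries.coeff n φ = (z : ℂ) / M := by
    rw [eq_div_iff hM', mul_comm]; exact hz
  rw [this]
  simp [map_div₀]

lemma map_injective (σ : ℂ →+* ℂ) : Function.Injective (PowerSeries.map σ) := by
  intro a b hab
  ext n
  have := congrArg (PowerSeries.coeff n) hab
  simp only [PowerSeries.coeff_map] at this
  exact σ.injective this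

/-- Conjugates of level-one forms. -/
lemma levelOne_conj {w : ℤ} (h : ModularForm 𝒮ℒ w) (σ : ℂ →+* ℂ) :
    ∃ h' : ModularForm 𝒮ℒ w, qExpansion 1 h' = (qExpansion 1 h).map σ := by
  have hmem : h ∈ Submodule.span ℂ {h : ModularForm 𝒮ℒ w | IsBddRat (qExpansion 1 h)} := by
    rw [levelOne_span_isBddRat]; trivial
  induction hmem using Submodule.span_induction with
  | mem x hx => exact ⟨x, (hx.map_eq σ).symm⟩
  | zero =>
    refine ⟨0, ?_⟩
    simp [UpperHalfPlane.qExpansion_zero]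
  | add x y _ _ hx hy =>
    obtain ⟨x', hx'⟩ := hx
    obtain ⟨y', hy'⟩ := hy
    refine ⟨x' + y', ?_⟩
    rw [FunLike.coe_add, FunLike.coe_add,
      ModularForm.qExpansion_add one_pos one_mem_strictPeriods_SL,
      ModularForm.qExpansion_add one_pos one_mem_strictPeriods_SL, hx', hy',
      map_add]
  | smul t x _ hx =>
    obtain ⟨x', hx'⟩ := hx
    refine ⟨σ t • x', ?_⟩
    rw [FunLike.coe_smul, FunLike.coe_smul,
      ModularForm.qExpansion_smul one_pos one_mem_strictPeriods_SL,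
      ModularForm.qExpansion_smul one_pos one_mem_strictPeriods_SL, hx']
    ext n
    simp [PowerSeries.coeff_map]


lemma levelOne_conj_cusp {w : ℤ} (h : CuspForm 𝒮ℒ w) (σ : ℂ →+* ℂ) :
    ∃ h' : CuspForm 𝒮ℒ w, qExpansion 1 h' = (qExpansion 1 h).map σ := by
  obtain ⟨h', hh'⟩ := levelOne_conj (ModularFormClass.modularForm h) σ
  have h0 : (qExpansion 1 h').coeff 0 = 0 := by
    rw [hh', PowerSeries.coeff_map]
    have : (qExpansion 1 (ModularFormClass.modularForm h)).coeff 0 = 0 :=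
      CuspFormClass.qExpansion_coeff_zero h one_pos one_mem_strictPeriods_SL
    rw [this, map_zero]
  exact ⟨ModularForm.toCuspForm h' h0, hh'⟩

/-- slash of a power, for `SL(2, ℤ)`. -/
lemma pow_slash_SL2 (k : ℤ) (γ : SL(2, ℤ)) (f : ℍ → ℂ) (n : ℕ) :
    (f ^ n) ∣[k * n] γ = (f ∣[k] γ) ^ n := by
  induction n with
  | zero =>
    simp only [Nat.cast_zero, mul_zero, pow_zero]
    exact ModularForm.is_invariant_one γ
  | succ n ih =>
    rw [pow_succ, pow_succ, ← ih, ← ModularForm.mul_slash_SL2]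
    congr 1
    push_cast
    ring

/-- the weight of a slash may be rewritten -/
lemma slash_congr_weight {k k' : ℤ} (h : k = k') (γ : SL(2, ℤ)) (f : ℍ → ℂ) :
    f ∣[k] γ = f ∣[k'] γ := by subst h; rfl


/-- Slashing a monic relation whose coefficients are invariant. -/
lemma monic_relation_slash {g : ℍ → ℂ} {k : ℤ} {m : ℕ} (c : Fin m → ℍ → ℂ) (γ : SL(2, ℤ))
    (hc : ∀ i : Fin m, c i ∣[k * ((i : ℕ) + 1)] γ = c i)
    (hrel : ∀ τ : ℍ, g τ ^ m + ∑ i : Fin m, c i τ * g τ ^ (m - 1 - (i : ℕ)) = 0) :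
    ∀ τ : ℍ, (g ∣[k] γ) τ ^ m +
      ∑ i : Fin m, c i τ * (g ∣[k] γ) τ ^ (m - 1 - (i : ℕ)) = 0 := by
  have hfun : g ^ m + ∑ i : Fin m, c i * g ^ (m - 1 - (i : ℕ)) = 0 := by
    ext τ
    simpa using hrel τ
  have hterm : ∀ i : Fin m, (c i * g ^ (m - 1 - (i : ℕ))) ∣[k * m] γ =
      c i * (g ∣[k] γ) ^ (m - 1 - (i : ℕ)) := by
    intro i
    have hw : k * m = k * ((i : ℕ) + 1) + k * ((m - 1 - (i : ℕ) : ℕ) : ℤ) := by
      have hi := i.2
      have : (m : ℤ) = ((i : ℕ) + 1) + ((m - 1 - (i : ℕ) : ℕ) : ℤ) := by omega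
      rw [← mul_add, ← this]
    rw [slash_congr_weight hw, ModularForm.mul_slash_SL2, hc i, pow_slash_SL2]
  have h2 := congrArg (fun F => F ∣[k * m] γ) hfun
  simp only [SlashAction.add_slash, SlashAction.sum_slash, SlashAction.zero_slash, hterm,
    pow_slash_SL2] at h2
  intro τ
  have := congrFun h2 τ
  simpa using this


/-- If `A = D * g` with `A`, `D` slash-invariant under `γ` then so is `g`. -/
lemma slash_eq_of_mul_eq {A D g : ℍ → ℂ} (hD : MDiff D) (hg : MDiff g) (hD0 : D ≠ 0)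
    {k w₀ : ℤ} (γ : SL(2, ℤ)) (hA : A ∣[w₀ + k] γ = A) (hDγ : D ∣[w₀] γ = D)
    (hAD : A = D * g) : g ∣[k] γ = g := by
  have h1 : D * (g ∣[k] γ) = D * g := by
    have := hA
    rw [hAD, ModularForm.mul_slash_SL2, hDγ] at this
    exact this
  have h2 : D * (g ∣[k] γ - g) = 0 := by rw [mul_sub, h1, sub_self]
  have hg' : MDiff (g ∣[k] γ) := by
    rw [ModularForm.SL_slash]
    exact hg.slash k _
  rcases (UpperHalfPlane.mul_eq_zero_iff hD (hg'.sub hg)).mp h2 with h | h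
  · exact absurd h hD0
  · exact sub_eq_zero.mp h


/-- **Conjugation theorem** (generic form). -/
theorem exists_cuspForm_conj {𝒢 : Subgroup (GL (Fin 2) ℝ)} [𝒢.IsArithmetic] (h𝒢 : 𝒢 ≤ 𝒮ℒ)
    (h1 : (1 : ℝ) ∈ 𝒢.strictPeriods) {k w : ℤ} (u : ModularForm 𝒢 w)
    (hu : ∀ γ : SL(2, ℤ), (u : ℍ → ℂ) ∣[w] γ = u → (γ : GL (Fin 2) ℝ) ∈ 𝒢)
    (σ : ℂ →+* ℂ) (hσu : (qExpansion 1 u).map σ = qExpansion 1 u) (f : CuspForm 𝒢 k) :
    ∃ g : CuspForm 𝒢 k, qExpansion 1 g = (qExpansion 1 f).map σ := by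
  classical
  obtain ⟨m, w₀, d, b, hd0, hlin⟩ :=
    exists_linear_relation (ModularFormClass.modularForm f) u hu
  obtain ⟨m', c, hmonic⟩ := exists_monic_relation_cusp f
  obtain ⟨d', hd'⟩ := levelOne_conj d σ
  choose b' hb' using fun l => levelOne_conj (b l) σ
  choose c' hc' using fun i => levelOne_conj_cusp (c i) σ
  have nf : IsNice (f : ℍ → ℂ) := isNice_of_modularForm h1 f
  have nu : IsNice (u : ℍ → ℂ) := isNice_of_modularForm h1 u
  have nd : IsNice (d : ℍ → ℂ) := isNice_of_modularForm one_mem_strictPeriods_SL d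
  have nd' : IsNice (d' : ℍ → ℂ) := isNice_of_modularForm one_mem_strictPeriods_SL d'
  have nb : ∀ l, IsNice (b l : ℍ → ℂ) := fun l =>
    isNice_of_modularForm one_mem_strictPeriods_SL (b l)
  have nb' : ∀ l, IsNice (b' l : ℍ → ℂ) := fun l =>
    isNice_of_modularForm one_mem_strictPeriods_SL (b' l)
  have nc : ∀ i, IsNice (c i : ℍ → ℂ) := fun i =>
    isNice_of_modularForm one_mem_strictPeriods_SL (c i)
  have nc' : ∀ i, IsNice (c' i : ℍ → ℂ) := fun i =>
    isNice_of_modularForm one_mem_strictPeriods_SL (c' i)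
  -- the candidate numerator and denominator
  set A : ℍ → ℂ := ∑ l : Fin m, (b' l : ℍ → ℂ) * (u : ℍ → ℂ) ^ (l : ℕ) with hAdef
  set D : ℍ → ℂ := (d' : ℍ → ℂ) with hDdef
  have nA : IsNice A := IsNice.sum _ fun l _ => (nb' l).mul (nu.pow _)
  set φ := qExpansion 1 (f : ℍ → ℂ) with hφ
  set φσ := φ.map σ with hφσ
  -- q-expansion of the linear relation
  have hlinF : (d : ℍ → ℂ) * (f : ℍ → ℂ) =
      ∑ l : Fin m, (b l : ℍ → ℂ) * (u : ℍ → ℂ) ^ (l : ℕ) := by
    ext τ
    simpa using hlin τ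
  have hqlin : qExpansion 1 (d : ℍ → ℂ) * φ =
      ∑ l : Fin m, qExpansion 1 (b l : ℍ → ℂ) * qExpansion 1 (u : ℍ → ℂ) ^ (l : ℕ) := by
    rw [hφ, ← nd.qExpansion_mul nf, hlinF,
      IsNice.qExpansion_sum _ fun l _ => (nb l).mul (nu.pow _)]
    refine Finset.sum_congr rfl fun l _ => ?_
    rw [(nb l).qExpansion_mul (nu.pow _), nu.qExpansion_pow]
  have hqA : qExpansion 1 A = qExpansion 1 D * φσ := by
    rw [hAdef, IsNice.qExpansion_sum _ fun l _ => (nb' l).mul (nu.pow _), hDdef, hd', hφσ,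
      ← map_mul, hqlin, map_sum]
    refine Finset.sum_congr rfl fun l _ => ?_
    rw [(nb' l).qExpansion_mul (nu.pow _), nu.qExpansion_pow, hb' l, map_mul, map_pow, hσu]
  -- q-expansion of the monic relation
  have hmonicF : (f : ℍ → ℂ) ^ m' +
      ∑ i : Fin m', (c i : ℍ → ℂ) * (f : ℍ → ℂ) ^ (m' - 1 - (i : ℕ)) = 0 := by
    ext τ
    simpa using hmonic τ
  have hqmonic : φ ^ m' + ∑ i : Fin m', qExpansion 1 (c i : ℍ → ℂ) * φ ^ (m' - 1 - (i : ℕ)) = 0 := by
    have := congrArg (qExpansion 1) hmonicF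
    rw [(nf.pow _).qExpansion_add (IsNice.sum _ fun i _ => (nc i).mul (nf.pow _)),
      nf.qExpansion_pow, IsNice.qExpansion_sum _ fun i _ => (nc i).mul (nf.pow _),
      UpperHalfPlane.qExpansion_zero] at this
    rw [← this]
    congr 1
    refine Finset.sum_congr rfl fun i _ => ?_
    rw [(nc i).qExpansion_mul (nf.pow _), nf.qExpansion_pow]
  have hqmonicσ : φσ ^ m' +
      ∑ i : Fin m', qExpansion 1 (c' i : ℍ → ℂ) * φσ ^ (m' - 1 - (i : ℕ)) = 0 := by
    have := congrArg (PowerSeries.map σ) hqmonic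
    rw [map_add, map_pow, map_sum, map_zero] at this
    rw [← this]
    congr 1
    refine Finset.sum_congr rfl fun i _ => ?_
    rw [map_mul, map_pow, hc' i]
  -- the relation between `A` and `D` as functions
  have hrelAD : ∀ τ : ℍ, A τ ^ m' +
      ∑ i : Fin m', (c' i : ℍ → ℂ) τ * D τ ^ ((i : ℕ) + 1) * A τ ^ (m' - 1 - (i : ℕ)) = 0 := by
    have nΞ : IsNice (A ^ m' +
        ∑ i : Fin m', (c' i : ℍ → ℂ) * D ^ ((i : ℕ) + 1) * A ^ (m' - 1 - (i : ℕ))) :=
      (nA.pow _).add (IsNice.sum _ fun i _ => ((nc' i).mul (nd'.pow _)).mul (nA.pow _))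
    have hΞ : A ^ m' +
        ∑ i : Fin m', (c' i : ℍ → ℂ) * D ^ ((i : ℕ) + 1) * A ^ (m' - 1 - (i : ℕ)) = 0 := by
      apply nΞ.eq_zero_of_qExpansion_eq_zero
      rw [(nA.pow _).qExpansion_add
          (IsNice.sum _ fun i _ => ((nc' i).mul (nd'.pow _)).mul (nA.pow _)),
        nA.qExpansion_pow,
        IsNice.qExpansion_sum _ fun i _ => ((nc' i).mul (nd'.pow _)).mul (nA.pow _)]
      have hterm : ∀ i : Fin m',
          qExpansion 1 ((c' i : ℍ → ℂ) * D ^ ((i : ℕ) + 1) * A ^ (m' - 1 - (i : ℕ))) =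
            qExpansion 1 D ^ m' * (qExpansion 1 (c' i : ℍ → ℂ) * φσ ^ (m' - 1 - (i : ℕ))) := by
        intro i
        rw [((nc' i).mul (nd'.pow _)).qExpansion_mul (nA.pow _),
          (nc' i).qExpansion_mul (nd'.pow _), nd'.qExpansion_pow, nA.qExpansion_pow, hqA,
          mul_pow]
        have hi := i.2
        have hexp : qExpansion 1 D ^ m' =
            qExpansion 1 D ^ ((i : ℕ) + 1) * qExpansion 1 D ^ (m' - 1 - (i : ℕ)) := by
          rw [← pow_add]
          congr 1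
          omega
        rw [hexp]
        ring
      rw [Finset.sum_congr rfl fun i _ => hterm i, ← Finset.mul_sum, hqA, mul_pow, ← mul_add,
        hqmonicσ, mul_zero]
    intro τ
    have := congrFun hΞ τ
    simpa using this
  have hqD0 : qExpansion 1 D ≠ 0 := by
    intro h
    rw [hd'] at h
    have h2 : qExpansion 1 (d : ℍ → ℂ) = 0 := map_injective σ (by rw [h, map_zero])
    exact hd0 ((ModularForm.qExpansion_eq_zero_iff one_pos one_mem_strictPeriods_SL d).mp h2)
  have hD0 : D ≠ 0 := by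
    intro h
    apply hqD0
    rw [h]
    exact UpperHalfPlane.qExpansion_zero 1
  obtain ⟨g, hg, hADg, hgrel⟩ := exists_div_of_monic_relation nA.holo nd'.holo hD0
    (fun i => (c' i : ℍ → ℂ)) (fun i => (nc' i).holo) hrelAD
  -- invariance
  have hginv : ∀ γ : SL(2, ℤ), (γ : GL (Fin 2) ℝ) ∈ 𝒢 → g ∣[k] γ = g := by
    intro γ hγ
    have hγ' : (γ : GL (Fin 2) ℝ) ∈ 𝒮ℒ := ⟨γ, rfl⟩
    have hAinv : A ∣[w₀ + k] γ = A := by
      rw [hAdef, SlashAction.sum_slash]
      refine Finset.sum_congr rfl fun l _ => ?_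
      have hw : w₀ + k = (k + w₀ - w * (l : ℕ)) + w * (l : ℕ) := by ring
      rw [slash_congr_weight hw, ModularForm.mul_slash_SL2, pow_slash_SL2]
      have e1 : (b' l : ℍ → ℂ) ∣[k + w₀ - w * (l : ℕ)] γ = b' l := by
        rw [ModularForm.SL_slash]
        exact SlashInvariantFormClass.slash_action_eq (b' l) _ hγ'
      have e2 : (u : ℍ → ℂ) ∣[w] γ = u := by
        rw [ModularForm.SL_slash]
        exact SlashInvariantFormClass.slash_action_eq u _ hγ
      rw [e1, e2]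
    have hDinv : D ∣[w₀] γ = D := by
      rw [ModularForm.SL_slash]
      exact SlashInvariantFormClass.slash_action_eq d' _ hγ'
    exact slash_eq_of_mul_eq nd'.holo hg hD0 γ hAinv hDinv (funext hADg)
  -- vanishing at all cusps
  have hgzero : ∀ γ : SL(2, ℤ), IsZeroAtImInfty (g ∣[k] γ) := by
    intro γ
    refine isZeroAtImInfty_of_monic_relation (fun i => (c' i : ℍ → ℂ))
      (fun i => CuspFormClass.zero_at_infty (c' i)) ?_
    refine monic_relation_slash _ γ (fun i => ?_) hgrel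
    rw [ModularForm.SL_slash]
    exact SlashInvariantFormClass.slash_action_eq (c' i) _ ⟨γ, rfl⟩
  let G : CuspForm 𝒢 k :=
    { toFun := g
      slash_action_eq' := by
        intro γ hγ
        obtain ⟨γ₀, rfl⟩ := h𝒢 hγ
        have := hginv γ₀ hγ
        rwa [ModularForm.SL_slash] at this
      holo' := hg
      zero_at_cusps' := by
        intro c hc
        rw [Subgroup.IsArithmetic.isCusp_iff_isCusp_SL2Z] at hc
        rw [OnePoint.isZeroAt_iff_forall_SL2Z hc]
        intro γ _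
        exact hgzero γ }
  refine ⟨G, ?_⟩
  have nG : IsNice (G : ℍ → ℂ) := isNice_of_modularForm h1 G
  have hGg : (G : ℍ → ℂ) = g := rfl
  have hmul : qExpansion 1 D * qExpansion 1 (G : ℍ → ℂ) = qExpansion 1 D * φσ := by
    rw [← nd'.qExpansion_mul nG, ← hqA]
    congr 1
    ext τ
    rw [hGg]
    exact (hADg τ).symm
  exact mul_left_cancel₀ hqD0 hmul

end Fermat.Agent.S23
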