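import Mathlib
import Fermat.Agent.S23.Defs

set_option autoImplicit false

namespace Fermat.Agent.S23

open Module

section Descent

variable {ι : Type*}

/-- Coordinate functionals restricted to a submodule of a function space. -/
noncomputable def descentCoordFun (V : Submodule ℂ (ι → ℂ)) (i : ι) : Dual ℂ V :=
  (LinearMap.proj i).comp V.subtype

@[simp] theorem descentCoordFun_apply (V : Submodule ℂ (ι → ℂ)) (i : ι) (v : V) :
    descentCoordFun V i v = (v : ι → ℂ) i := rfl

theorem descent_span_range_coordFun (V : Submodule ℂ (ι → ℂ)) [FiniteDimensional ℂ V] :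
    Submodule.span ℂ (Set.range (descentCoordFun V)) = ⊤ := by
  have h0 : (Submodule.span ℂ (Set.range (descentCoordFun V))).dualCoannihilator = ⊥ := by
    rw [eq_bot_iff]
    intro v hv
    rw [Submodule.mem_dualCoannihilator] at hv
    rw [Submodule.mem_bot]
    apply Subtype.ext
    funext i
    exact hv (descentCoordFun V i) (Submodule.subset_span ⟨i, rfl⟩)
  have h1 := Subspace.dualCoannihilator_dualAnnihilator_eq
    (W := Submodule.span ℂ (Set.range (descentCoordFun V)))
  rw [h0, Submodule.dualAnnihilator_bot] at h1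
  exact h1.symm

/-- Descent for finite-dimensional spaces of sequences: a finite-dimensional subspace of
`ι → ℂ` stable under the coordinatewise action of all ring endomorphisms of `ℂ` is spanned by
its rational vectors (given that the common fixed points of these endomorphisms are rational). -/
theorem descent_span_rational_submodule (V : Submodule ℂ (ι → ℂ)) [FiniteDimensional ℂ V]
    (hfix : ∀ x : ℂ, (∀ σ : ℂ →+* ℂ, σ x = x) → x ∈ Set.range (algebraMap ℚ ℂ))
    (hV : ∀ σ : ℂ →+* ℂ, ∀ v ∈ V, (fun i => σ (v i)) ∈ V) :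
    Submodule.span ℂ {v | v ∈ V ∧ ∀ i, v i ∈ Set.range (algebraMap ℚ ℂ)} = V := by
  classical
  apply le_antisymm
  · exact Submodule.span_le.mpr fun v hv => hv.1
  obtain ⟨b, hb_sub, hb_span, hb_li⟩ :=
    exists_linearIndependent ℂ (Set.range (descentCoordFun V))
  rw [descent_span_range_coordFun] at hb_span
  have : Finite b := hb_li.finite
  let B : Basis b ℂ (Dual ℂ V) := Basis.mk hb_li (by
    rw [Subtype.range_coe_subtype, Set.ofPred_mem_eq, hb_span])
  have hB : ∀ β : b, B β = (β : Dual ℂ V) := fun β => by simp [B]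
  choose idx hidx using fun β : b => hb_sub β.2
  -- the dual basis, in `V`
  let W : Basis b ℂ V := B.dualBasis.map (Module.evalEquiv ℂ V).symm
  have hW : ∀ β β' : b, ((W β : V) : ι → ℂ) (idx β') = if β' = β then 1 else 0 := by
    intro β β'
    have h1 : (B β') (W β) = if β' = β then 1 else 0 := by
      have : (Module.evalEquiv ℂ V (W β)) (B β') = if β' = β then 1 else 0 := by
        simp only [W, Basis.map_apply, LinearEquiv.apply_symm_apply]
        exact B.dualBasis_apply_self β β'
      simpa using this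
    rw [hB, ← hidx β'] at h1
    simpa using h1
  -- an element of `V` vanishing on all the chosen coordinates is zero
  have hsep : ∀ v : V, (∀ β : b, (v : ι → ℂ) (idx β) = 0) → v = 0 := by
    intro v hv
    rw [← Module.forall_dual_apply_eq_zero_iff ℂ v]
    intro f
    have hf : f ∈ Submodule.span ℂ (Set.range B) := by rw [B.span_eq]; trivial
    induction hf using Submodule.span_induction with
    | mem x hx =>
      obtain ⟨β, rfl⟩ := hx
      rw [hB, ← hidx β]
      simpa using hv β
    | zero => simp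
    | add x y _ _ hx hy => simp [hx, hy]
    | smul a x _ hx => simp [hx]
  -- every `W β` is fixed by all endomorphisms
  have hfixW : ∀ (σ : ℂ →+* ℂ) (β : b) (i : ι),
      σ (((W β : V) : ι → ℂ) i) = ((W β : V) : ι → ℂ) i := by
    intro σ β i
    have hmem := hV σ (W β : V) (W β).2
    have : (⟨_, hmem⟩ : V) - W β = 0 := by
      apply hsep
      intro β'
      simp only [Submodule.coe_sub, Pi.sub_apply, hW]
      split_ifs <;> simp
    have h2 := congrArg (fun v : V => (v : ι → ℂ) i) this
    simpa [sub_eq_zero] using h2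
  -- conclude
  intro v hv
  have hv' : (⟨v, hv⟩ : V) ∈ Submodule.span ℂ (Set.range W) := by rw [W.span_eq]; trivial
  have key : ∀ w : V, w ∈ Submodule.span ℂ (Set.range W) →
      (w : ι → ℂ) ∈
        Submodule.span ℂ {v | v ∈ V ∧ ∀ i, v i ∈ Set.range (algebraMap ℚ ℂ)} := by
    intro w hw
    induction hw using Submodule.span_induction with
    | mem x hx =>
      obtain ⟨β, rfl⟩ := hx
      exact Submodule.subset_span ⟨(W β).2, fun i => hfix _ (fun σ => hfixW σ β i)⟩
    | zero => simp
    | add x y _ _ hx hy => simpa using Submodule.add_mem _ hx hy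
    | smul a x _ hx => simpa using Submodule.smul_mem _ a hx
  exact key ⟨v, hv⟩ hv'

end Descent

/-- A finite-dimensional space of sequences stable under all ring endomorphisms of `ℂ` is
spanned by its rational vectors. -/
theorem span_rational_of_stable {V : Type*} [AddCommGroup V] [Module ℂ V] [FiniteDimensional ℂ V]
    (ι : V →ₗ[ℂ] (ℕ → ℂ)) (hι : Function.Injective ι)
    (hfix : ∀ x : ℂ, (∀ σ : ℂ →+* ℂ, σ x = x) → x ∈ Set.range (algebraMap ℚ ℂ))
    (hσ : ∀ (σ : ℂ →+* ℂ) (v : V), ∃ w : V, ∀ n, ι w n = σ (ι v n)) :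
    Submodule.span ℂ {v : V | ∀ n, ι v n ∈ Set.range (algebraMap ℚ ℂ)} = ⊤ := by
  have hstab : ∀ σ : ℂ →+* ℂ, ∀ v ∈ LinearMap.range ι, (fun i => σ (v i)) ∈ LinearMap.range ι := by
    rintro σ _ ⟨v, rfl⟩
    obtain ⟨w, hw⟩ := hσ σ v
    exact ⟨w, funext hw⟩
  have hmain := descent_span_rational_submodule (LinearMap.range ι) hfix hstab
  rw [eq_top_iff]
  intro v _
  have hv : ι v ∈ Submodule.span ℂ
      {u | u ∈ LinearMap.range ι ∧ ∀ i, u i ∈ Set.range (algebraMap ℚ ℂ)} := by
    rw [hmain]; exact ⟨v, rfl⟩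
  have hle : Submodule.span ℂ
      {u | u ∈ LinearMap.range ι ∧ ∀ i, u i ∈ Set.range (algebraMap ℚ ℂ)} ≤
      (Submodule.span ℂ {v : V | ∀ n, ι v n ∈ Set.range (algebraMap ℚ ℂ)}).map ι := by
    apply Submodule.span_le.mpr
    rintro _ ⟨⟨u, rfl⟩, hu⟩
    exact ⟨u, Submodule.subset_span hu, rfl⟩
  obtain ⟨u, hu, huv⟩ := hle hv
  rwa [← hι huv]

end Fermat.Agent.S23
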