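import Mathlib
import Fermat.Agent.S23.Defs
import Fermat.Prelude.Thm_ModularForm_sturm_bound_Gamma0
import Fermat.Prelude.Thm_CongruenceSubgroup_one_mem_strictPeriods_Gamma0

set_option autoImplicit false

namespace Fermat.Agent.S23

open UpperHalfPlane
open scoped MatrixGroups Manifold ModularForm

local notation "Γ₀(" N ")" => CongruenceSubgroup.Gamma0 N

theorem trivial_hΓ (N : ℕ) :
    (1 : ℝ) ∈ (Subgroup.map (Matrix.SpecialLinearGroup.mapGL ℝ) Γ₀(N)).strictPeriods :=
  CongruenceSubgroup.one_mem_strictPeriods_Gamma0 N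

theorem trivial_qExp_add (N : ℕ) {k : ℤ} (f g : CuspForm Γ₀(N) k) :
    qExpansion 1 ⇑(f + g) = qExpansion 1 ⇑f + qExpansion 1 ⇑g := by
  rw [FunLike.coe_add]
  exact ModularForm.qExpansion_add one_pos (trivial_hΓ N) f g

theorem trivial_qExp_smul (N : ℕ) {k : ℤ} (c : ℂ) (f : CuspForm Γ₀(N) k) :
    qExpansion 1 ⇑(c • f) = c • qExpansion 1 ⇑f := by
  have h1 : ⇑(c • f) = c • ⇑f := by
    ext z
    simp
  rw [h1]
  exact ModularForm.qExpansion_smul one_pos (trivial_hΓ N) c f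

/-- A cusp form on `Γ₀(N)` all of whose low `q`-coefficients vanish is zero. -/
theorem trivial_eq_zero_of_coeff (N : ℕ) [NeZero N] {k : ℤ} (f : CuspForm Γ₀(N) k)
    (h : ∀ n : ℕ, n ≤ (k * (Γ₀(N)).index).toNat / 12 → (qExpansion 1 f).coeff n = 0) :
    f = 0 := by
  have hmf : (ModularFormClass.modularForm f : ModularForm Γ₀(N) k) = 0 :=
    ModularForm.sturm_bound_Gamma0 N _ fun n hn ↦ by simpa using h n hn
  have hcoe : (⇑f : ℍ → ℂ) = 0 := by
    have := congrArg (fun F : ModularForm Γ₀(N) k ↦ (⇑F : ℍ → ℂ)) hmf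
    simpa using this
  exact DFunLike.coe_injective (hcoe.trans FunLike.coe_zero.symm)

theorem cuspForm_eq_zero_of_weight_nonpos (N : ℕ) [NeZero N] {k : ℤ} (hk : k ≤ 0)
    (f : CuspForm Γ₀(N) k) : f = 0 := by
  refine trivial_eq_zero_of_coeff N f fun n hn ↦ ?_
  have h0 : (k * ((Γ₀(N)).index : ℤ)).toNat = 0 := by
    apply Int.toNat_of_nonpos
    exact mul_nonpos_of_nonpos_of_nonneg hk (Int.natCast_nonneg _)
  have hn0 : n = 0 := by
    rw [h0] at hn
    omega
  subst hn0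
  exact CuspFormClass.qExpansion_coeff_zero f one_pos (trivial_hΓ N)

theorem trivial_neg_one_mem (N : ℕ) :
    (-1 : GL (Fin 2) ℝ) ∈
      (Subgroup.map (Matrix.SpecialLinearGroup.mapGL ℝ) Γ₀(N)) := by
  refine ⟨-1, ?_, ?_⟩
  · rw [SetLike.mem_coe, CongruenceSubgroup.Gamma0_mem]
    simp
  · ext i j
    simp

theorem cuspForm_eq_zero_of_weight_odd (N : ℕ) [NeZero N] {k : ℤ} (hk : Odd k)
    (f : CuspForm Γ₀(N) k) : f = 0 := by
  have hmf : (ModularFormClass.modularForm f : ModularForm Γ₀(N) k) = 0 :=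
    ModularForm.eq_zero_of_neg_one_mem (trivial_neg_one_mem N) hk _
  have hcoe : (⇑f : ℍ → ℂ) = 0 := by
    have := congrArg (fun F : ModularForm Γ₀(N) k ↦ (⇑F : ℍ → ℂ)) hmf
    simpa using this
  exact DFunLike.coe_injective (hcoe.trans FunLike.coe_zero.symm)

/-- the coefficient map, `ℂ`-linear and injective -/
noncomputable def qCoeffLin (N : ℕ) [NeZero N] (k : ℤ) : CuspForm Γ₀(N) k →ₗ[ℂ] (ℕ → ℂ) where
  toFun f n := (qExpansion 1 f).coeff n
  map_add' f g := by
    funext n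
    rw [trivial_qExp_add, map_add]
    rfl
  map_smul' c f := by
    funext n
    rw [trivial_qExp_smul]
    simp

theorem qCoeffLin_apply (N : ℕ) [NeZero N] (k : ℤ) (f : CuspForm Γ₀(N) k) (n : ℕ) :
    qCoeffLin N k f n = (qExpansion 1 f).coeff n := rfl

theorem qCoeffLin_injective (N : ℕ) [NeZero N] (k : ℤ) : Function.Injective (qCoeffLin N k) := by
  refine (injective_iff_map_eq_zero _).mpr fun f hf ↦ ?_
  refine trivial_eq_zero_of_coeff N f fun n _ ↦ ?_
  have := congrFun hf n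
  simpa [qCoeffLin_apply] using this

/-- truncated coefficient map -/
noncomputable def trivial_truncLin (N : ℕ) [NeZero N] (k : ℤ) :
    CuspForm Γ₀(N) k →ₗ[ℂ] (Fin ((k * (Γ₀(N)).index).toNat / 12 + 1) → ℂ) :=
  (LinearMap.funLeft ℂ ℂ (fun i : Fin ((k * (Γ₀(N)).index).toNat / 12 + 1) ↦ (i : ℕ))).comp
    (qCoeffLin N k)

theorem trivial_truncLin_injective (N : ℕ) [NeZero N] (k : ℤ) :
    Function.Injective (trivial_truncLin N k) := by
  refine (injective_iff_map_eq_zero _).mpr fun f hf ↦ ?_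
  refine trivial_eq_zero_of_coeff N f fun n hn ↦ ?_
  have := congrFun hf ⟨n, Nat.lt_succ_of_le hn⟩
  simpa [trivial_truncLin, qCoeffLin_apply, LinearMap.funLeft] using this

theorem finiteDimensional_cuspForm (N : ℕ) [NeZero N] (k : ℤ) :
    FiniteDimensional ℂ (CuspForm Γ₀(N) k) :=
  FiniteDimensional.of_injective (trivial_truncLin N k) (trivial_truncLin_injective N k)

end Fermat.Agent.S23
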