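import Mathlib
import Fermat.Agent.S23.Defs
set_option autoImplicit false
namespace Fermat.Agent.S23
open UpperHalfPlane
open scoped MatrixGroups Manifold ModularForm
local notation "Γ₀(" N ")" => CongruenceSubgroup.Gamma0 N

open Matrix.SpecialLinearGroup ModularForm

theorem unform_det_eq (g : SL(2, ℤ)) : g 0 0 * g 1 1 - g 0 1 * g 1 0 = 1 := by
  have h := g.det_coe
  rwa [Matrix.det_fin_two] at h

/-- `diag(N,1) γ = δ diag(N,1)` with `δ ∈ SL(2,ℤ)` whenever `N ∣ γ 1 0`. -/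
theorem unform_heckeDiagMatrix_mul {N : ℕ} (hN : N ≠ 0) (g : SL(2, ℤ)) (e : ℤ)
    (he : g 1 0 = N * e) :
    ∃ g' : SL(2, ℤ), heckeDiagMatrix N * mapGL ℝ g = mapGL ℝ g' * heckeDiagMatrix N := by
  have hdet := unform_det_eq g
  have hdet' : Matrix.det !![g 0 0, N * g 0 1; e, g 1 1] = 1 := by
    rw [Matrix.det_fin_two_of]
    linear_combination hdet + (g 0 1) * he
  obtain ⟨g', hg'⟩ : ∃ g' : SL(2, ℤ),
      (g' : Matrix (Fin 2) (Fin 2) ℤ) = !![g 0 0, N * g 0 1; e, g 1 1] := ⟨⟨_, hdet'⟩, rfl⟩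
  refine ⟨g', ?_⟩
  ext i j
  fin_cases i <;> fin_cases j <;>
    simp [hN, Matrix.mul_apply, Fin.sum_univ_two, hg']
  all_goals first
    | (have := congrArg (Int.cast : ℤ → ℝ) he; push_cast at this ⊢; linear_combination this)
    | (have := congrArg (Int.cast : ℤ → ℝ) he; push_cast at this ⊢; linear_combination -this)
    | ring1

open ConjAct Pointwise in
theorem unform_gamma0_le (N : ℕ) [NeZero N] :
    ((Γ₀(N) : Subgroup SL(2, ℤ)).map (mapGL ℝ) : Subgroup (GL (Fin 2) ℝ)) ≤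
      toConjAct (heckeDiagMatrix N)⁻¹ • 𝒮ℒ := by
  rintro _ ⟨γ, hγ, rfl⟩
  have hN : N ≠ 0 := NeZero.ne N
  rw [SetLike.mem_coe, CongruenceSubgroup.Gamma0_mem] at hγ
  obtain ⟨e, he⟩ : (N : ℤ) ∣ γ 1 0 := (ZMod.intCast_zmod_eq_zero_iff_dvd _ _).mp hγ
  obtain ⟨δ, hδ⟩ := unform_heckeDiagMatrix_mul hN γ e he
  rw [Subgroup.mem_pointwise_smul_iff_inv_smul_mem, ← map_inv, inv_inv, ConjAct.toConjAct_smul]
  exact ⟨δ, by rw [hδ, mul_inv_cancel_right]⟩

theorem exists_modularForm_uN (N : ℕ) [NeZero N] :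
    ∃ u : ModularForm Γ₀(N) 12, (u : ℍ → ℂ) = uN N := by
  let u0 := ModularForm.translate CuspForm.discriminant (heckeDiagMatrix N)
  have hle := unform_gamma0_le N
  exact ⟨{ toFun := u0
           holo' := u0.holo'
           bdd_at_cusps' := fun hc => u0.bdd_at_cusps' (hc.mono hle)
           slash_action_eq' := fun γ hγ => u0.slash_action_eq' γ (hle hγ) }, rfl⟩

end Fermat.Agent.S23
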