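import Mathlib
import Fermat.Agent.S23.Defs

set_option autoImplicit false

namespace Fermat.Agent.S23

open UpperHalfPlane CongruenceSubgroup ModularForm
open scoped MatrixGroups Manifold ModularForm Pointwise

local notation "Γ₀(" N ")" => CongruenceSubgroup.Gamma0 N

theorem unstab_mapGL_apply (γ : SL(2, ℤ)) (i j : Fin 2) :
    ((Matrix.SpecialLinearGroup.mapGL ℝ γ : GL (Fin 2) ℝ) : Matrix (Fin 2) (Fin 2) ℝ) i j
      = ((γ i j : ℤ) : ℝ) := rfl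

/-- The upper triangular matrix `[[g, b],[0, d]]` in `GL₂(ℝ)` (junk value `1` if `g d = 0`). -/
noncomputable def utGL (g : ℕ) (b : ℤ) (d : ℕ) : GL (Fin 2) ℝ :=
  if h : (g : ℝ) * (d : ℝ) ≠ 0 then upperTriangularGL g b d h else 1

theorem val_utGL {g d : ℕ} (hg : g ≠ 0) (hd : d ≠ 0) (b : ℤ) :
    ((utGL g b d : GL (Fin 2) ℝ) : Matrix (Fin 2) (Fin 2) ℝ) = !![(g : ℝ), (b : ℝ); 0, (d : ℝ)] := by
  have h : (g : ℝ) * (d : ℝ) ≠ 0 := mul_ne_zero (by exact_mod_cast hg) (by exact_mod_cast hd)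
  simp [utGL, h]

theorem det_utGL {g d : ℕ} (hg : g ≠ 0) (hd : d ≠ 0) (b : ℤ) :
    ((utGL g b d).det : ℝ) = (g : ℝ) * d := by
  rw [Matrix.GeneralLinearGroup.val_det_apply, val_utGL hg hd, Matrix.det_fin_two_of]
  ring

theorem det_utGL_pos {g d : ℕ} (hg : g ≠ 0) (hd : d ≠ 0) (b : ℤ) :
    0 < ((utGL g b d).det : ℝ) := by
  rw [det_utGL hg hd]
  have h1 : (0 : ℝ) < g := by exact_mod_cast Nat.pos_of_ne_zero hg
  have h2 : (0 : ℝ) < d := by exact_mod_cast Nat.pos_of_ne_zero hd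
  positivity

theorem denom_utGL {g d : ℕ} (hg : g ≠ 0) (hd : d ≠ 0) (b : ℤ) (τ : ℍ) :
    UpperHalfPlane.denom (utGL g b d) τ = d := by
  simp [UpperHalfPlane.denom, val_utGL hg hd]

theorem coe_utGL_smul {g d : ℕ} (hg : g ≠ 0) (hd : d ≠ 0) (b : ℤ) (τ : ℍ) :
    ((utGL g b d • τ : ℍ) : ℂ) = ((g : ℂ) * (τ : ℂ) + b) / d := by
  rw [UpperHalfPlane.coe_smul_of_det_pos (det_utGL_pos hg hd b)]
  simp [UpperHalfPlane.num, UpperHalfPlane.denom, val_utGL hg hd]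

theorem im_utGL_smul {g d : ℕ} (hg : g ≠ 0) (hd : d ≠ 0) (b : ℤ) (τ : ℍ) :
    (utGL g b d • τ : ℍ).im = (g : ℝ) * τ.im / d := by
  have h := congrArg Complex.im (coe_utGL_smul hg hd b τ)
  rw [UpperHalfPlane.coe_im] at h
  rw [h]
  have hd' : (d : ℂ) = ((d : ℝ) : ℂ) := by push_cast; rfl
  rw [hd', Complex.div_ofReal_im]
  simp

theorem σ_utGL {g d : ℕ} (hg : g ≠ 0) (hd : d ≠ 0) (b : ℤ) :
    UpperHalfPlane.σ (utGL g b d) = .refl ℝ ℂ := by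
  rw [UpperHalfPlane.σ, if_pos (det_utGL_pos hg hd b)]

theorem slash_utGL_apply (k : ℤ) {g d : ℕ} (hg : g ≠ 0) (hd : d ≠ 0) (b : ℤ) (f : ℍ → ℂ) (τ : ℍ) :
    (f ∣[k] utGL g b d) τ
      = f (utGL g b d • τ) * (((g : ℂ) * d) ^ (k - 1) * (d : ℂ) ^ (-k)) := by
  have h1 : (0 : ℝ) < g := by exact_mod_cast Nat.pos_of_ne_zero hg
  have h2 : (0 : ℝ) < d := by exact_mod_cast Nat.pos_of_ne_zero hd
  rw [ModularForm.slash_apply, σ_utGL hg hd, det_utGL hg hd, denom_utGL hg hd]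
  simp only [ContinuousAlgEquiv.refl_apply]
  rw [abs_of_pos (by positivity)]
  push_cast
  ring

/-- Arithmetic core of the Hermite decomposition of `diag(N,1) γ`. -/
theorem unstab_exists_hermite_data (N : ℕ) (hN : N ≠ 0) (a b c d : ℤ) (hdet : a * d - b * c = 1)
    (hc : ¬ (N : ℤ) ∣ c) :
    ∃ (g d' : ℕ) (p r x y : ℤ), g ≠ 0 ∧ d' ≠ 0 ∧ g * d' = N ∧ g < N ∧
      p * y - x * r = 1 ∧ (N : ℤ) * a = p * g ∧ c = r * g ∧
      (N : ℤ) * b = p * (y * N * b - x * d) + x * d' ∧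
      d = r * (y * N * b - x * d) + y * d' := by
  set g : ℕ := Int.gcd N c with hg
  have hgN : (g : ℤ) ∣ N := Int.gcd_dvd_left _ _
  have hgc : (g : ℤ) ∣ c := Int.gcd_dvd_right _ _
  have hg0 : g ≠ 0 := by
    intro h0
    rw [hg, Int.gcd_eq_zero_iff] at h0
    exact hN (by exact_mod_cast h0.1)
  obtain ⟨d'z, hd'z⟩ := hgN
  obtain ⟨r, hr⟩ := hgc
  have hgpos : (0 : ℤ) < g := by exact_mod_cast Nat.pos_of_ne_zero hg0
  have hNpos : (0 : ℤ) < N := by exact_mod_cast Nat.pos_of_ne_zero hN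
  have hd'pos : 0 < d'z := by
    by_contra hneg
    push Not at hneg
    have : (N : ℤ) ≤ 0 := by rw [hd'z]; exact mul_nonpos_of_nonneg_of_nonpos hgpos.le hneg
    omega
  obtain ⟨d', rfl⟩ : ∃ d' : ℕ, (d' : ℤ) = d'z := ⟨d'z.toNat, Int.toNat_of_nonneg hd'pos.le⟩
  have hd'0 : d' ≠ 0 := by
    intro h; rw [h] at hd'pos; simp at hd'pos
  have hgd' : g * d' = N := by exact_mod_cast hd'z.symm
  have hcop1 : IsCoprime (d' : ℤ) r := by
    have h1 : Int.gcd ((N : ℤ) / g) (c / g) = 1 := by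
      rw [hg]; exact Int.gcd_div_gcd_div_gcd (Int.gcd_pos_of_ne_zero_left _ (by exact_mod_cast hN))
    have h2 : (N : ℤ) / g = d' := by rw [hd'z]; exact Int.mul_ediv_cancel_left _ hgpos.ne'
    have h3 : c / g = r := by rw [hr]; exact Int.mul_ediv_cancel_left _ hgpos.ne'
    rw [h2, h3] at h1
    exact Int.isCoprime_iff_gcd_eq_one.mpr h1
  have hcop2 : IsCoprime a r := ⟨d, -(b * g), by rw [hr] at hdet; linear_combination hdet⟩
  have hcop : IsCoprime ((d' : ℤ) * a) r := IsCoprime.mul_left hcop1 hcop2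
  obtain ⟨u, v, huv⟩ := hcop
  have hlt : g < N := by
    rcases Nat.lt_or_ge g N with h | h
    · exact h
    · exfalso
      have hle : g ≤ N := Nat.le_of_dvd (Nat.pos_of_ne_zero hN) ⟨d', hgd'.symm⟩
      have heq : g = N := le_antisymm hle h
      apply hc
      rw [← heq]; exact ⟨r, hr⟩
  refine ⟨g, d', d' * a, r, -v, u, hg0, hd'0, hgd', hlt, ?_, ?_, hr.trans (mul_comm _ _), ?_, ?_⟩
  · linear_combination huv
  · rw [hd'z]; ring
  · rw [hr] at hdet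
    rw [hd'z]
    linear_combination (-(g * d' * b : ℤ)) * huv + (-v * d' : ℤ) * hdet
  · rw [hr] at hdet
    rw [hd'z]
    linear_combination (-d) * huv + (u * d' : ℤ) * hdet


theorem unstab_exists_hermite_decomp (N : ℕ) (hN : N ≠ 0) (γ : SL(2, ℤ)) (hγ : ¬ (N : ℤ) ∣ γ 1 0) :
    ∃ (g d' : ℕ) (b' : ℤ) (β : SL(2, ℤ)), g ≠ 0 ∧ d' ≠ 0 ∧ g * d' = N ∧ g < N ∧
      utGL N 0 1 * Matrix.SpecialLinearGroup.mapGL ℝ γ
        = Matrix.SpecialLinearGroup.mapGL ℝ β * utGL g b' d' := by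
  have hdet : γ 0 0 * γ 1 1 - γ 0 1 * γ 1 0 = 1 := by
    have h := γ.det_coe
    rw [Matrix.det_fin_two] at h
    exact h
  obtain ⟨g, d', p, r, x, y, hg0, hd'0, hgd', hlt, hpr, h00, h10, h01, h11⟩ :=
    unstab_exists_hermite_data N hN (γ 0 0) (γ 0 1) (γ 1 0) (γ 1 1) hdet hγ
  set β : SL(2, ℤ) := ⟨!![p, x; r, y], by rw [Matrix.det_fin_two_of]; exact hpr⟩ with hβ
  have hβ00 : ((Matrix.SpecialLinearGroup.mapGL ℝ β : GL (Fin 2) ℝ) : Matrix (Fin 2) (Fin 2) ℝ) 0 0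
      = (p : ℝ) := by rw [unstab_mapGL_apply]; simp [hβ]
  have hβ01 : ((Matrix.SpecialLinearGroup.mapGL ℝ β : GL (Fin 2) ℝ) : Matrix (Fin 2) (Fin 2) ℝ) 0 1
      = (x : ℝ) := by rw [unstab_mapGL_apply]; simp [hβ]
  have hβ10 : ((Matrix.SpecialLinearGroup.mapGL ℝ β : GL (Fin 2) ℝ) : Matrix (Fin 2) (Fin 2) ℝ) 1 0
      = (r : ℝ) := by rw [unstab_mapGL_apply]; simp [hβ]
  have hβ11 : ((Matrix.SpecialLinearGroup.mapGL ℝ β : GL (Fin 2) ℝ) : Matrix (Fin 2) (Fin 2) ℝ) 1 1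
      = (y : ℝ) := by rw [unstab_mapGL_apply]; simp [hβ]
  refine ⟨g, d', y * N * γ 0 1 - x * γ 1 1, β, hg0, hd'0, hgd', hlt, ?_⟩
  apply Matrix.GeneralLinearGroup.ext
  intro i j
  simp only [Matrix.GeneralLinearGroup.coe_mul, val_utGL hN one_ne_zero, val_utGL hg0 hd'0,
    Matrix.mul_apply, Fin.sum_univ_two]
  have e00 : ((N : ℝ)) * ((γ 0 0 : ℤ) : ℝ) = (p : ℝ) * (g : ℝ) := by exact_mod_cast h00
  have e10 : ((γ 1 0 : ℤ) : ℝ) = (r : ℝ) * (g : ℝ) := by exact_mod_cast h10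
  have e01 : ((N : ℝ)) * ((γ 0 1 : ℤ) : ℝ)
      = (p : ℝ) * ((y * N * γ 0 1 - x * γ 1 1 : ℤ) : ℝ) + (x : ℝ) * (d' : ℝ) := by
    exact_mod_cast h01
  have e11 : ((γ 1 1 : ℤ) : ℝ)
      = (r : ℝ) * ((y * N * γ 0 1 - x * γ 1 1 : ℤ) : ℝ) + (y : ℝ) * (d' : ℝ) := by
    exact_mod_cast h11
  fin_cases i <;> fin_cases j
  · simp [hβ00, hβ01, unstab_mapGL_apply γ]; linarith [e00]
  · simp [hβ00, hβ01, unstab_mapGL_apply γ]; push_cast at e01; linarith [e01]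
  · simp [hβ10, hβ11, unstab_mapGL_apply γ]; linarith [e10]
  · simp [hβ10, hβ11, unstab_mapGL_apply γ]; push_cast at e11; linarith [e11]


/-- The conjugate `[[a, N b],[c', d]]` of `[[a,b],[N c', d]]` by `diag(N,1)`. -/
def unstab_conjSL (N : ℕ) (γ : SL(2, ℤ)) (c' : ℤ) (hc : γ 1 0 = N * c') : SL(2, ℤ) :=
  ⟨!![γ 0 0, N * γ 0 1; c', γ 1 1], by
    have h := γ.det_coe
    rw [Matrix.det_fin_two] at h
    rw [Matrix.det_fin_two_of]
    rw [hc] at h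
    linarith⟩

theorem utGL_mul_mapGL (N : ℕ) (hN : N ≠ 0) (γ : SL(2, ℤ)) (c' : ℤ) (hc : γ 1 0 = N * c') :
    utGL N 0 1 * Matrix.SpecialLinearGroup.mapGL ℝ γ
      = Matrix.SpecialLinearGroup.mapGL ℝ (unstab_conjSL N γ c' hc) * utGL N 0 1 := by
  apply Matrix.GeneralLinearGroup.ext
  intro i j
  simp only [Matrix.GeneralLinearGroup.coe_mul, val_utGL hN one_ne_zero, Matrix.mul_apply,
    Fin.sum_univ_two, unstab_mapGL_apply]
  fin_cases i <;> fin_cases j <;> simp [unstab_conjSL, hc] <;> ring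

/-- Restrict a modular form to a smaller group. -/
def unstab_mfRestrict {Γ Γ' : Subgroup (GL (Fin 2) ℝ)} {k : ℤ} (h : Γ ≤ Γ') (f : ModularForm Γ' k) :
    ModularForm Γ k where
  toFun := f
  slash_action_eq' γ hγ := f.slash_action_eq' γ (h hγ)
  holo' := f.holo'
  bdd_at_cusps' hc := f.bdd_at_cusps' (hc.mono h)

@[simp] theorem unstab_coe_mfRestrict {Γ Γ' : Subgroup (GL (Fin 2) ℝ)} {k : ℤ} (h : Γ ≤ Γ')
    (f : ModularForm Γ' k) : ⇑(unstab_mfRestrict h f) = ⇑f := rfl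

theorem unstab_Gamma0_le_conj (N : ℕ) [NeZero N] :
    (Subgroup.map (Matrix.SpecialLinearGroup.mapGL ℝ) (Gamma0 N))
      ≤ ConjAct.toConjAct (utGL N 0 1)⁻¹ • (𝒮ℒ : Subgroup (GL (Fin 2) ℝ)) := by
  rintro _ ⟨γ, hγ, rfl⟩
  rw [map_inv, Subgroup.mem_inv_pointwise_smul_iff, ConjAct.toConjAct_smul]
  have hmem : ((γ 1 0 : ℤ) : ZMod N) = 0 := Gamma0_mem.mp hγ
  obtain ⟨c', hc⟩ : (N : ℤ) ∣ γ 1 0 := (ZMod.intCast_zmod_eq_zero_iff_dvd _ N).mp hmem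
  rw [utGL_mul_mapGL N (NeZero.ne N) γ c' hc, mul_inv_cancel_right]
  exact ⟨_, rfl⟩

/-- `N^11 Δ(Nτ)`, as a modular form of weight 12 and level `Γ₀(N)`. -/
noncomputable def uN0 (N : ℕ) [NeZero N] : ModularForm (Gamma0 N) 12 :=
  unstab_mfRestrict (unstab_Gamma0_le_conj N) (ModularForm.translate CuspForm.discriminant (utGL N 0 1))

theorem coe_uN0 (N : ℕ) [NeZero N] :
    ⇑(uN0 N) = (ModularForm.discriminant ∣[(12 : ℤ)] utGL N 0 1) := rfl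

theorem uN0_apply (N : ℕ) [NeZero N] (τ : ℍ) :
    uN0 N τ = ModularForm.discriminant (utGL N 0 1 • τ) * (N : ℂ) ^ (11 : ℕ) := by
  rw [coe_uN0, slash_utGL_apply 12 (NeZero.ne N) one_ne_zero]
  norm_num


open Real in
theorem unstab_disc_lower : ∃ c A : ℝ, 0 < c ∧ ∀ τ : ℍ, A ≤ τ.im →
    Real.exp (-2 * π * τ.im) ≤ c * ‖ModularForm.discriminant τ‖ := by
  obtain ⟨c, hc, h⟩ := ModularForm.exp_isBigO_discriminant.exists_pos
  rw [Asymptotics.IsBigOWith] at h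
  obtain ⟨A, hA⟩ := (UpperHalfPlane.atImInfty_mem _).mp h
  refine ⟨c, A, hc, fun τ hτ => ?_⟩
  have := hA τ hτ
  simp only [Set.mem_ofPred_eq, Real.norm_eq_abs, Real.abs_exp] at this
  exact this

open Real in
theorem unstab_disc_upper : ∃ c A : ℝ, 0 < c ∧ ∀ τ : ℍ, A ≤ τ.im →
    ‖ModularForm.discriminant τ‖ ≤ c * Real.exp (-2 * π * τ.im) := by
  have h0 := CuspFormClass.exp_decay_atImInfty (h := 1) CuspForm.discriminant one_pos
    one_mem_strictPeriods_SL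
  obtain ⟨c, hc, h⟩ := h0.exists_pos
  rw [Asymptotics.IsBigOWith] at h
  obtain ⟨A, hA⟩ := (UpperHalfPlane.atImInfty_mem _).mp h
  refine ⟨c, A, hc, fun τ hτ => ?_⟩
  have := hA τ hτ
  simp only [Set.mem_ofPred_eq, Real.norm_eq_abs, Real.abs_exp, div_one] at this
  exact this


open Real in
theorem unstab_no_exp_bound {s t K Y₀ : ℝ} (hst : s < t)
    (h : ∀ y : ℝ, Y₀ ≤ y → 0 < y →
      Real.exp (-2 * π * (s * y)) ≤ K * Real.exp (-2 * π * (t * y))) : False := by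
  set δ : ℝ := 2 * π * (t - s) with hδ
  have hδpos : 0 < δ := by
    have : 0 < t - s := sub_pos.mpr hst
    positivity
  set y : ℝ := max (max Y₀ 1) ((|K| + 1) / δ) with hy
  have hy1 : Y₀ ≤ y := le_trans (le_max_left _ _) (le_max_left _ _)
  have hy2 : 0 < y := lt_of_lt_of_le one_pos (le_trans (le_max_right _ _) (le_max_left _ _))
  have hy3 : (|K| + 1) / δ ≤ y := le_max_right _ _
  have h1 := h y hy1 hy2
  have hE : 0 < Real.exp (-2 * π * (t * y)) := Real.exp_pos _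
  have hsplit : Real.exp (-2 * π * (s * y)) = Real.exp (δ * y) * Real.exp (-2 * π * (t * y)) := by
    rw [← Real.exp_add]; congr 1; rw [hδ]; ring
  rw [hsplit] at h1
  have h2 : Real.exp (δ * y) ≤ K := le_of_mul_le_mul_right h1 hE
  have h3 : δ * y + 1 ≤ Real.exp (δ * y) := Real.add_one_le_exp _
  have h4 : |K| + 1 ≤ δ * y := by
    rw [div_le_iff₀ hδpos] at hy3
    linarith
  have h5 : K ≤ |K| := le_abs_self K
  linarith

theorem uN0_slash_ne (N : ℕ) [NeZero N] (γ : SL(2, ℤ)) (hγ : γ ∉ Gamma0 N) :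
    (⇑(uN0 N) ∣[(12 : ℤ)] γ) ≠ ⇑(uN0 N) := by
  intro heq
  have hN : N ≠ 0 := NeZero.ne N
  have hc : ¬ (N : ℤ) ∣ γ 1 0 := by
    intro hd
    apply hγ
    rw [Gamma0_mem]
    exact (ZMod.intCast_zmod_eq_zero_iff_dvd _ N).mpr hd
  obtain ⟨g, d', b', β, hg0, hd'0, hgd', hlt, hmat⟩ := unstab_exists_hermite_decomp N hN γ hc
  have h1 : (⇑(uN0 N) ∣[(12 : ℤ)] γ) = ModularForm.discriminant ∣[(12 : ℤ)] utGL g b' d' := by
    have hmat' : utGL N 0 1 * (γ : GL (Fin 2) ℝ) = (β : GL (Fin 2) ℝ) * utGL g b' d' := hmat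
    rw [coe_uN0, ModularForm.SL_slash, ← SlashAction.slash_mul, hmat', SlashAction.slash_mul]
    congr 1
    exact SlashInvariantFormClass.slash_action_eq CuspForm.discriminant _ ⟨β, rfl⟩
  rw [h1, coe_uN0] at heq
  -- pointwise identity
  have hpt : ∀ τ : ℍ, ModularForm.discriminant (utGL g b' d' • τ)
        * (((g : ℂ) * d') ^ ((12 : ℤ) - 1) * (d' : ℂ) ^ (-(12 : ℤ)))
      = ModularForm.discriminant (utGL N 0 1 • τ)
        * (((N : ℂ) * (1 : ℕ)) ^ ((12 : ℤ) - 1) * ((1 : ℕ) : ℂ) ^ (-(12 : ℤ))) := by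
    intro τ
    have := congrFun heq τ
    rwa [slash_utGL_apply 12 hg0 hd'0, slash_utGL_apply 12 hN one_ne_zero] at this
  set C1 : ℂ := ((g : ℂ) * d') ^ ((12 : ℤ) - 1) * (d' : ℂ) ^ (-(12 : ℤ)) with hC1
  set C2 : ℂ := ((N : ℂ) * (1 : ℕ)) ^ ((12 : ℤ) - 1) * ((1 : ℕ) : ℂ) ^ (-(12 : ℤ)) with hC2
  have hgC : (g : ℂ) ≠ 0 := by exact_mod_cast hg0
  have hdC : (d' : ℂ) ≠ 0 := by exact_mod_cast hd'0
  have hC1ne : C1 ≠ 0 := by
    rw [hC1]
    exact mul_ne_zero (zpow_ne_zero _ (mul_ne_zero hgC hdC)) (zpow_ne_zero _ hdC)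
  have hC1pos : 0 < ‖C1‖ := norm_pos_iff.mpr hC1ne
  clear_value C1 C2
  obtain ⟨c₁, A₁, hc₁, hlow⟩ := unstab_disc_lower
  obtain ⟨c₂, A₂, hc₂, hup⟩ := unstab_disc_upper
  have hgpos : (0 : ℝ) < g := by exact_mod_cast Nat.pos_of_ne_zero hg0
  have hdpos : (0 : ℝ) < d' := by exact_mod_cast Nat.pos_of_ne_zero hd'0
  have hNpos : (0 : ℝ) < N := by exact_mod_cast Nat.pos_of_ne_zero hN
  -- the rates
  have hrate : (g : ℝ) / d' < N := by
    have h1 : (g : ℝ) / d' ≤ g := div_le_self hgpos.le (by exact_mod_cast Nat.one_le_iff_ne_zero.mpr hd'0)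
    have h2 : (g : ℝ) < N := by exact_mod_cast hlt
    linarith
  refine unstab_no_exp_bound (s := (g : ℝ) / d') (t := N) (K := c₁ * (‖C2‖ / ‖C1‖) * c₂)
    (Y₀ := max (A₁ * d' / g) (A₂ / N)) hrate ?_
  intro y hy hypos
  set τ : ℍ := ⟨⟨0, y⟩, hypos⟩ with hτ
  have hτim : τ.im = y := rfl
  have him1 : (utGL g b' d' • τ).im = (g : ℝ) / d' * y := by
    rw [im_utGL_smul hg0 hd'0, hτim]; ring
  have him2 : (utGL N 0 1 • τ).im = (N : ℝ) * y := by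
    rw [im_utGL_smul hN one_ne_zero, hτim]; simp
  have hA1 : A₁ ≤ (utGL g b' d' • τ).im := by
    rw [him1]
    have : A₁ * d' / g ≤ y := le_trans (le_max_left _ _) hy
    rw [div_le_iff₀ hgpos] at this
    rw [div_mul_eq_mul_div, le_div_iff₀ hdpos]
    linarith
  have hA2 : A₂ ≤ (utGL N 0 1 • τ).im := by
    rw [him2]
    have : A₂ / N ≤ y := le_trans (le_max_right _ _) hy
    rw [div_le_iff₀ hNpos] at this
    linarith
  have hl := hlow _ hA1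
  have hu := hup _ hA2
  rw [him1] at hl
  rw [him2] at hu
  have hnorm : ‖ModularForm.discriminant (utGL g b' d' • τ)‖
      = ‖ModularForm.discriminant (utGL N 0 1 • τ)‖ * (‖C2‖ / ‖C1‖) := by
    have := congrArg norm (hpt τ)
    rw [norm_mul _ C1, norm_mul _ C2] at this
    field_simp
    linarith
  rw [hnorm] at hl
  calc Real.exp (-2 * Real.pi * ((g : ℝ) / d' * y))
      ≤ c₁ * (‖ModularForm.discriminant (utGL N 0 1 • τ)‖ * (‖C2‖ / ‖C1‖)) := hl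
    _ ≤ c₁ * ((c₂ * Real.exp (-2 * Real.pi * ((N : ℝ) * y))) * (‖C2‖ / ‖C1‖)) := by
        apply mul_le_mul_of_nonneg_left _ hc₁.le
        apply mul_le_mul_of_nonneg_right hu
        positivity
    _ = c₁ * (‖C2‖ / ‖C1‖) * c₂ * Real.exp (-2 * Real.pi * ((N : ℝ) * y)) := by ring


theorem utGL_eq_heckeDiagMatrix (N : ℕ) [NeZero N] : utGL N 0 1 = heckeDiagMatrix N := by
  apply Matrix.GeneralLinearGroup.ext
  intro i j
  rw [val_utGL (NeZero.ne N) one_ne_zero, val_heckeDiagMatrix (NeZero.ne N)]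
  fin_cases i <;> fin_cases j <;> simp

theorem coe_uN0_eq_uN (N : ℕ) [NeZero N] : ⇑(uN0 N) = uN N := by
  rw [coe_uN0, uN, utGL_eq_heckeDiagMatrix]

theorem mem_Gamma0_of_slash_uN_eq (N : ℕ) [NeZero N] (γ : SL(2, ℤ))
    (h : uN N ∣[(12 : ℤ)] γ = uN N) : γ ∈ Γ₀(N) := by
  by_contra hγ
  apply uN0_slash_ne N γ hγ
  rw [coe_uN0_eq_uN]
  exact h

end Fermat.Agent.S23
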