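import Mathlib
import Fermat.Agent.S23.Defs
import Fermat.Prelude.Sol.S_UpperHalfPlane_qCoeff_heckeT

set_option autoImplicit false

namespace Fermat.Agent.S23

open UpperHalfPlane
open scoped MatrixGroups Manifold ModularForm

open P2MW.S_UpperHalfPlane_qCoeff_heckeT.M4cP1W2 in
/-- `q`-expansion of `f ∣[k] diag(p, 1)` for a nice function `f`. -/
theorem qExpansion_slash_heckeDiagMatrix_coeff {f : ℍ → ℂ}
    (hper : Function.Periodic (f ∘ UpperHalfPlane.ofComplex) 1) (hhol : MDiff f)
    (hbdd : UpperHalfPlane.IsBoundedAtImInfty f) (k : ℤ) {p : ℕ} (hp : p ≠ 0) (n : ℕ) :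
    (qExpansion 1 (f ∣[k] ModularForm.heckeDiagMatrix p)).coeff n =
      if p ∣ n then (p : ℂ) ^ (k - 1) * (qExpansion 1 f).coeff (n / p) else 0 := by
  have hvadd : ∀ τ : ℍ, (f ∣[k] ModularForm.heckeDiagMatrix p) ((1 : ℝ) +ᵥ τ) =
      (f ∣[k] ModularForm.heckeDiagMatrix p) τ := by
    intro τ
    rw [ModularForm.slash_heckeDiagMatrix_apply k hp, ModularForm.slash_heckeDiagMatrix_apply k hp,
      apply_eq_of_coe_eq_add_nat hper p (coe_heckeDiagMatrix_smul_vadd hp τ)]
  have hper' : Function.Periodic ((f ∣[k] ModularForm.heckeDiagMatrix p) ∘ ofComplex) 1 :=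
    periodic_comp_ofComplex_of_vadd hvadd
  have hhol' : MDiff (f ∣[k] ModularForm.heckeDiagMatrix p) := hhol.slash k _
  have hbdd' : IsBoundedAtImInfty (f ∣[k] ModularForm.heckeDiagMatrix p) :=
    hbdd.slash k (heckeDiagMatrix_one_zero p)
  have hsum : ∀ τ : ℍ, HasSum (fun m : ℕ ↦
      (if p ∣ m then (p : ℂ) ^ (k - 1) * (qExpansion 1 f).coeff (m / p) else 0) •
        Function.Periodic.qParam 1 τ ^ m) ((f ∣[k] ModularForm.heckeDiagMatrix p) τ) := by
    intro τ
    rw [ModularForm.slash_heckeDiagMatrix_apply k hp]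
    convert hasSum_diag hp hper hhol hbdd k τ using 1
    funext m
    simp only [ModularFormClass.qCoeff, smul_eq_mul]
    split_ifs <;> simp
  exact (qExpansion_coeff_unique' hhol'.continuous
    (analyticAt_cuspFunction_zero one_pos hper' hhol' hbdd') hsum n).symm

theorem discriminant_isNice : IsNice ModularForm.discriminant where
  holo := ModularFormClass.holo CuspForm.discriminant
  periodic := SlashInvariantFormClass.periodic_comp_ofComplex CuspForm.discriminant
    (by simp)
  bdd := ModularForm.discriminant_isZeroAtImInfty.isBoundedAtImInfty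

theorem qExpansion_uN_coeff (N : ℕ) [NeZero N] (n : ℕ) :
    (qExpansion 1 (uN N)).coeff n =
      if N ∣ n then (N : ℂ) ^ 11 * (qExpansion 1 ModularForm.discriminant).coeff (n / N) else 0 := by
  have h := qExpansion_slash_heckeDiagMatrix_coeff discriminant_isNice.periodic
    discriminant_isNice.holo discriminant_isNice.bdd 12 (NeZero.ne N) n
  rw [uN, h]
  norm_num

end Fermat.Agent.S23
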