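import Mathlib
import Fermat.Agent.S23.Conj
import Fermat.Agent.S23.AutC
import Fermat.Agent.S23.Descent
import Fermat.Agent.S23.AlmostIntegral
import Fermat.Agent.S23.BddDenom
import Fermat.Agent.S23.Trivial
import Fermat.Agent.S23.UNqExp
import Fermat.Agent.S23.Linear
import Fermat.Agent.S23.UNForm
import Fermat.Agent.S23.UNStab
import Fermat.Prelude.Def_CuspForm_IntegralStructure
import Fermat.Prelude.Thm_CongruenceSubgroup_one_mem_strictPeriods_Gamma0
import Fermat.Prelude.Sol.S_CuspForm_intLattice_fg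

set_option autoImplicit false

namespace Fermat.Agent.S23

open UpperHalfPlane
open scoped MatrixGroups Manifold ModularForm

local notation "Γ₀(" N ")" => CongruenceSubgroup.Gamma0 N

/-- the `q`-expansion of the primitive element is rational with bounded denominators -/
theorem isBddRat_qExpansion_uN (N : ℕ) [NeZero N] : IsBddRat (qExpansion 1 (uN N)) := by
  obtain ⟨M, hM, hz⟩ := isBddRat_qExpansion_discriminant
  refine ⟨M, hM, fun n => ?_⟩
  rw [qExpansion_uN_coeff]
  split_ifs with h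
  · obtain ⟨z, hz⟩ := hz (n / N)
    refine ⟨(N : ℤ) ^ 11 * z, ?_⟩
    push_cast
    rw [← hz]
    ring
  · exact ⟨0, by simp⟩

lemma gamma0_le_SL (N : ℕ) :
    (Γ₀(N) : Subgroup (GL (Fin 2) ℝ)) ≤ 𝒮ℒ := by
  rintro _ ⟨γ, -, rfl⟩
  exact ⟨γ, rfl⟩

/-- **Conjugation theorem** for `Γ₀(N)`. -/
theorem exists_cuspForm_qExpansion_map (N : ℕ) [NeZero N] (k : ℤ) (f : CuspForm Γ₀(N) k)
    (σ : ℂ →+* ℂ) : ∃ g : CuspForm Γ₀(N) k, qExpansion 1 g = (qExpansion 1 f).map σ := by
  obtain ⟨u, hu⟩ := exists_modularForm_uN N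
  refine exists_cuspForm_conj (gamma0_le_SL N)
    (CongruenceSubgroup.one_mem_strictPeriods_Gamma0 N) u ?_ σ ?_ f
  · intro γ hγ
    rw [hu] at hγ
    exact Subgroup.mem_map_of_mem _ (mem_Gamma0_of_slash_uN_eq N γ hγ)
  · rw [hu]
    exact (isBddRat_qExpansion_uN N).map_eq σ

/-- `q`-expansions of level-one forms lie in the span of bounded rational series. -/
lemma qExpansion_levelOne_mem_span {w : ℤ} (h : ModularForm 𝒮ℒ w) :
    qExpansion 1 h ∈ Submodule.span ℂ {ψ : PowerSeries ℂ | IsBddRat ψ} := by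
  have hmem : h ∈ Submodule.span ℂ {h : ModularForm 𝒮ℒ w | IsBddRat (qExpansion 1 h)} := by
    rw [levelOne_span_isBddRat]; trivial
  induction hmem using Submodule.span_induction with
  | mem x hx => exact Submodule.subset_span hx
  | zero =>
    simp only [FunLike.coe_zero, UpperHalfPlane.qExpansion_zero]
    exact Submodule.zero_mem _
  | add x y _ _ hx hy =>
    rw [FunLike.coe_add, ModularForm.qExpansion_add one_pos one_mem_strictPeriods_SL]
    exact Submodule.add_mem _ hx hy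
  | smul t x _ hx =>
    rw [FunLike.coe_smul, ModularForm.qExpansion_smul one_pos one_mem_strictPeriods_SL]
    exact Submodule.smul_mem _ _ hx

lemma span_mul_isBddRat {ψ β : PowerSeries ℂ}
    (hψ : ψ ∈ Submodule.span ℂ {ψ : PowerSeries ℂ | IsBddRat ψ}) (hβ : IsBddRat β) :
    ψ * β ∈ Submodule.span ℂ {ψ : PowerSeries ℂ | IsBddRat ψ} := by
  induction hψ using Submodule.span_induction with
  | mem x hx => exact Submodule.subset_span (hx.mul hβ)
  | zero => rw [zero_mul]; exact Submodule.zero_mem _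
  | add x y _ _ hx hy => rw [add_mul]; exact Submodule.add_mem _ hx hy
  | smul t x _ hx => rw [smul_mul_assoc]; exact Submodule.smul_mem _ _ hx

/-- a cusp form on `Γ₀(N)` with rational coefficients has bounded denominators -/
theorem isBddRat_of_rational (N : ℕ) [NeZero N] (k : ℤ) (v : CuspForm Γ₀(N) k)
    (hv : ∀ n, (qExpansion 1 v).coeff n ∈ Set.range (algebraMap ℚ ℂ)) :
    IsBddRat (qExpansion 1 v) := by
  obtain ⟨u, hu⟩ := exists_modularForm_uN N
  have h1 := CongruenceSubgroup.one_mem_strictPeriods_Gamma0 N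
  have hustab : ∀ γ : SL(2, ℤ), (u : ℍ → ℂ) ∣[(12 : ℤ)] γ = u →
      (γ : GL (Fin 2) ℝ) ∈ (Γ₀(N) : Subgroup (GL (Fin 2) ℝ)) := by
    intro γ hγ
    rw [hu] at hγ
    exact Subgroup.mem_map_of_mem _ (mem_Gamma0_of_slash_uN_eq N γ hγ)
  obtain ⟨m, w₀, d, b, hd0, hlin⟩ :=
    exists_linear_relation (ModularFormClass.modularForm v) u hustab
  obtain ⟨m', c, hmonic⟩ := exists_monic_relation (ModularFormClass.modularForm v)
  have nv : IsNice (v : ℍ → ℂ) := isNice_of_modularForm h1 v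
  have nu : IsNice (u : ℍ → ℂ) := isNice_of_modularForm h1 u
  have nd : IsNice (d : ℍ → ℂ) := isNice_of_modularForm one_mem_strictPeriods_SL d
  have nb : ∀ l, IsNice (b l : ℍ → ℂ) := fun l =>
    isNice_of_modularForm one_mem_strictPeriods_SL (b l)
  have nc : ∀ i, IsNice (c i : ℍ → ℂ) := fun i =>
    isNice_of_modularForm one_mem_strictPeriods_SL (c i)
  have hubdd : IsBddRat (qExpansion 1 (u : ℍ → ℂ)) := by
    rw [hu]; exact isBddRat_qExpansion_uN N
  set φ := qExpansion 1 (v : ℍ → ℂ) with hφ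
  have hlinF : (d : ℍ → ℂ) * (v : ℍ → ℂ) =
      ∑ l : Fin m, (b l : ℍ → ℂ) * (u : ℍ → ℂ) ^ (l : ℕ) := by
    ext τ
    simpa using hlin τ
  have hqlin : qExpansion 1 (d : ℍ → ℂ) * φ =
      ∑ l : Fin m, qExpansion 1 (b l : ℍ → ℂ) * qExpansion 1 (u : ℍ → ℂ) ^ (l : ℕ) := by
    rw [hφ, ← nd.qExpansion_mul nv, hlinF,
      IsNice.qExpansion_sum _ fun l _ => (nb l).mul (nu.pow _)]
    refine Finset.sum_congr rfl fun l _ => ?_
    rw [(nb l).qExpansion_mul (nu.pow _), nu.qExpansion_pow]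
  have hmonicF : (v : ℍ → ℂ) ^ m' +
      ∑ i : Fin m', (c i : ℍ → ℂ) * (v : ℍ → ℂ) ^ (m' - 1 - (i : ℕ)) = 0 := by
    ext τ
    simpa using hmonic τ
  have hqmonic : φ ^ m' +
      ∑ i : Fin m', qExpansion 1 (c i : ℍ → ℂ) * φ ^ (m' - 1 - (i : ℕ)) = 0 := by
    have := congrArg (qExpansion 1) hmonicF
    rw [(nv.pow _).qExpansion_add (IsNice.sum _ fun i _ => (nc i).mul (nv.pow _)),
      nv.qExpansion_pow, IsNice.qExpansion_sum _ fun i _ => (nc i).mul (nv.pow _),
      UpperHalfPlane.qExpansion_zero] at this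
    rw [← this]
    congr 1
    refine Finset.sum_congr rfl fun i _ => ?_
    rw [(nc i).qExpansion_mul (nv.pow _), nv.qExpansion_pow]
  have hqd0 : qExpansion 1 (d : ℍ → ℂ) ≠ 0 := fun h =>
    hd0 ((ModularForm.qExpansion_eq_zero_iff one_pos one_mem_strictPeriods_SL d).mp h)
  refine isBddRat_of_relations_aux
    (fun φ D hD h => exists_int_of_almost_integral φ D hD h) φ hv
    (fun i => qExpansion 1 (c i : ℍ → ℂ)) (fun i => qExpansion_levelOne_mem_span (c i)) hqmonic
    (qExpansion 1 (d : ℍ → ℂ))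
    (∑ l : Fin m, qExpansion 1 (b l : ℍ → ℂ) * qExpansion 1 (u : ℍ → ℂ) ^ (l : ℕ)) hqd0
    (qExpansion_levelOne_mem_span d) ?_ hqlin
  exact Submodule.sum_mem _ fun l _ =>
    span_mul_isBddRat (qExpansion_levelOne_mem_span (b l)) (hubdd.pow _)

/-- **Integral structure** in every weight and level. -/
theorem hasIntegralStructure (N : ℕ) [NeZero N] (k : ℤ) : CuspForm.HasIntegralStructure N k := by
  have := finiteDimensional_cuspForm N k
  have hrat := span_rational_of_stable (qCoeffLin N k) (qCoeffLin_injective N k)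
    (fun x hx => by
      by_contra hx'
      obtain ⟨σ, hσ⟩ := exists_ringHom_ne hx'
      exact hσ (hx σ))
    (fun σ v => by
      obtain ⟨g, hg⟩ := exists_cuspForm_qExpansion_map N k v σ
      refine ⟨g, fun n => ?_⟩
      rw [qCoeffLin_apply, qCoeffLin_apply, hg, PowerSeries.coeff_map])
  unfold CuspForm.HasIntegralStructure
  rw [eq_top_iff, ← hrat]
  apply Submodule.span_le.mpr
  intro v hv
  have hv' : ∀ n, (qExpansion 1 v).coeff n ∈ Set.range (algebraMap ℚ ℂ) := fun n => by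
    simpa [qCoeffLin_apply] using hv n
  obtain ⟨M, hM, hz⟩ := isBddRat_of_rational N k v hv'
  have hMv : (M : ℤ) • v ∈ CuspForm.intLattice N k := by
    refine Submodule.subset_span fun n => ?_
    obtain ⟨z, hz⟩ := hz n
    refine ⟨z, ?_⟩
    rw [P2MW.S_CuspForm_intLattice_fg.W3WsD.qCoeff_zsmul]
    simpa [ModularFormClass.qCoeff] using hz
  have hMC : (M : ℂ) ≠ 0 := by exact_mod_cast hM
  have hveq : v = ((M : ℂ)⁻¹) • ((M : ℤ) • v) := by
    rw [← Int.cast_smul_eq_zsmul ℂ, smul_smul]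
    simp [hMC]
  rw [hveq]
  exact Submodule.smul_mem _ _ (Submodule.subset_span hMv)

end Fermat.Agent.S23
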