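import Mathlib
import Fermat.Prelude.Def_CuspForm_HeckeAlgebra
import Fermat.Prelude.Def_CuspForm_IntegralStructure
import Fermat.Prelude.Thm_CuspForm_intLattice_fg
import Fermat.Prelude.Thm_CuspForm_mem_intLattice_of_mem_heckeAlgebra

set_option autoImplicit false

namespace Fermat.Agent.S23

open UpperHalfPlane
open scoped MatrixGroups Manifold ModularForm

/-- Restriction of an element of the Hecke algebra to the integral lattice. -/
noncomputable def heckeFiniteRestrict (N : ℕ) [NeZero N] (k : ℤ) (hk : 1 ≤ k) (S : Set ℕ) :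
    CuspForm.heckeAlgebra N k S →ₗ[ℤ]
      (CuspForm.intLattice N k →ₗ[ℤ] CuspForm.intLattice N k) where
  toFun t := ((t : Module.End ℂ (CuspForm (CongruenceSubgroup.Gamma0 N) k)).restrictScalars ℤ).restrict
    (p := CuspForm.intLattice N k) (q := CuspForm.intLattice N k)
    (fun _ hf => CuspForm.mem_intLattice_of_mem_heckeAlgebra hk t.2 hf)
  map_add' t t' := by
    ext f
    rfl
  map_smul' c t := by
    ext f
    rfl

theorem heckeFiniteRestrict_apply (N : ℕ) [NeZero N] (k : ℤ) (hk : 1 ≤ k) (S : Set ℕ)
    (t : CuspForm.heckeAlgebra N k S) (f : CuspForm.intLattice N k) :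
    ((heckeFiniteRestrict N k hk S t f : CuspForm.intLattice N k) :
      CuspForm (CongruenceSubgroup.Gamma0 N) k) =
      (t : Module.End ℂ (CuspForm (CongruenceSubgroup.Gamma0 N) k)) f := rfl

theorem heckeFiniteRestrict_injective (N : ℕ) [NeZero N] (k : ℤ) (hk : 1 ≤ k) (S : Set ℕ)
    (h : CuspForm.HasIntegralStructure N k) :
    Function.Injective (heckeFiniteRestrict N k hk S) := by
  rw [← LinearMap.ker_eq_bot, LinearMap.ker_eq_bot']
  intro t ht
  apply Subtype.ext
  have hzero : ∀ f ∈ (CuspForm.intLattice N k : Set (CuspForm (CongruenceSubgroup.Gamma0 N) k)),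
      (t : Module.End ℂ (CuspForm (CongruenceSubgroup.Gamma0 N) k)) f = 0 := by
    intro f hf
    have := congrArg (fun g => ((g ⟨f, hf⟩ : CuspForm.intLattice N k) :
      CuspForm (CongruenceSubgroup.Gamma0 N) k)) ht
    simpa [heckeFiniteRestrict_apply] using this
  apply LinearMap.ext_on_range (v := fun f : (CuspForm.intLattice N k) =>
    (f : CuspForm (CongruenceSubgroup.Gamma0 N) k))
  · rw [Subtype.range_coe_subtype]
    exact h
  · intro f
    simpa using hzero f.1 f.2

theorem heckeFinite_isTorsionFree_intLattice (N : ℕ) (k : ℤ) :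
    Module.IsTorsionFree ℤ (CuspForm.intLattice N k) := by
  have h1 : IsAddTorsionFree (CuspForm (CongruenceSubgroup.Gamma0 N) k) :=
    IsAddTorsionFree.of_isTorsionFree ℂ _
  have h2 : Module.IsTorsionFree ℤ (CuspForm (CongruenceSubgroup.Gamma0 N) k) := inferInstance
  exact Function.Injective.moduleIsTorsionFree
    (fun f : CuspForm.intLattice N k => (f : CuspForm (CongruenceSubgroup.Gamma0 N) k))
    Subtype.val_injective (fun _ _ => rfl)

theorem moduleFinite_heckeAlgebra_of_hasIntegralStructure (N : ℕ) [NeZero N] (k : ℤ) (hk : 1 ≤ k)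
    (S : Set ℕ) (h : CuspForm.HasIntegralStructure N k) :
    Module.Finite ℤ (CuspForm.heckeAlgebra N k S) := by
  have h1 : Module.Finite ℤ (CuspForm.intLattice N k) :=
    Module.Finite.iff_fg.mpr (CuspForm.intLattice_fg N k)
  have h2 : Module.IsTorsionFree ℤ (CuspForm.intLattice N k) :=
    heckeFinite_isTorsionFree_intLattice N k
  have h3 : Module.Free ℤ (CuspForm.intLattice N k) := Module.free_of_finite_type_torsion_free'
  have h4 : Module.Finite ℤ (CuspForm.intLattice N k →ₗ[ℤ] CuspForm.intLattice N k) :=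
    inferInstance
  exact Module.Finite.of_injective (heckeFiniteRestrict N k hk S)
    (heckeFiniteRestrict_injective N k hk S h)

end Fermat.Agent.S23
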